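import Fermat.Agent.ECFormal.Level
import Mathlib.Data.Nat.Choose.Lucas
import Mathlib.LinearAlgebra.Matrix.NonsingularInverse

/-!
# Elements fixed by inertia

* lifts fixed by inertia of residues `c * x ^ p ^ k`;
* the residual characters of distinct classes of the decomposition group are independent, in the
  exact form `Λ * (d i (a j)) = 1`;
* the valuation of a nonzero element fixed by inertia is an integral power of the valuation of `p`.
-/

set_option autoImplicit false

noncomputable section

namespace Fermat.Agent.ECFormal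

open Fermat.Agent.Galois (Qbar GalQ)
open Polynomial

variable {A : ValuationSubring Qbar} {p : ℕ} {L : IntermediateField ℚ Qbar}
variable [Normal ℚ L] [FiniteDimensional ℚ L]

theorem exists_fixed_lift (hA : A.LiesOverPrime p) (hp : p.Prime) :
    ∃ (k : ℕ) (c : ℤ), ¬ (p : ℤ) ∣ c ∧ ∀ x ∈ L, A.valuation x ≤ 1 →
      ∃ a ∈ L, A.valuation a ≤ 1 ∧ (∀ σ ∈ localInertia L A, σ a = a) ∧
        A.valuation (a - (c : Qbar) * x ^ p ^ k) < 1 := by
  classical
  have := finite_quotient (L := L) le_rfl
  have := Fintype.ofFinite (GalQ ⧸ L.fixingSubgroup)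
  set S := Finset.univ.filter fun c : GalQ ⧸ L.fixingSubgroup => c.out ∈ localInertia L A with hS
  have hn0 : 0 < S.card := Finset.card_pos.mpr ⟨_, Finset.mem_filter.mpr
    ⟨Finset.mem_univ _, (out_mem_iff (fixing_le_localInertia L A) 1).mpr (one_mem _)⟩⟩
  obtain ⟨k, m, hpm, hcard⟩ := Nat.exists_eq_pow_mul_and_not_dvd hn0.ne' p hp.ne_one
  set n := p ^ k * m with hn
  have hle : p ^ k ≤ n := Nat.le_mul_of_pos_right _ (Nat.pos_of_ne_zero (by
    rintro rfl
    exact hpm (dvd_zero p)))
  refine ⟨k, (-1) ^ p ^ k * (n.choose (p ^ k) : ℕ), ?_, fun x hx hv => ?_⟩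
  · intro h
    have h' : (p : ℤ) ∣ ((n.choose (p ^ k) : ℕ) : ℤ) :=
      (IsUnit.dvd_mul_left ((isUnit_one.neg).pow _)).mp h
    have := Fact.mk hp
    have hmod := Choose.choose_pow_mul_pow_mul_modEq_choose_nat (p := p) (a := m) (b := 1) (k := k)
    rw [mul_one, Nat.choose_one_right] at hmod
    exact hpm ((Nat.ModEq.dvd_iff hmod dvd_rfl).mp (Int.natCast_dvd_natCast.mp h'))
  · have hconj : ∀ c ∈ S, c.out x ∈ A := fun c hc =>
      (A.valuation_le_one_iff _).mp ((valuation_apply_of_mem_localGroup
        (localInertia_le_localGroup L A (Finset.mem_filter.mp hc).2) hA hp hx).le.trans hv)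
    set P : Polynomial A := ∏ c ∈ S.attach, (X - C ⟨_, hconj c.1 c.2⟩) with hP
    have hmap : P.map A.subtype = ∏ c ∈ S, (X - C (c.out x)) := by
      rw [hP, Polynomial.map_prod, ← Finset.prod_attach S]
      exact Finset.prod_congr rfl fun c _ => by simp
    refine ⟨((P.coeff (n - p ^ k) : A) : Qbar), ?_,
      (A.valuation_le_one_iff _).mpr (SetLike.coe_mem _), ?_, ?_⟩
    · let q : Polynomial L := ∏ c ∈ S, (X - C ⟨c.out x, apply_mem_level _ hx⟩)
      have hq : q.map (algebraMap L Qbar) = P.map A.subtype := by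
        rw [hmap, Polynomial.map_prod]
        exact Finset.prod_congr rfl fun c _ => by simp
      obtain ⟨y, hy⟩ : ∃ y : L, algebraMap L Qbar y = A.subtype (P.coeff (n - p ^ k)) :=
        ⟨q.coeff (n - p ^ k), by rw [← coeff_map, hq, coeff_map]⟩
      rw [show ((P.coeff (n - p ^ k) : A) : Qbar) = A.subtype (P.coeff (n - p ^ k)) from rfl, ← hy]
      exact y.2
    · intro σ hσ
      have hfix : (P.map A.subtype).map (σ : Qbar →+* Qbar) = P.map A.subtype := by
        rw [hmap, Polynomial.map_prod]
        simp only [Polynomial.map_sub, map_X, map_C, RingHom.coe_coe]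
        exact prod_out_translate (fixing_le_localInertia L A) hσ hx fun y => X - C y
      have h := congrArg (fun q => coeff q (n - p ^ k)) hfix
      simpa [coeff_map] using h
    · have hres : P.map (IsLocalRing.residue A) = (X + C
          (-IsLocalRing.residue A ⟨x, (A.valuation_le_one_iff x).mp hv⟩)) ^ n := by
        rw [hP, Polynomial.map_prod]
        have hcard' : S.attach.card = n := by rw [Finset.card_attach]; exact hcard
        rw [← hcard', ← Finset.prod_const]
        refine Finset.prod_congr rfl fun c _ => ?_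
        rw [Polynomial.map_sub, map_X, map_C, map_neg, sub_eq_add_neg]
        congr 3
        rw [← sub_eq_zero, ← map_sub, IsLocalRing.residue_eq_zero_iff, A.valuation_lt_one_iff]
        exact valuation_sub_lt_one_of_mem_localInertia (Finset.mem_filter.mp c.2).2 hx hv
      have h := congrArg (fun q => coeff q (n - p ^ k)) hres
      simp only [coeff_map, coeff_X_add_C_pow, Nat.choose_symm hle] at h
      rw [Nat.sub_sub_self hle, neg_pow, ← map_pow, ← map_natCast (IsLocalRing.residue A),
        ← map_one (IsLocalRing.residue A), ← map_neg, ← map_pow, ← map_mul, ← map_mul,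
        ← sub_eq_zero, ← map_sub, IsLocalRing.residue_eq_zero_iff, A.valuation_lt_one_iff] at h
      push_cast at h ⊢
      convert h using 3
      ring

/-- Independence of the residual characters of distinct classes of the decomposition group. -/
theorem exists_dual_family (hA : A.LiesOverPrime p) (hp : p.Prime) {ι : Type} [Fintype ι]
    [DecidableEq ι] (d : ι → GalQ) (hd : ∀ i, d i ∈ A.decompositionSubgroup ℚ)
    (hne : ∀ i j, i ≠ j → (d i)⁻¹ * d j ∉ localInertia L A) :
    ∃ (N : ℕ) (a : Fin N → Qbar) (Λ : ι → Fin N → Qbar),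
      (∀ j, a j ∈ L) ∧ (∀ j, A.valuation (a j) ≤ 1) ∧
      (∀ j, ∀ σ ∈ localInertia L A, σ (a j) = a j) ∧
      (∀ i j, A.valuation (Λ i j) ≤ 1) ∧
      ∀ i i', ∑ j, Λ i j * d i' (a j) = if i = i' then 1 else 0 := by
  classical
  obtain ⟨k, c, hc, hlift⟩ := exists_fixed_lift (L := L) hA hp
  -- the monoid `L ∩ A` and the residual characters
  let M : Submonoid Qbar := A.toSubring.toSubmonoid ⊓ L.toSubfield.toSubring.toSubmonoid
  have hM : ∀ x : M, ∀ i, d i x.1 ∈ A := fun x i =>
    Galois.decomposition_apply_mem (hd i) x.2.1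
  let χ : ι → (M →* IsLocalRing.ResidueField A) := fun i =>
    { toFun := fun x => IsLocalRing.residue A ⟨d i x.1, hM x i⟩ ^ p ^ k
      map_one' := by
        have : (⟨d i ((1 : M) : Qbar), hM 1 i⟩ : A) = 1 := Subtype.ext (by simp)
        simp only [this, map_one, one_pow]
      map_mul' := fun x y => by
        have : (⟨d i ((x * y : M) : Qbar), hM (x * y) i⟩ : A) =
            ⟨d i x.1, hM x i⟩ * ⟨d i y.1, hM y i⟩ := Subtype.ext (by simp)
        simp only [this, map_mul, mul_pow] }
  have hchar := Galois.place_charP_residueField hA hp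
  have := Fact.mk hp
  have := ExpChar.prime (R := IsLocalRing.ResidueField A) hp
  have hinj : Function.Injective χ := by
    intro i i' h
    by_contra hii
    refine hne i i' hii (mem_localInertia_iff.mpr ?_)
    refine Galois.exists_inertia_eq_on L hA hp (σ := (d i)⁻¹ * d i') (fun x hx hxi => ?_) |>.imp
      fun e he => ⟨he.1, fun y hy => (he.2 y hy).symm⟩
    have h1 := DFunLike.congr_fun h ⟨x, Galois.place_mem_of_isIntegral A hxi, hx⟩
    have h2 := iterateFrobenius_inj (IsLocalRing.ResidueField A) p k h1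
    rw [← sub_eq_zero, ← map_sub, IsLocalRing.residue_eq_zero_iff, A.valuation_lt_one_iff] at h2
    rw [A.mem_nonunits_iff, ← valuation_apply_of_mem_decomposition (hd i) hA hp, map_sub,
      AlgEquiv.mul_apply, ← AlgEquiv.mul_apply, mul_inv_cancel, AlgEquiv.one_apply,
      Valuation.map_sub_swap]
    exact h2
  have hli := (linearIndependent_monoidHom M (IsLocalRing.ResidueField A)).comp χ hinj
  -- the value vectors span
  let w : M → ι → IsLocalRing.ResidueField A := fun x i => χ i x
  have hspan : Submodule.span (IsLocalRing.ResidueField A) (Set.range w) = ⊤ := by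
    by_contra htop
    obtain ⟨f, hf0, hf⟩ := Submodule.exists_dual_map_eq_bot_of_lt_top (lt_top_iff_ne_top.mpr htop)
      inferInstance
    refine hf0 (LinearMap.ext fun v => ?_)
    have hzero : ∀ i, f (Pi.single i 1) = 0 := by
      refine Fintype.linearIndependent_iff.mp hli (fun i => f (Pi.single i 1)) ?_
      funext x
      have hx : f (w x) = 0 := by
        have : f (w x) ∈ (Submodule.span _ (Set.range w)).map f :=
          Submodule.mem_map_of_mem (Submodule.subset_span ⟨x, rfl⟩)
        rwa [hf, Submodule.mem_bot] at this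
      rw [pi_eq_sum_univ' (w x), map_sum] at hx
      simp only [Finset.sum_apply, Pi.smul_apply, Function.comp_apply, smul_eq_mul, Pi.zero_apply]
      rw [← hx]
      refine Finset.sum_congr rfl fun i _ => ?_
      rw [map_smul, smul_eq_mul, mul_comm]
    rw [LinearMap.zero_apply, pi_eq_sum_univ' v, map_sum]
    exact Finset.sum_eq_zero fun i _ => by rw [map_smul, hzero i, smul_zero]
  have hmem : ∀ i : ι, Pi.single i (1 : IsLocalRing.ResidueField A) ∈
      Submodule.span (IsLocalRing.ResidueField A) (Set.range w) := fun i => hspan ▸ trivial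
  choose μ hμ using fun i => Finsupp.mem_span_range_iff_exists_finsupp.mp (hmem i)
  let T : Finset M := Finset.univ.biUnion fun i => (μ i).support
  choose lift hliftL hliftv hliftfix hliftres using fun x : M =>
    hlift x.1 x.2.2 ((A.valuation_le_one_iff _).mpr x.2.1)
  -- residual computation of `d i (lift x)`
  have hd_lift : ∀ x : M, ∀ i, ∀ h : d i (lift x) ∈ A,
      IsLocalRing.residue A ⟨d i (lift x), h⟩ = (c : IsLocalRing.ResidueField A) * w x i := by
    intro x i h
    change _ = _ * IsLocalRing.residue A ⟨d i x.1, hM x i⟩ ^ p ^ k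
    rw [← map_intCast (IsLocalRing.residue A), ← map_pow, ← map_mul, ← sub_eq_zero, ← map_sub,
      IsLocalRing.residue_eq_zero_iff, A.valuation_lt_one_iff]
    have h2 := hliftres x
    rw [← valuation_apply_of_mem_decomposition (hd i) hA hp, map_sub, map_mul, map_intCast,
      map_pow] at h2
    exact h2
  let e := (Fintype.equivFin T).symm
  let a : Fin (Fintype.card T) → Qbar := fun j => lift (e j)
  have haA : ∀ i j, d i (a j) ∈ A := fun i j =>
    Galois.decomposition_apply_mem (hd i) ((A.valuation_le_one_iff _).mp (hliftv _))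
  let D : Matrix (Fin (Fintype.card T)) ι A := Matrix.of fun j i => ⟨d i (a j), haA i j⟩
  choose sec hsec using IsLocalRing.residue_surjective (R := A)
  let Λ₀ : Matrix ι (Fin (Fintype.card T)) A := Matrix.of fun i j => sec (μ i (e j))
  have hB : (Λ₀ * D).map (IsLocalRing.residue A) =
      (c : IsLocalRing.ResidueField A) • (1 : Matrix ι ι (IsLocalRing.ResidueField A)) := by
    ext i i'
    rw [Matrix.map_apply, Matrix.mul_apply, map_sum, Matrix.smul_apply, Matrix.one_apply]
    have hsum : ∑ x ∈ T, μ i x * w x i' = if i = i' then 1 else 0 := by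
      have h := congrFun (hμ i) i'
      rw [Finsupp.sum_of_support_subset _
        (Finset.subset_biUnion_of_mem (fun i => (μ i).support) (Finset.mem_univ i))
        (fun x a => a • w x) (fun _ _ => zero_smul _ _)] at h
      rw [Finset.sum_apply, Pi.single_apply] at h
      rw [if_congr eq_comm rfl rfl]
      exact h
    rw [smul_eq_mul, ← hsum, Finset.mul_sum, ← Finset.sum_coe_sort T]
    refine Fintype.sum_equiv e _ _ fun j => ?_
    rw [map_mul]
    change IsLocalRing.residue A (sec _) * IsLocalRing.residue A ⟨_, _⟩ = _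
    rw [hsec, hd_lift (e j) i' (haA i' j)]
    ring
  have hc0 : (c : IsLocalRing.ResidueField A) ≠ 0 := fun h =>
    hc ((CharP.intCast_eq_zero_iff _ p c).mp h)
  have hunit : IsUnit (Λ₀ * D).det := by
    rw [← isUnit_map_iff (IsLocalRing.residue A), RingHom.map_det, RingHom.mapMatrix_apply, hB,
      Matrix.det_smul, Matrix.det_one, mul_one]
    exact (isUnit_iff_ne_zero.mpr hc0).pow _
  let Λ := (Λ₀ * D)⁻¹ * Λ₀
  refine ⟨_, a, fun i j => (Λ i j : Qbar), fun j => hliftL _, fun j => hliftv _,
    fun j => hliftfix _, fun i j => (A.valuation_le_one_iff _).mpr (SetLike.coe_mem _),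
    fun i i' => ?_⟩
  have h1 : Λ * D = 1 := by rw [Matrix.mul_assoc, Matrix.nonsing_inv_mul _ hunit]
  have h2 := congrArg (fun M : Matrix ι ι A => ((M i i' : A) : Qbar)) h1
  simp only [Matrix.mul_apply, Matrix.one_apply] at h2
  rw [show ((∑ j, Λ i j * D j i' : A) : Qbar) = A.subtype (∑ j, Λ i j * D j i') from rfl,
    map_sum] at h2
  refine h2.trans ?_
  split_ifs <;> rfl

omit [Normal ℚ L] [FiniteDimensional ℚ L] in
/-- A finite normal level containing a given finite set. -/
theorem exists_normal_level (s : Set Qbar) [Finite s] :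
    ∃ L : IntermediateField ℚ Qbar, Normal ℚ L ∧ FiniteDimensional ℚ L ∧ s ⊆ L := by
  have halg : Algebra.IsAlgebraic ℚ Qbar := AlgebraicClosure.isAlgebraic ℚ
  have hgal : IsGalois ℚ Qbar := FFG.isGalois_ratAlgClosure
  have hnormal : Normal ℚ Qbar := hgal.to_normal
  have : FiniteDimensional ℚ (IntermediateField.adjoin ℚ s) :=
    IntermediateField.finiteDimensional_adjoin fun x _ => Algebra.IsIntegral.isIntegral x
  exact ⟨IntermediateField.normalClosure ℚ (IntermediateField.adjoin ℚ s) Qbar,
    @normalClosure.normal ℚ (IntermediateField.adjoin ℚ s) Qbar _ _ _ _ _ hnormal,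
    inferInstance,
    (IntermediateField.subset_adjoin ℚ s).trans (IntermediateField.le_normalClosure _)⟩

/-- Classes of the decomposition group modulo the local inertia, with representatives. -/
theorem exists_local_representatives (A : ValuationSubring Qbar) :
    ∃ (ι : Type) (_ : Fintype ι) (d : ι → GalQ), (∀ i, d i ∈ A.decompositionSubgroup ℚ) ∧
      (∀ i j, i ≠ j → (d i)⁻¹ * d j ∉ localInertia L A) ∧
      ∀ σ ∈ localGroup L A, ∃ i, (d i)⁻¹ * σ ∈ localInertia L A := by
  classical
  have := finite_quotient (L := L) (fixing_le_localInertia L A)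
  let ι := {c : GalQ ⧸ localInertia L A // c.out ∈ localGroup L A}
  have hrep : ∀ c : ι, ∃ d ∈ A.decompositionSubgroup ℚ, d⁻¹ * c.1.out ∈ localInertia L A := by
    intro c
    obtain ⟨d, hd, h⟩ := mem_localGroup_iff.mp c.2
    refine ⟨d, hd, fixing_le_localInertia L A ?_⟩
    refine (IntermediateField.mem_fixingSubgroup_iff _ _).mpr fun x hx => ?_
    rw [AlgEquiv.mul_apply, h x hx, ← AlgEquiv.mul_apply, inv_mul_cancel, AlgEquiv.one_apply]
  choose d hd hdmem using hrep
  refine ⟨ι, Fintype.ofFinite ι, d, hd, fun i j hij h => hij ?_, fun σ hσ => ?_⟩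
  · refine Subtype.ext ?_
    rw [← QuotientGroup.out_eq' i.1, ← QuotientGroup.out_eq' j.1]
    refine QuotientGroup.eq.mpr ?_
    have h2 := mul_mem (mul_mem (inv_mem (hdmem i)) h) (hdmem j)
    convert h2 using 1
    group
  · obtain ⟨u, hu⟩ := QuotientGroup.mk_out_eq_mul (localInertia L A) σ
    have hmem : (QuotientGroup.mk σ : GalQ ⧸ localInertia L A).out ∈ localGroup L A := by
      rw [hu]
      exact mul_mem hσ (localInertia_le_localGroup L A u.2)
    refine ⟨⟨_, hmem⟩, ?_⟩
    have h2 := mul_mem (hdmem ⟨_, hmem⟩) (inv_mem u.2)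
    convert h2 using 1
    change _ = _ * (QuotientGroup.mk σ : GalQ ⧸ localInertia L A).out * _
    rw [hu]
    group

omit [Normal ℚ L] [FiniteDimensional ℚ L] in
/-- The sum over the classes of `D` modulo inertia of an inertia-fixed element is fixed by `D`. -/
theorem sum_representatives_fixed {ι : Type} [Fintype ι] {d : ι → GalQ}
    (hd : ∀ i, d i ∈ A.decompositionSubgroup ℚ)
    (hne : ∀ i j, i ≠ j → (d i)⁻¹ * d j ∉ localInertia L A)
    (hcov : ∀ σ ∈ localGroup L A, ∃ i, (d i)⁻¹ * σ ∈ localInertia L A)
    {β : Type*} [AddCommMonoid β] (f : GalQ → β)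
    (hf : ∀ σ τ, τ ∈ localInertia L A → f (σ * τ) = f σ) {σ : GalQ} (hσ : σ ∈ localGroup L A) :
    ∑ i, f (σ * d i) = ∑ i, f (d i) := by
  classical
  have hmemG : ∀ i, σ * d i ∈ localGroup L A := fun i =>
    mul_mem hσ (decomposition_le_localGroup L A (hd i))
  choose π hπ using fun i => hcov _ (hmemG i)
  have hinj : Function.Injective π := by
    intro i j h
    by_contra hij
    apply hne i j hij
    have h2 := mul_mem (inv_mem (hπ i)) (h ▸ hπ j)
    convert h2 using 1
    group
  refine Fintype.sum_bijective π (Finite.injective_iff_bijective.mp hinj) _ _ fun i => ?_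
  conv_rhs => rw [← hf (d (π i)) _ (hπ i), mul_inv_cancel_left]

/-- The valuation of an element fixed by inertia is an integral power of the valuation of `p`. -/
theorem valuation_eq_zpow_of_fixed (hA : A.LiesOverPrime p) (hp : p.Prime) {x : Qbar} (hx : x ≠ 0)
    (hfix : ∀ σ ∈ A.inertiaSubgroupIn ℚ, σ x = x) :
    ∃ m : ℤ, A.valuation x = A.valuation (p : Qbar) ^ m := by
  classical
  obtain ⟨L, hN, hFD, hxL⟩ := exists_normal_level ({x} : Set Qbar)
  replace hxL : x ∈ L := hxL rfl
  obtain ⟨ι, hι, d, hd, hne, hcov⟩ := exists_local_representatives (L := L) A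
  obtain ⟨i₀, -⟩ := hcov 1 (one_mem _)
  obtain ⟨N, a, Λ, haL, hav, hafix, hΛv, hdual⟩ := exists_dual_family hA hp d hd hne
  set f : Fin N → GalQ → Qbar := fun j σ => σ (a j * x) with hf
  have hfinv : ∀ j σ τ, τ ∈ localInertia L A → f j (σ * τ) = f j σ := by
    intro j σ τ hτ
    simp only [hf, AlgEquiv.mul_apply, map_mul]
    rw [hafix j τ hτ, apply_eq_self_of_mem_localInertia hτ hxL hfix]
  -- the traces
  set y : Fin N → Qbar := fun j => ∑ i, f j (d i) with hy
  have hyfix : ∀ j, ∀ σ ∈ localGroup L A, σ (y j) = y j := by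
    intro j σ hσ
    rw [hy, map_sum]
    exact sum_representatives_fixed hd hne hcov (f j) (hfinv j) hσ
  have hyle : ∀ j, A.valuation (y j) ≤ A.valuation x := fun j =>
    A.valuation.map_sum_le fun i _ => by
      rw [hf, valuation_apply_of_mem_decomposition (hd i) hA hp, map_mul]
      exact mul_le_of_le_one_left' (hav j)
  obtain ⟨j, hj⟩ : ∃ j, A.valuation (y j) = A.valuation x := by
    by_contra hcon
    push Not at hcon
    have hsum : ∑ j, Λ i₀ j * y j = d i₀ x := by
      simp only [hy, hf, map_mul, Finset.mul_sum]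
      rw [Finset.sum_comm]
      simp only [← mul_assoc, ← Finset.sum_mul, hdual, ite_mul, one_mul, zero_mul,
        Finset.sum_ite_eq, Finset.mem_univ, if_true]
    have h := A.valuation.map_sum_lt ((_root_.map_ne_zero _).mpr hx)
      (s := Finset.univ) (f := fun j => Λ i₀ j * y j) fun j _ => by
        rw [map_mul]
        exact (mul_le_of_le_one_left' (hΛv i₀ j)).trans_lt (lt_of_le_of_ne (hyle j) (hcon j))
    rw [hsum, valuation_apply_of_mem_decomposition (hd i₀) hA hp] at h
    exact lt_irrefl _ h
  have hyL : y j ∈ L := sum_mem fun i _ => apply_mem_level _ (L.mul_mem (haL j) hxL)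
  have hy0 : y j ≠ 0 := fun h => hx ((map_eq_zero A.valuation).mp (by rw [← hj, h, map_zero]))
  -- make it a unit at the other places
  have := finite_quotient (L := L) (fixing_le_localGroup L A)
  have := Fintype.ofFinite (GalQ ⧸ localGroup L A)
  obtain ⟨N₁, hN₁⟩ := exists_natPow_mul_mem hA hp (y j)⁻¹
  choose N₂ hN₂ using fun c : GalQ ⧸ localGroup L A => exists_natPow_mul_mem hA hp (c.out (y j))
  set M := max N₁ (Finset.univ.sup N₂) + 1 with hM
  obtain ⟨e, heL, hei, he1, hefix, heout⟩ := exists_approx_one (L := L) hA hp M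
  have hplt : ∀ n, n < M → A.valuation (p : Qbar) ^ M < A.valuation (p : Qbar) ^ n := fun n hn =>
    pow_lt_pow_right_of_lt_one₀ (zero_lt_iff.mpr (valuation_natPrime_ne_zero hp A))
      (valuation_natPrime_lt_one hA) hn
  have hMlt : A.valuation (p : Qbar) ^ M < 1 := by simpa using hplt 0 (by omega)
  set z := y j * e + (1 - e) with hz
  have hzA : A.valuation z = A.valuation (y j) := by
    have hev : A.valuation e = 1 := by
      rw [show e = 1 + (e - 1) by ring, A.valuation.map_add_eq_of_lt_left, map_one]
      rw [map_one]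
      exact he1.trans_lt hMlt
    rw [hz, A.valuation.map_add_eq_of_lt_left, map_mul, hev, mul_one]
    rw [map_mul, hev, mul_one, Valuation.map_sub_swap]
    refine he1.trans_lt ?_
    have h1 : A.valuation (p : Qbar) ^ N₁ ≤ A.valuation (y j) := by
      have h2 := (A.valuation_le_one_iff _).mpr (hN₁ N₁ le_rfl)
      rw [map_mul, map_pow, map_inv₀] at h2
      rwa [mul_inv_le_iff₀ (zero_lt_iff.mpr ((_root_.map_ne_zero _).mpr hy0)), one_mul] at h2
    exact (hplt N₁ (by omega)).trans_le h1
  have hzfix : ∀ σ ∈ localGroup L A, σ z = z := fun σ hσ => by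
    rw [hz, map_add, map_mul, map_sub, map_one, hyfix j σ hσ, hefix σ hσ]
  have hzout : ∀ σ ∉ localGroup L A, A.valuation (σ z) = 1 := by
    intro σ hσ
    have hσe := heout σ hσ
    have h1 : A.valuation (σ (y j) * σ e) < 1 := by
      set c : GalQ ⧸ localGroup L A := QuotientGroup.mk σ
      have hc : c.out (y j) = σ (y j) := by
        obtain ⟨u, hu⟩ := QuotientGroup.mk_out_eq_mul (localGroup L A) σ
        rw [hu, AlgEquiv.mul_apply, hyfix j u u.2]
      have h2 := (A.valuation_le_one_iff _).mpr (hN₂ c (N₂ c) le_rfl)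
      rw [hc, map_mul, map_pow] at h2
      have h3 : A.valuation (p : Qbar) ^ M < A.valuation (p : Qbar) ^ N₂ c :=
        hplt _ (lt_of_le_of_lt ((Finset.le_sup (Finset.mem_univ c)).trans (le_max_right _ _))
          (Nat.lt_succ_self _))
      rw [map_mul]
      rcases eq_or_ne (A.valuation (σ (y j))) 0 with h0 | h0
      · rw [h0, zero_mul]; exact zero_lt_one
      · calc A.valuation (σ (y j)) * A.valuation (σ e)
            ≤ A.valuation (σ (y j)) * A.valuation (p : Qbar) ^ M := by gcongr
          _ < A.valuation (σ (y j)) * A.valuation (p : Qbar) ^ N₂ c :=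
              mul_lt_mul_of_pos_left h3 (zero_lt_iff.mpr h0)
          _ ≤ 1 := by rwa [mul_comm]
    have h2 : A.valuation (1 - σ e) = 1 := by
      rw [A.valuation.map_sub_eq_of_lt_left, map_one]
      rw [map_one]
      exact hσe.trans_lt hMlt
    rw [hz, map_add, map_mul, map_sub, map_one, A.valuation.map_add_eq_of_lt_right, h2]
    rw [h2]
    exact h1
  -- the norm is rational
  set n := ∏ c : GalQ ⧸ localGroup L A, c.out z with hn
  have hnfix : ∀ σ : GalQ, σ n = n := by
    intro σ
    rw [hn, map_prod]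
    refine Fintype.prod_equiv (MulAction.toPerm σ) _ _ fun c => ?_
    obtain ⟨u, hu⟩ := QuotientGroup.mk_out_eq_mul (localGroup L A) (σ * c.out)
    have : MulAction.toPerm σ c = (QuotientGroup.mk (σ * c.out) : GalQ ⧸ localGroup L A) := by
      conv_lhs => rw [← QuotientGroup.out_eq' c]
      rfl
    rw [this, hu, AlgEquiv.mul_apply, AlgEquiv.mul_apply, hzfix u u.2]
  obtain ⟨r, hr⟩ := (InfiniteGalois.mem_range_algebraMap_iff_fixed n).mpr hnfix
  set c₁ : GalQ ⧸ localGroup L A := QuotientGroup.mk 1 with hc₁
  have hval : A.valuation n = A.valuation x := by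
    rw [hn, map_prod, Finset.prod_eq_single c₁]
    · obtain ⟨u, hu⟩ := QuotientGroup.mk_out_eq_mul (localGroup L A) (1 : GalQ)
      rw [hc₁, hu, one_mul, hzfix u u.2, hzA, hj]
    · intro c _ hc
      refine hzout _ fun h => hc ?_
      rw [hc₁, ← QuotientGroup.out_eq' c, QuotientGroup.eq, mul_one]
      exact inv_mem h
    · simp
  refine ⟨padicValRat p r, ?_⟩
  rw [← hval, ← hr, eq_ratCast, valuation_ratCast hA hp]
  rintro rfl
  rw [map_zero] at hr
  rw [← hr, map_zero] at hval
  exact hx ((map_eq_zero _).mp hval.symm)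

end Fermat.Agent.ECFormal
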