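import Fermat.Agent.Galois.Places
import Fermat.Agent.ECLocal.Main
import Fermat.Prelude.Def_FLTPrelim_GaloisRep

/-!
# Torsion at the residue characteristic: notation and definitions
-/

set_option autoImplicit false

noncomputable section

namespace Fermat.Agent.ECFormal

open WeierstrassCurve
open Fermat.Agent.Galois (Qbar GalQ)
open scoped WeierstrassCurve.Affine

/-- The base change to `ℚ̄` of an integral Weierstrass curve. -/
abbrev curveQbar (W : WeierstrassCurve ℤ) : WeierstrassCurve Qbar :=
  (W.map (Int.castRingHom ℚ))⁄Qbar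

/-- The points of the curve over `ℚ̄`. -/
abbrev PointQbar (W : WeierstrassCurve ℤ) :=
  ((W.map (Int.castRingHom ℚ))⁄Qbar).Point

/-- The `n`-torsion of the curve over `ℚ̄`. -/
abbrev Tors (W : WeierstrassCurve ℤ) (n : ℕ) :=
  Submodule.torsionBy ℤ ((W.map (Int.castRingHom ℚ))⁄Qbar).Point n

/-- Semistable reduction at `p`. -/
def SemistableAt (W : WeierstrassCurve ℤ) (p : ℕ) : Prop :=
  (p : ℤ) ∣ W.Δ → ¬ (p : ℤ) ∣ W.c₄

/-- Some `p`-torsion point does not reduce to the origin at `A`: ordinary good reduction, or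
multiplicative reduction. -/
def OrdinaryAtPlace (W : WeierstrassCurve ℤ) (p : ℕ) (A : ValuationSubring Qbar) : Prop :=
  ∃ x : Tors W p, ¬ ECLocal.InKernel A (x : PointQbar W)

theorem semistableAt_of_good {W : WeierstrassCurve ℤ} {p : ℕ} (h : ¬ (p : ℤ) ∣ W.Δ) :
    SemistableAt W p := fun h' => absurd h' h

end Fermat.Agent.ECFormal
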