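import Fermat.Agent.ECTorsion.MulFormula
import Fermat.Agent.ECTorsion.Count
import Mathlib.Algebra.CubicDiscriminant

/-!
# Division polynomials of a possibly singular curve

Over an algebraically closed field of characteristic `≠ 2`:
* unless the curve is cuspidal, it has a nonsingular `2`-torsion point, so `preΨ' n ≠ 0` for odd `n`;
* if the curve is singular, every `preΨ' n`, `n ≥ 3`, vanishes at the singular point.
-/

set_option autoImplicit false

namespace Fermat.Agent.ECFormal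

open Polynomial WeierstrassCurve

variable {K : Type*} [Field K] (V : WeierstrassCurve K)

theorem eval_Ψ₂Sq (x : K) :
    V.Ψ₂Sq.eval x = 4 * x ^ 3 + V.b₂ * x ^ 2 + 2 * V.b₄ * x + V.b₆ := by
  simp [WeierstrassCurve.Ψ₂Sq]

theorem eval_derivative_Ψ₂Sq (x : K) :
    V.Ψ₂Sq.derivative.eval x = 12 * x ^ 2 + 2 * V.b₂ * x + 2 * V.b₄ := by
  simp [WeierstrassCurve.Ψ₂Sq]
  ring

/-- The coefficients of a curve whose `2`-torsion polynomial has a double root at `e`. -/
theorem b₄_b₆_of_double_root (h2 : (2 : K) ≠ 0) {e : K} (h : V.Ψ₂Sq.eval e = 0)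
    (h' : V.Ψ₂Sq.derivative.eval e = 0) :
    V.b₄ = -6 * e ^ 2 - V.b₂ * e ∧ V.b₆ = 8 * e ^ 3 + V.b₂ * e ^ 2 := by
  rw [eval_Ψ₂Sq] at h
  rw [eval_derivative_Ψ₂Sq] at h'
  have h4 : V.b₄ = -6 * e ^ 2 - V.b₂ * e := mul_left_cancel₀ h2 (by linear_combination h')
  refine ⟨h4, ?_⟩
  linear_combination h - 2 * e * h4

theorem eval_preΨ'_eq_zero_of_double_root (h2 : (2 : K) ≠ 0) {e : K} (h : V.Ψ₂Sq.eval e = 0)
    (h' : V.Ψ₂Sq.derivative.eval e = 0) : ∀ n : ℕ, 3 ≤ n → (V.preΨ' n).eval e = 0 := by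
  obtain ⟨h4, h6⟩ := b₄_b₆_of_double_root V h2 h h'
  have h44 : (4 : K) ≠ 0 := by
    rw [show (4 : K) = 2 * 2 by norm_num]; exact mul_ne_zero h2 h2
  have h8 : 4 * V.b₈ = V.b₂ * V.b₆ - V.b₄ ^ 2 := V.b_relation
  intro n
  induction n using Nat.strong_induction_on with
  | _ n ih =>
    intro hn
    by_cases hn5 : n < 5
    · interval_cases n
      · rw [preΨ'_three, WeierstrassCurve.Ψ₃]
        simp only [eval_add, eval_mul, eval_pow, eval_ofNat, eval_X, eval_C]
        refine mul_left_cancel₀ h44 ?_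
        rw [h4, h6] at h8 ⊢
        linear_combination h8
      · rw [preΨ'_four, WeierstrassCurve.preΨ₄]
        simp only [eval_add, eval_mul, eval_pow, eval_ofNat, eval_X, eval_C]
        refine mul_left_cancel₀ h44 ?_
        rw [h4, h6] at h8 ⊢
        linear_combination (10 * e ^ 2 + V.b₂ * e + (-6 * e ^ 2 - V.b₂ * e)) * h8
    · rcases Nat.even_or_odd n with ⟨k, rfl⟩ | ⟨k, rfl⟩
      · obtain ⟨m, rfl⟩ : ∃ m, k = m + 3 := ⟨k - 3, by omega⟩
        rw [show m + 3 + (m + 3) = 2 * (m + 3) by ring, preΨ'_even]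
        simp only [eval_sub, eval_mul, eval_pow, ih (m + 5) (by omega) (by omega),
          ih (m + 4) (by omega) (by omega)]
        ring
      · obtain ⟨m, rfl⟩ : ∃ m, k = m + 2 := ⟨k - 2, by omega⟩
        rw [preΨ'_odd]
        simp only [eval_sub, eval_mul, eval_pow, ih (m + 3) (by omega) (by omega),
          ih (m + 4) (by omega) (by omega)]
        ring

variable [IsAlgClosed K]

/-- A singular curve has a double root of the `2`-torsion polynomial. -/
theorem exists_double_root (h2 : (2 : K) ≠ 0) (hΔ : V.Δ = 0) :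
    ∃ e, V.Ψ₂Sq.eval e = 0 ∧ V.Ψ₂Sq.derivative.eval e = 0 := by
  classical
  have h44 : (4 : K) ≠ 0 := by
    rw [show (4 : K) = 2 * 2 by norm_num]; exact mul_ne_zero h2 h2
  have hd : V.twoTorsionPolynomial.discr = 0 := by
    rw [twoTorsionPolynomial_discr, hΔ, mul_zero]
  have hnd : ¬ (Cubic.map (RingHom.id K) V.twoTorsionPolynomial).roots.Nodup := fun h =>
    (Cubic.discr_ne_zero_iff_roots_nodup (φ := RingHom.id K) h44 (IsAlgClosed.splits _)).mpr h hd
  rw [Cubic.map_roots, Polynomial.map_id, ← Ψ₂Sq_eq, Multiset.nodup_iff_count_le_one] at hnd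
  push Not at hnd
  obtain ⟨e, he⟩ := hnd
  rw [count_roots] at he
  exact ⟨e, (one_lt_rootMultiplicity_iff_isRoot (Ψ₂Sq_ne_zero_of_four_ne_zero V h44)).mp he⟩
where
  Ψ₂Sq_ne_zero_of_four_ne_zero (V : WeierstrassCurve K) (h44 : (4 : K) ≠ 0) : V.Ψ₂Sq ≠ 0 :=
    V.Ψ₂Sq_ne_zero h44

/-- Unless the curve is cuspidal, it has a nonsingular point of order `2`. -/
theorem exists_two_torsion (h2 : (2 : K) ≠ 0) (hns : V.Δ ≠ 0 ∨ V.c₄ ≠ 0) :
    ∃ x y, ∃ h : V.toAffine.Nonsingular x y, y = V.toAffine.negY x y := by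
  have h44 : (4 : K) ≠ 0 := by
    rw [show (4 : K) = 2 * 2 by norm_num]; exact mul_ne_zero h2 h2
  obtain ⟨x, hx, hx'⟩ : ∃ x, V.Ψ₂Sq.eval x = 0 ∧ V.Ψ₂Sq.derivative.eval x ≠ 0 := by
    obtain ⟨e, he⟩ : ∃ e, V.Ψ₂Sq.IsRoot e := IsAlgClosed.exists_root _ (by
      rw [degree_eq_natDegree (V.Ψ₂Sq_ne_zero h44), V.natDegree_Ψ₂Sq h44]; decide)
    by_cases he' : V.Ψ₂Sq.derivative.eval e = 0
    · obtain ⟨h4, h6⟩ := b₄_b₆_of_double_root V h2 he he'
      refine ⟨-V.b₂ / 4 - 2 * e, ?_, fun h => ?_⟩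
      · rw [eval_Ψ₂Sq, h4, h6]
        field_simp
        ring
      · rw [eval_derivative_Ψ₂Sq, h4] at h
        have hsq : (V.b₂ + 12 * e) ^ 2 = 0 := by
          field_simp at h
          refine mul_left_cancel₀ h44 ?_
          linear_combination h
        have hb : V.b₂ = -12 * e := by
          linear_combination (pow_eq_zero_iff two_ne_zero).mp hsq
        rcases hns with hΔ | hc
        · refine hΔ (mul_left_cancel₀ h44 ?_)
          rw [WeierstrassCurve.Δ, mul_zero]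
          linear_combination (norm := (rw [h4, h6, hb]; ring)) (-V.b₂ ^ 2) * V.b_relation
        · apply hc
          rw [WeierstrassCurve.c₄, h4, hb]
          ring
    · exact ⟨e, he, he'⟩
  rw [eval_Ψ₂Sq, WeierstrassCurve.b₂, WeierstrassCurve.b₄, WeierstrassCurve.b₆] at hx
  rw [eval_derivative_Ψ₂Sq, WeierstrassCurve.b₂, WeierstrassCurve.b₄] at hx'
  refine ⟨x, -(V.a₁ * x + V.a₃) / 2, ⟨?_, Or.inl fun h => hx' ?_⟩, ?_⟩
  · rw [Affine.equation_iff]
    field_simp
    linear_combination -hx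
  · rw [Affine.evalEval_polynomialX] at h
    field_simp at h
    linear_combination (-2) * h
  · rw [Affine.negY]
    field_simp
    ring

/-- Unless the curve is cuspidal, `preΨ' n ≠ 0` for odd `n`. -/
theorem preΨ'_ne_zero_of_odd (h2 : (2 : K) ≠ 0) (hns : V.Δ ≠ 0 ∨ V.c₄ ≠ 0) {n : ℕ} (hn : Odd n) :
    V.preΨ' n ≠ 0 := by
  classical
  obtain ⟨x, y, h, hy⟩ := exists_two_torsion V h2 hns
  intro h0
  set P : V.toAffine.Point := Affine.Point.some x y h with hP
  have h2P : P + P = 0 := Affine.Point.add_self_of_Y_eq hy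
  have hnP : (n : ℤ) • P = 0 := by
    rw [hP, ECTorsion.zsmul_some_eq_zero_iff_ΨSq]
    rw [ΨSq_ofNat, h0]
    simp
  obtain ⟨k, rfl⟩ := hn
  push_cast at hnP
  rw [add_zsmul, one_zsmul, mul_zsmul', two_zsmul, h2P, zsmul_zero, zero_add] at hnP
  exact Affine.Point.some_ne_zero h hnP

end Fermat.Agent.ECFormal
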