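import Fermat.Agent.Galois.Places

/-!
# The valuation of a place of `ℚ̄` over `p`

Every nonzero valuation is a rational power of the valuation of `p`.
-/

set_option autoImplicit false

noncomputable section

namespace Fermat.Agent.ECFormal

open Polynomial
open Fermat.Agent.Galois (Qbar GalQ)

variable {A : ValuationSubring Qbar} {p : ℕ}

theorem valuation_natPrime_lt_one (hA : A.LiesOverPrime p) : A.valuation (p : Qbar) < 1 :=
  A.mem_nonunits_iff.mp hA

theorem valuation_natPrime_ne_zero (hp : p.Prime) (A : ValuationSubring Qbar) :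
    A.valuation (p : Qbar) ≠ 0 :=
  (_root_.map_ne_zero _).mpr (Nat.cast_ne_zero.mpr hp.ne_zero)

theorem valuation_intCast_le_one (A : ValuationSubring Qbar) (n : ℤ) :
    A.valuation (n : Qbar) ≤ 1 :=
  (A.valuation_le_one_iff _).mpr (Galois.place_intCast_mem A n)

theorem valuation_intCast_eq_one (hA : A.LiesOverPrime p) (hp : p.Prime) {n : ℤ}
    (hn : ¬ (p : ℤ) ∣ n) : A.valuation (n : Qbar) = 1 := by
  refine le_antisymm (valuation_intCast_le_one A n) (not_lt.mp fun h => hn ?_)
  exact (Galois.place_intCast_mem_nonunits_iff hA hp n).mp (A.mem_nonunits_iff.mpr h)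

theorem valuation_intCast_lt_one (hA : A.LiesOverPrime p) {n : ℤ} (hn : (p : ℤ) ∣ n) :
    A.valuation (n : Qbar) < 1 := by
  obtain ⟨c, rfl⟩ := hn
  rw [Int.cast_mul, map_mul, Int.cast_natCast]
  calc A.valuation (p : Qbar) * A.valuation (c : Qbar)
      ≤ A.valuation (p : Qbar) * 1 := by gcongr; exact valuation_intCast_le_one A c
    _ < 1 := by rw [mul_one]; exact valuation_natPrime_lt_one hA

theorem exists_valuation_intCast (hA : A.LiesOverPrime p) (hp : p.Prime) {n : ℤ} (hn : n ≠ 0) :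
    A.valuation (n : Qbar) = A.valuation (p : Qbar) ^ padicValInt p n := by
  obtain ⟨u, hu⟩ : (p : ℤ) ^ padicValInt p n ∣ n := padicValInt_dvd n
  have hpu : ¬ (p : ℤ) ∣ u := by
    intro h
    have h2 : (p : ℤ) ^ (padicValInt p n + 1) ∣ n := by
      obtain ⟨w, hw⟩ := h
      refine ⟨w, ?_⟩
      rw [pow_succ, mul_assoc, ← hw]
      exact hu
    have := Fact.mk hp
    rw [padicValInt_dvd_iff] at h2
    rcases h2 with h2 | h2
    · exact hn h2
    · omega
  conv_lhs => rw [hu]
  rw [Int.cast_mul, map_mul, Int.cast_pow, map_pow, Int.cast_natCast,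
    valuation_intCast_eq_one hA hp hpu, mul_one]

theorem valuation_ratCast (hA : A.LiesOverPrime p) (hp : p.Prime) {r : ℚ} (hr : r ≠ 0) :
    A.valuation (r : Qbar) = A.valuation (p : Qbar) ^ padicValRat p r := by
  have h0 := valuation_natPrime_ne_zero hp A
  rw [Rat.cast_def, map_div₀, exists_valuation_intCast hA hp (Rat.num_ne_zero.mpr hr),
    ← Int.cast_natCast r.den, exists_valuation_intCast hA hp (Int.natCast_ne_zero.mpr r.den_nz),
    padicValRat, zpow_sub₀ h0, zpow_natCast, zpow_natCast, padicValInt.of_nat]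

/-- The value group of a place over `p` is torsion over `v(p) ^ ℤ`. -/
theorem exists_pow_valuation_eq (hA : A.LiesOverPrime p) (hp : p.Prime) {x : Qbar} (hx : x ≠ 0) :
    ∃ k : ℕ, 0 < k ∧ ∃ m : ℤ, A.valuation x ^ k = A.valuation (p : Qbar) ^ m := by
  classical
  have h0 := valuation_natPrime_ne_zero hp A
  have hint : IsIntegral ℚ x := ((AlgebraicClosure.isAlgebraic ℚ).isAlgebraic x).isIntegral
  set f := minpoly ℚ x with hf
  set t : ℕ → Qbar := fun i => algebraMap ℚ Qbar (f.coeff i) * x ^ i with ht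
  have hsum : ∑ i ∈ f.support, t i = 0 := by
    have h := minpoly.aeval ℚ x
    rwa [aeval_def, eval₂_eq_sum, Polynomial.sum] at h
  have hne : f.support.Nonempty :=
    Polynomial.support_nonempty.mpr (minpoly.ne_zero hint)
  have ht0 : ∀ i ∈ f.support, t i ≠ 0 := fun i hi => mul_ne_zero
    ((_root_.map_ne_zero _).mpr (mem_support_iff.mp hi)) (pow_ne_zero _ hx)
  obtain ⟨j, hj, hmax⟩ := f.support.exists_max_image (fun i => A.valuation (t i)) hne
  obtain ⟨i, hi, hij⟩ : ∃ i ∈ f.support, i ≠ j ∧ A.valuation (t i) = A.valuation (t j) := by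
    by_contra hcon
    push Not at hcon
    have h := A.valuation.map_sum_eq_of_lt hj (f := t) fun i hi => by
      rw [Finset.mem_sdiff, Finset.mem_singleton] at hi
      exact lt_of_le_of_ne (hmax i hi.1) (hcon i hi.1 hi.2)
    rw [hsum, map_zero] at h
    exact ht0 j hj ((map_eq_zero _).mp h.symm)
  obtain ⟨hne', heq⟩ := hij
  have hval : ∀ l ∈ f.support, A.valuation (t l) =
      A.valuation (p : Qbar) ^ padicValRat p (f.coeff l) * A.valuation x ^ l := by
    intro l hl
    rw [ht, map_mul, map_pow, eq_ratCast, valuation_ratCast hA hp (mem_support_iff.mp hl)]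
  rw [hval i hi, hval j hj] at heq
  set π := A.valuation (p : Qbar)
  set ξ := A.valuation x
  have hξ : ξ ≠ 0 := (_root_.map_ne_zero _).mpr hx
  rcases lt_or_gt_of_ne hne' with h | h
  · refine ⟨j - i, by omega, padicValRat p (f.coeff i) - padicValRat p (f.coeff j), ?_⟩
    rw [zpow_sub₀ h0, eq_div_iff (zpow_ne_zero _ h0)]
    refine mul_right_cancel₀ (pow_ne_zero i hξ) ?_
    rw [heq, mul_assoc, mul_comm (π ^ padicValRat p (f.coeff j)), ← mul_assoc, ← pow_add,
      Nat.sub_add_cancel h.le, mul_comm]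
  · refine ⟨i - j, by omega, padicValRat p (f.coeff j) - padicValRat p (f.coeff i), ?_⟩
    rw [zpow_sub₀ h0, eq_div_iff (zpow_ne_zero _ h0)]
    refine mul_right_cancel₀ (pow_ne_zero j hξ) ?_
    rw [← heq, mul_assoc, mul_comm (π ^ padicValRat p (f.coeff i)), ← mul_assoc, ← pow_add,
      Nat.sub_add_cancel h.le, mul_comm]

/-- Powers of a nonunit become arbitrarily divisible by `p`. -/
theorem exists_pow_valuation_le (hA : A.LiesOverPrime p) (hp : p.Prime) {x : Qbar}
    (hx : A.valuation x < 1) (N : ℕ) :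
    ∃ n₀, ∀ n, n₀ ≤ n → A.valuation x ^ n ≤ A.valuation (p : Qbar) ^ N := by
  rcases eq_or_ne x 0 with rfl | hx0
  · refine ⟨1, fun n hn => ?_⟩
    rw [map_zero, zero_pow (by omega)]
    exact zero_le
  obtain ⟨k, hk, m, hm⟩ := exists_pow_valuation_eq hA hp hx0
  have h0 := valuation_natPrime_ne_zero hp A
  have h1 := valuation_natPrime_lt_one hA
  have hm0 : 1 ≤ m := by
    by_contra hcon
    have h2 : 1 ≤ A.valuation (p : Qbar) ^ m := by
      have h3 := one_le_inv₀ (zero_lt_iff.mpr h0) |>.mpr h1.le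
      obtain ⟨c, rfl⟩ : ∃ c : ℕ, m = -(c : ℤ) := ⟨m.natAbs, by omega⟩
      rw [zpow_neg, zpow_natCast, ← inv_pow]
      exact one_le_pow₀ h3
    rw [← hm] at h2
    exact absurd (pow_lt_one₀ zero_le hx hk.ne') (not_lt.mpr h2)
  refine ⟨k * N, fun n hn => ?_⟩
  calc A.valuation x ^ n ≤ A.valuation x ^ (k * N) := pow_le_pow_right_of_le_one' hx.le hn
    _ = (A.valuation (p : Qbar) ^ m) ^ N := by rw [pow_mul, hm]
    _ ≤ A.valuation (p : Qbar) ^ N := by
      obtain ⟨c, rfl⟩ : ∃ c : ℕ, m = (c : ℤ) := ⟨m.natAbs, by omega⟩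
      rw [zpow_natCast, ← pow_mul]
      exact pow_le_pow_right_of_le_one' h1.le (Nat.le_mul_of_pos_left N (by omega))

/-- Every element of `ℚ̄` becomes integral at `A` after multiplication by a power of `p`. -/
theorem exists_natPow_mul_mem (hA : A.LiesOverPrime p) (hp : p.Prime) (x : Qbar) :
    ∃ N : ℕ, ∀ n, N ≤ n → (p : Qbar) ^ n * x ∈ A := by
  rcases le_or_gt (A.valuation x) 1 with h | h
  · exact ⟨0, fun n _ => A.mul_mem _ _ (A.pow_mem (Galois.place_natCast_mem A p) n)
      ((A.valuation_le_one_iff x).mp h)⟩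
  · have hx0 : x ≠ 0 := by rintro rfl; simp at h
    obtain ⟨k, hk, m, hm⟩ := exists_pow_valuation_eq hA hp hx0
    refine ⟨m.natAbs, fun n hn => (A.valuation_le_one_iff _).mp ?_⟩
    have h0 := valuation_natPrime_ne_zero hp A
    have h1 := valuation_natPrime_lt_one hA
    rw [map_mul, map_pow]
    refine le_of_pow_le_pow_left₀ hk.ne' zero_le ?_
    rw [mul_pow, hm, one_pow, ← pow_mul, ← zpow_natCast, ← zpow_add₀ h0]
    obtain ⟨c, hc⟩ : ∃ c : ℕ, ((n * k : ℕ) : ℤ) + m = c := by
      refine ⟨(((n * k : ℕ) : ℤ) + m).natAbs, ?_⟩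
      have : (m.natAbs : ℤ) ≤ ((n * k : ℕ) : ℤ) := by
        exact_mod_cast hn.trans (Nat.le_mul_of_pos_right n hk)
      omega
    rw [hc, zpow_natCast]
    exact pow_le_one' h1.le c

end Fermat.Agent.ECFormal
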