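import Mathlib.FieldTheory.IsAlgClosed.Basic
import Mathlib.RingTheory.Valuation.ValuationSubring

/-!
# Valuations of the roots of a polynomial with integral coefficients
-/

set_option autoImplicit false

namespace Fermat.Agent.ECFormal

open Polynomial

variable {K Γ₀ : Type*} [Field K] [LinearOrderedCommGroupWithZero Γ₀] (v : Valuation K Γ₀)

theorem valuation_coeff_prod_le (s : Multiset K) (k : ℕ) :
    v ((s.map fun r => X - C r).prod.coeff k) ≤ (s.map fun r => max 1 (v r)).prod := by
  induction s using Multiset.induction_on generalizing k with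
  | empty =>
    simp only [Multiset.map_zero, Multiset.prod_zero, coeff_one]
    split_ifs <;> simp
  | cons a s ih =>
    simp only [Multiset.map_cons, Multiset.prod_cons]
    rw [sub_mul, coeff_sub, coeff_C_mul]
    refine (Valuation.map_sub _ _ _).trans (max_le ?_ ?_)
    · cases k with
      | zero => simp
      | succ k =>
        rw [coeff_X_mul]
        exact (ih k).trans (le_mul_of_one_le_left' (le_max_left _ _))
    · rw [map_mul]
      exact mul_le_mul' (le_max_right _ _) (ih k)

theorem valuation_coeff_zero_prod (s : Multiset K) :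
    v ((s.map fun r => X - C r).prod.coeff 0) = (s.map fun r => v r).prod := by
  rw [coeff_zero_eq_eval_zero, eval_multiset_prod, Multiset.map_map, map_multiset_prod,
    Multiset.map_map]
  congr 1
  exact Multiset.map_congr rfl fun r _ => by simp

variable [IsAlgClosed K] {g : K[X]}

theorem eq_leadingCoeff_mul_prod (g : K[X]) :
    g = C g.leadingCoeff * (g.roots.map fun r => X - C r).prod :=
  ((IsAlgClosed.splits g).eq_prod_roots)

/-- Some coefficient a unit and the leading coefficient not: some root has valuation `> 1`. -/
theorem exists_root_one_lt {k : ℕ} (hk : v (g.coeff k) = 1) (hlc : v g.leadingCoeff < 1) :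
    ∃ r ∈ g.roots, 1 < v r := by
  by_contra hcon
  push Not at hcon
  have h : (g.roots.map fun r => max 1 (v r)).prod = 1 :=
    Multiset.prod_eq_one fun y hy => by
      obtain ⟨r, hr, rfl⟩ := Multiset.mem_map.mp hy
      exact max_eq_left (hcon r hr)
  rw [eq_leadingCoeff_mul_prod g, coeff_C_mul, map_mul] at hk
  have h2 := mul_le_mul' (le_refl (v g.leadingCoeff)) (valuation_coeff_prod_le v g.roots k)
  rw [hk, h, mul_one] at h2
  exact absurd hlc (not_lt.mpr h2)

/-- No root in the open disc: every coefficient is bounded by the constant one. -/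
theorem valuation_coeff_le_coeff_zero (h : ∀ r ∈ g.roots, 1 ≤ v r) (k : ℕ) :
    v (g.coeff k) ≤ v (g.coeff 0) := by
  rw [eq_leadingCoeff_mul_prod g, coeff_C_mul, coeff_C_mul, map_mul, map_mul,
    valuation_coeff_zero_prod]
  refine mul_le_mul' le_rfl ((valuation_coeff_prod_le v g.roots k).trans (le_of_eq ?_))
  congr 1
  exact Multiset.map_congr rfl fun r hr => max_eq_right (h r hr)

/-- Constant coefficient a nonunit, some coefficient a unit: some root has valuation `< 1`. -/
theorem exists_root_lt_one {k : ℕ} (hk : v (g.coeff k) = 1) (h0 : v (g.coeff 0) < 1) :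
    ∃ r ∈ g.roots, v r < 1 := by
  by_contra hcon
  push Not at hcon
  have h2 := valuation_coeff_le_coeff_zero v hcon k
  rw [hk] at h2
  exact absurd h0 (not_lt.mpr h2)

/-- The product of the valuations of the roots. -/
theorem valuation_coeff_zero_eq (g : K[X]) :
    v (g.coeff 0) = v g.leadingCoeff * (g.roots.map fun r => v r).prod := by
  conv_lhs => rw [eq_leadingCoeff_mul_prod g, coeff_C_mul, map_mul, valuation_coeff_zero_prod]

end Fermat.Agent.ECFormal
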