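import Fermat.Agent.ECFormal.Defs
import Fermat.Agent.ECFormal.PlaceVal
import Fermat.Agent.ECFormal.DivPolyMod
import Fermat.Agent.ECFormal.RootVal

/-!
# The `p`-division polynomial at a place over `p`

`divPoly W p` is `preΨ' p` over `ℚ̄`: its coefficients are integers, not all divisible by `p`
(semistable case), its leading coefficient is `p`, and in the multiplicative case it has a root
reducing to the node.
-/

set_option autoImplicit false

noncomputable section

namespace Fermat.Agent.ECFormal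

open WeierstrassCurve Polynomial
open Fermat.Agent.Galois (Qbar GalQ)
open scoped WeierstrassCurve.Affine

variable (W : WeierstrassCurve ℤ) {p : ℕ} {A : ValuationSubring Qbar}

theorem curveQbar_eq_map : curveQbar W = W.map (Int.castRingHom Qbar) := by
  change (W.map (Int.castRingHom ℚ)).map (algebraMap ℚ Qbar) = _
  rw [WeierstrassCurve.map_map]
  congr 1

theorem curveQbar_Δ_ne_zero (hΔ : W.Δ ≠ 0) : (curveQbar W).Δ ≠ 0 := by
  rw [curveQbar_eq_map, WeierstrassCurve.map_Δ]
  exact Int.cast_ne_zero.mpr hΔ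

/-- `preΨ' n` of the curve over `ℚ̄`. -/
def divPoly (n : ℕ) : Polynomial Qbar := (W.preΨ' n).map (Int.castRingHom Qbar)

theorem divPoly_eq (n : ℕ) : divPoly W n = (curveQbar W).preΨ' n := by
  rw [curveQbar_eq_map, map_preΨ', divPoly]

theorem valuation_coeff_divPoly_le (A : ValuationSubring Qbar) (n k : ℕ) :
    A.valuation ((divPoly W n).coeff k) ≤ 1 := by
  rw [divPoly, coeff_map]
  exact valuation_intCast_le_one A _

theorem leadingCoeff_divPoly (hp : p.Prime) (hp2 : p ≠ 2) :
    (divPoly W p).leadingCoeff = (p : Qbar) := by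
  rw [divPoly_eq, leadingCoeff_preΨ' _ (Nat.cast_ne_zero.mpr hp.ne_zero),
    if_neg (Nat.not_even_iff_odd.mpr (hp.odd_of_ne_two hp2))]

theorem reduced_semistable (hA : A.LiesOverPrime p) (hp : p.Prime) (hss : SemistableAt W p) :
    (W.map (Int.castRingHom (IsLocalRing.ResidueField A))).Δ ≠ 0 ∨
      (W.map (Int.castRingHom (IsLocalRing.ResidueField A))).c₄ ≠ 0 := by
  have := Galois.place_charP_residueField hA hp
  rw [WeierstrassCurve.map_Δ, WeierstrassCurve.map_c₄, eq_intCast, eq_intCast, Ne, Ne,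
    CharP.intCast_eq_zero_iff _ p, CharP.intCast_eq_zero_iff _ p]
  exact (em ((p : ℤ) ∣ W.Δ)).symm.imp_right hss

theorem two_ne_zero_residueField (hA : A.LiesOverPrime p) (hp : p.Prime) (hp2 : p ≠ 2) :
    (2 : IsLocalRing.ResidueField A) ≠ 0 := by
  have := Galois.place_charP_residueField hA hp
  rw [show (2 : IsLocalRing.ResidueField A) = ((2 : ℕ) : _) by norm_num, Ne,
    CharP.cast_eq_zero_iff _ p, Nat.prime_dvd_prime_iff_eq hp Nat.prime_two]
  exact hp2

theorem exists_coeff_unit (hA : A.LiesOverPrime p) (hp : p.Prime) (hp2 : p ≠ 2)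
    (hss : SemistableAt W p) : ∃ k, A.valuation ((divPoly W p).coeff k) = 1 := by
  have := Galois.place_charP_residueField hA hp
  have := Galois.place_residueField_isAlgClosed A
  have h := preΨ'_ne_zero_of_odd _ (two_ne_zero_residueField hA hp hp2)
    (reduced_semistable W hA hp hss) (hp.odd_of_ne_two hp2)
  rw [map_preΨ'] at h
  obtain ⟨k, hk⟩ := Polynomial.support_nonempty.mpr h
  rw [mem_support_iff, coeff_map, eq_intCast, Ne, CharP.intCast_eq_zero_iff _ p] at hk
  refine ⟨k, ?_⟩
  rw [divPoly, coeff_map, eq_intCast]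
  exact valuation_intCast_eq_one hA hp hk

theorem divPoly_ne_zero (hp : p.Prime) (hp2 : p ≠ 2) : divPoly W p ≠ 0 := fun h => by
  have h' := leadingCoeff_divPoly W hp hp2
  rw [h, leadingCoeff_zero] at h'
  exact Nat.cast_ne_zero.mpr hp.ne_zero h'.symm

/-- Some `p`-division value lies outside `A`. -/
theorem exists_root_not_mem (hA : A.LiesOverPrime p) (hp : p.Prime) (hp2 : p ≠ 2)
    (hss : SemistableAt W p) : ∃ r, (divPoly W p).IsRoot r ∧ r ∉ A := by
  obtain ⟨k, hk⟩ := exists_coeff_unit W hA hp hp2 hss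
  obtain ⟨r, hr, hv⟩ := exists_root_one_lt A.valuation hk
    (by rw [leadingCoeff_divPoly W hp hp2]; exact valuation_natPrime_lt_one hA)
  exact ⟨r, (mem_roots'.mp hr).2, fun h => not_lt.mpr ((A.valuation_le_one_iff r).mpr h) hv⟩

/-- Multiplicative reduction: a root of the division polynomial reduces to the node, where both
partial derivatives vanish. -/
theorem exists_root_node (hA : A.LiesOverPrime p) (hp : p.Prime) (hp2 : p ≠ 2)
    (hd : (p : ℤ) ∣ W.Δ) (hc : ¬ (p : ℤ) ∣ W.c₄) :
    ∃ (r : Qbar) (hr : r ∈ A),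
      (divPoly W p).IsRoot r ∧
      (W.map (Int.castRingHom (IsLocalRing.ResidueField A))).Ψ₂Sq.eval
        (IsLocalRing.residue A ⟨r, hr⟩) = 0 ∧
      (W.map (Int.castRingHom (IsLocalRing.ResidueField A))).Ψ₂Sq.derivative.eval
        (IsLocalRing.residue A ⟨r, hr⟩) = 0 := by
  have hchar := Galois.place_charP_residueField hA hp
  have := Galois.place_residueField_isAlgClosed A
  have h2 := two_ne_zero_residueField hA hp hp2
  set Vk := W.map (Int.castRingHom (IsLocalRing.ResidueField A)) with hVk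
  have hΔk : Vk.Δ = 0 := by
    rw [hVk, WeierstrassCurve.map_Δ, eq_intCast, CharP.intCast_eq_zero_iff _ p]
    exact hd
  obtain ⟨e, he, he'⟩ := exists_double_root Vk h2 hΔk
  have h3 : 3 ≤ p := by have := hp.two_le; omega
  have hfe := eval_preΨ'_eq_zero_of_double_root Vk h2 he he' p h3
  rw [hVk, map_preΨ'] at hfe
  obtain ⟨eA, heA⟩ := IsLocalRing.residue_surjective (R := A) e
  -- translate the root to `0`
  set fA : Polynomial A := ((W.preΨ' p).map (Int.castRingHom A)).comp (X + C eA) with hfA
  have hres : fA.map (IsLocalRing.residue A) =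
      ((W.preΨ' p).map (Int.castRingHom (IsLocalRing.ResidueField A))).comp (X + C e) := by
    rw [hfA, Polynomial.map_comp, Polynomial.map_map, Polynomial.map_add, map_X, map_C, heA]
    congr 2
  have hgen : fA.map A.subtype = (divPoly W p).comp (X + C (eA : Qbar)) := by
    rw [hfA, Polynomial.map_comp, Polynomial.map_map, Polynomial.map_add, map_X, map_C, divPoly]
    congr 2
  have hk : ∃ k, A.valuation ((fA.map A.subtype).coeff k) = 1 := by
    have hne : fA.map (IsLocalRing.residue A) ≠ 0 := by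
      rw [hres]
      refine fun h => ?_
      rw [comp_eq_zero_iff] at h
      rcases h with h | ⟨-, h⟩
      · have h' := preΨ'_ne_zero_of_odd Vk h2 (reduced_semistable W hA hp fun _ => hc)
          (hp.odd_of_ne_two hp2)
        rw [hVk, map_preΨ'] at h'
        exact h' h
      · have := congrArg (fun q => coeff q 1) h
        simp [coeff_X, coeff_C] at this
    obtain ⟨k, hk⟩ := Polynomial.support_nonempty.mpr hne
    rw [mem_support_iff, coeff_map, Ne, IsLocalRing.residue_eq_zero_iff,
      A.valuation_lt_one_iff] at hk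
    refine ⟨k, ?_⟩
    rw [coeff_map]
    exact le_antisymm ((A.valuation_le_one_iff _).mpr (SetLike.coe_mem _)) (not_lt.mp hk)
  have h0 : A.valuation ((fA.map A.subtype).coeff 0) < 1 := by
    have h : (fA.map (IsLocalRing.residue A)).coeff 0 = 0 := by
      rw [hres, coeff_zero_eq_eval_zero, eval_comp]
      simpa using hfe
    rw [coeff_map, IsLocalRing.residue_eq_zero_iff, A.valuation_lt_one_iff] at h
    rwa [coeff_map]
  obtain ⟨k, hk⟩ := hk
  obtain ⟨r₀, hr₀, hv⟩ := exists_root_lt_one A.valuation hk h0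
  have hr₀A : r₀ ∈ A := (A.valuation_le_one_iff _).mp hv.le
  refine ⟨r₀ + eA, A.add_mem _ _ hr₀A eA.2, ?_, ?_⟩
  · have h := (mem_roots'.mp hr₀).2
    rw [hgen, IsRoot, eval_comp] at h
    simpa [IsRoot] using h
  · have hee : IsLocalRing.residue A ⟨r₀ + eA, A.add_mem _ _ hr₀A eA.2⟩ = e := by
      rw [show (⟨r₀ + eA, A.add_mem _ _ hr₀A eA.2⟩ : A) = ⟨r₀, hr₀A⟩ + eA from rfl, map_add, heA,
        add_eq_right, IsLocalRing.residue_eq_zero_iff, A.valuation_lt_one_iff]
      exact hv
    rw [hee]
    exact ⟨he, he'⟩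

end Fermat.Agent.ECFormal
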