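import Fermat.Agent.ECFormal.Level
import Fermat.Agent.FFG.RatLocal

/-!
# Descent from the place: equivariant functions in the `A`-span of equivariant functions

If `f` is Galois equivariant and lies in the `A`-span of equivariant functions of a
`ℤ_(p)`-submodule `P`, then `f ∈ P`. An equivariant `ℤ_(p)`-module of `A`-valued functions is
finite.
-/

set_option autoImplicit false

noncomputable section

namespace Fermat.Agent.ECFormal

open Fermat.Agent.Galois (Qbar GalQ)

variable {A : ValuationSubring Qbar} {p : ℕ}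

/-- `ℤ_(p)`, the base ring of the flat models at `p`. -/
abbrev Zat (p : ℕ) : Subring ℚ := GaloisRep.ratLocalizedAt p

theorem algebraMap_zat (r : Zat p) : algebraMap (Zat p) Qbar r = ((r : ℚ) : Qbar) := by
  rw [IsScalarTower.algebraMap_apply (Zat p) ℚ Qbar, eq_ratCast]
  rfl

theorem algebraMap_zat_mem (hA : A.LiesOverPrime p) (hp : p.Prime) (r : Zat p) :
    algebraMap (Zat p) Qbar r ∈ A := by
  rw [algebraMap_zat, Galois.place_ratCast_mem_iff hA hp]
  exact fun h => (Nat.Prime.coprime_iff_not_dvd hp).mp (Nat.Coprime.symm r.2) h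

theorem exists_zat_eq (hA : A.LiesOverPrime p) (hp : p.Prime) {x : Qbar} (hx : x ∈ A)
    (hfix : ∀ σ : GalQ, σ x = x) : ∃ r : Zat p, algebraMap (Zat p) Qbar r = x := by
  obtain ⟨q, hq⟩ := (InfiniteGalois.mem_range_algebraMap_iff_fixed x).mpr hfix
  rw [eq_ratCast] at hq
  subst hq
  rw [Galois.place_ratCast_mem_iff hA hp] at hx
  exact ⟨⟨q, (Nat.Coprime.symm ((Nat.Prime.coprime_iff_not_dvd hp).mpr hx))⟩, algebraMap_zat _⟩

variable {X : Type} {act : GalQ → X → X}

theorem mem_of_mem_span_place (hA : A.LiesOverPrime p) (hp : p.Prime)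
    (hsurj : ∀ σ, Function.Surjective (act σ)) (P : Submodule (Zat p) (X → Qbar))
    (hP : ∀ g ∈ P, FFG.IsEquivariant act g) {f : X → Qbar} (hf : FFG.IsEquivariant act f)
    (hmem : f ∈ Submodule.span A (P : Set (X → Qbar))) : f ∈ P := by
  classical
  obtain ⟨T, hT, hfT⟩ := Submodule.mem_span_finite_of_mem_span hmem
  set Q := Submodule.span (Zat p) (T : Set (X → Qbar)) with hQ
  have hQP : Q ≤ P := Submodule.span_le.mpr hT
  have : Module.Finite (Zat p) Q := Module.Finite.iff_fg.mpr ⟨T, rfl⟩
  have := FFG.faithfulSMul_of_tower (Zat p) ℚ Qbar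
  have htf : Module.IsTorsionFree (Zat p) Q := by
    refine ⟨fun r hr x y hxy => Subtype.ext (funext fun z => ?_)⟩
    have h := congrFun (congrArg Subtype.val hxy) z
    simp only [SetLike.val_smul, Pi.smul_apply, Algebra.smul_def] at h
    refine mul_left_cancel₀ ?_ h
    exact (map_ne_zero_iff _ (FaithfulSMul.algebraMap_injective (Zat p) Qbar)).mpr hr.ne_zero
  let b := Module.Free.chooseBasis (Zat p) Q
  have hli : LinearIndependent Qbar fun i => (b i : X → Qbar) := by
    refine FFG.linearIndependent_of_equivariant (act := act) hsurj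
      (fun i => hP _ (hQP (b i).2)) ?_
    rw [← LinearIndependent.iff_fractionRing (Zat p) ℚ]
    exact b.linearIndependent.map' Q.subtype (LinearMap.ker_eq_bot.mpr Subtype.val_injective)
  have hspan : (T : Set (X → Qbar)) ⊆ Submodule.span A (Set.range fun i => (b i : X → Qbar)) := by
    intro g hg
    have h2 := Submodule.apply_mem_span_image_of_mem_span Q.subtype
      (b.mem_span ⟨g, Submodule.subset_span hg⟩)
    rw [← Set.range_comp] at h2
    suffices h : ∀ z ∈ Submodule.span (Zat p) (Set.range fun i => (b i : X → Qbar)),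
        z ∈ Submodule.span A (Set.range fun i => (b i : X → Qbar)) from h g h2
    intro z hz
    induction hz using Submodule.span_induction with
    | mem z hz => exact Submodule.subset_span hz
    | zero => exact zero_mem _
    | add u v _ _ hu hv => exact add_mem hu hv
    | smul r u _ hu =>
      have : r • u = (⟨_, algebraMap_zat_mem hA hp r⟩ : A) • u := by
        funext z
        simp only [Pi.smul_apply, Algebra.smul_def]
        rfl
      rw [this]
      exact Submodule.smul_mem _ _ hu
  have hfb := Submodule.span_le.mpr hspan hfT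
  obtain ⟨c, hc⟩ := Finsupp.mem_span_range_iff_exists_finsupp.mp hfb
  have hfix : ∀ i, ∀ σ : GalQ, σ (c i : Qbar) = c i := by
    intro i σ
    have hev : ∀ x, f x = ∑ j ∈ c.support, (c j : Qbar) * (b j : X → Qbar) x := by
      intro x
      rw [← hc, Finsupp.sum, Finset.sum_apply]
      rfl
    have key : ∑ j ∈ c.support, (σ (c j : Qbar) - c j) • (b j : X → Qbar) = 0 := by
      funext x
      obtain ⟨y, rfl⟩ := hsurj σ x
      simp only [Finset.sum_apply, Pi.smul_apply, smul_eq_mul, sub_mul, Finset.sum_sub_distrib,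
        Pi.zero_apply]
      rw [sub_eq_zero, ← hev, hf σ y, hev y, map_sum]
      exact Finset.sum_congr rfl fun j _ => by rw [map_mul, hP _ (hQP (b j).2) σ y]
    by_cases hi : i ∈ c.support
    · have h := linearIndependent_iff'.mp hli c.support (fun i => σ (c i : Qbar) - c i)
        key i hi
      exact sub_eq_zero.mp h
    · rw [Finsupp.notMem_support_iff.mp hi]
      simp
  choose r hr using fun i => exists_zat_eq hA hp (c i).2 (hfix i)
  rw [← hc]
  refine hQP (Submodule.sum_mem _ fun i _ => ?_)
  have : (c i) • (b i : X → Qbar) = r i • (b i : X → Qbar) := by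
    funext z
    simp only [Pi.smul_apply, Algebra.smul_def, hr i]
    rfl
  change c i • (b i : X → Qbar) ∈ Q
  rw [this]
  exact Q.smul_mem _ (b i).2

variable [Finite X]

theorem finite_of_equivariant (hA : A.LiesOverPrime p) (hp : p.Prime)
    (hbij : ∀ σ, Function.Bijective (act σ)) (H : Submodule (Zat p) (X → Qbar))
    (hH : ∀ g ∈ H, FFG.IsEquivariant act g ∧ ∀ x, g x ∈ A)
    (hspan : Submodule.span Qbar (H : Set (X → Qbar)) = ⊤) : Module.Finite (Zat p) H := by
  classical
  have := Fintype.ofFinite X
  obtain ⟨T, hT, hTspan⟩ : ∃ T : Finset (X → Qbar), ↑T ⊆ (H : Set (X → Qbar)) ∧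
      Submodule.span Qbar (T : Set (X → Qbar)) = ⊤ := by
    have h := fun x : X => Submodule.mem_span_finite_of_mem_span
      (hspan ▸ Submodule.mem_top : (Pi.single x 1 : X → Qbar) ∈ Submodule.span Qbar (H : Set _))
    choose T hT hxT using h
    refine ⟨Finset.univ.biUnion T, fun g hg => ?_, eq_top_iff.mpr fun g _ => ?_⟩
    · obtain ⟨x, -, hx⟩ := Finset.mem_biUnion.mp hg
      exact hT x hx
    · rw [pi_eq_sum_univ' g]
      exact Submodule.sum_mem _ fun x _ => Submodule.smul_mem _ _ (Submodule.span_mono
        (Finset.coe_subset.mpr (Finset.subset_biUnion_of_mem T (Finset.mem_univ x))) (hxT x))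
  have hpair : ∀ (g : H) (t : T), ∃ r : Zat p,
      algebraMap (Zat p) Qbar r = ∑ x, (g : X → Qbar) x * (t : X → Qbar) x := by
    intro g t
    refine exists_zat_eq hA hp (sum_mem fun x _ => A.mul_mem _ _ ((hH _ g.2).2 x)
      ((hH _ (hT t.2)).2 x)) fun σ => ?_
    rw [map_sum]
    refine Fintype.sum_equiv (Equiv.ofBijective _ (hbij σ)) _ _ fun x => ?_
    rw [map_mul, Equiv.ofBijective_apply, (hH _ g.2).1 σ x, (hH _ (hT t.2)).1 σ x]
  choose r hr using hpair
  have := FFG.faithfulSMul_of_tower (Zat p) ℚ Qbar
  have hinjZ := FaithfulSMul.algebraMap_injective (Zat p) Qbar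
  let φ : H →ₗ[Zat p] (T → Zat p) :=
    { toFun := fun g t => r g t
      map_add' := fun g g' => funext fun t => hinjZ (by
        simp only [Pi.add_apply, map_add, hr, Submodule.coe_add, add_mul, Finset.sum_add_distrib])
      map_smul' := fun c g => funext fun t => hinjZ (by
        simp only [RingHom.id_apply, Pi.smul_apply, smul_eq_mul, map_mul, hr, SetLike.val_smul,
          Algebra.smul_def, Finset.mul_sum, mul_assoc]
        ) }
  refine Module.Finite.of_injective φ fun g g' h => ?_
  have h0 : ∀ t ∈ (T : Set (X → Qbar)), ∑ x, ((g : X → Qbar) x - (g' : X → Qbar) x) * t x = 0 := by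
    intro t ht
    have h2 := congrArg (algebraMap (Zat p) Qbar) (congrFun h ⟨t, ht⟩)
    simp only [φ, LinearMap.coe_mk, AddHom.coe_mk, hr] at h2
    simp only [sub_mul, Finset.sum_sub_distrib]
    rw [sub_eq_zero]
    exact h2
  refine Subtype.ext (funext fun x => sub_eq_zero.mp ?_)
  have hall : ∀ u ∈ Submodule.span Qbar (T : Set (X → Qbar)),
      ∑ x, ((g : X → Qbar) x - (g' : X → Qbar) x) * u x = 0 := by
    intro u hu
    induction hu using Submodule.span_induction with
    | mem z hz => exact h0 z hz
    | zero => simp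
    | add u v _ _ hu hv => simp only [Pi.add_apply, mul_add, Finset.sum_add_distrib, hu, hv, add_zero]
    | smul c u _ hu =>
      simp only [Pi.smul_apply, smul_eq_mul, mul_left_comm _ c, ← Finset.mul_sum, hu, mul_zero]
  simpa [Pi.single_apply] using hall (Pi.single x 1) (hTspan ▸ Submodule.mem_top)

end Fermat.Agent.ECFormal
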