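import Fermat.Agent.ECFormal.InertiaFixed
import Fermat.Agent.ECFormal.FlatDescent

/-!
# Averaging inertia-equivariant functions into equivariant ones

Under `O` an `A`-algebra of functions containing all sufficiently small functions and stable
under the decomposition group, an inertia-equivariant function of `O` is congruent, modulo any
power of `p`, to an `A`-combination of equivariant functions lying in `O`.
-/

set_option autoImplicit false

noncomputable section

namespace Fermat.Agent.ECFormal

open Fermat.Agent.Galois (Qbar GalQ)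

variable {X : Type} [MulAction GalQ X]

/-- The Galois action on functions. -/
def twist (σ : GalQ) (f : X → Qbar) : X → Qbar := fun x => σ (f (σ⁻¹ • x))

theorem twist_apply (σ : GalQ) (f : X → Qbar) (x : X) : twist σ f x = σ (f (σ⁻¹ • x)) := rfl

theorem twist_mul (σ τ : GalQ) (f : X → Qbar) : twist (σ * τ) f = twist σ (twist τ f) := by
  funext x
  simp only [twist_apply, mul_inv_rev, mul_smul]
  rfl

theorem twist_one (f : X → Qbar) : twist 1 f = f := by
  funext x
  simp [twist_apply]

theorem isEquivariant_iff_twist (f : X → Qbar) :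
    FFG.IsEquivariant (fun (σ : GalQ) (x : X) => σ • x) f ↔ ∀ σ, twist σ f = f := by
  constructor
  · intro h σ
    funext x
    rw [twist_apply, ← h σ]
    exact congrArg f (smul_inv_smul σ x)
  · intro h σ x
    conv_lhs => rw [← h σ]
    rw [twist_apply, inv_smul_smul]

theorem twist_add (σ : GalQ) (f g : X → Qbar) : twist σ (f + g) = twist σ f + twist σ g := by
  funext x; simp [twist_apply]

theorem twist_sum {ι : Type*} (σ : GalQ) (s : Finset ι) (f : ι → X → Qbar) :
    twist σ (∑ i ∈ s, f i) = ∑ i ∈ s, twist σ (f i) := by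
  funext x; simp [twist_apply, Finset.sum_apply]

theorem twist_const_mul (σ : GalQ) (a : Qbar) (f : X → Qbar) :
    twist σ (fun x => a * f x) = fun x => σ a * twist σ f x := by
  funext x; simp [twist_apply]

variable [Finite X] {A : ValuationSubring Qbar} {p : ℕ}

/-- An equivariant approximation by averaging over classes of the Galois group. -/
theorem exists_average (hA : A.LiesOverPrime p) (hp : p.Prime)
    (hfin : ∃ L : IntermediateField ℚ Qbar, FiniteDimensional ℚ L ∧
      ∀ σ ∈ L.fixingSubgroup, ∀ x : X, σ • x = x)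
    (O : Subalgebra A (X → Qbar))
    (hO : ∀ f ∈ O, ∀ σ ∈ A.decompositionSubgroup ℚ, twist σ f ∈ O)
    (hsmall : ∃ N, ∀ f : X → Qbar, (∀ x, A.valuation (f x) ≤ A.valuation (p : Qbar) ^ N) → f ∈ O)
    {φ : X → Qbar} (hφO : φ ∈ O) (hφA : ∀ x, φ x ∈ A)
    (hφI : ∀ σ ∈ A.inertiaSubgroupIn ℚ, ∀ x, φ (σ • x) = σ (φ x)) (N : ℕ) :
    ∃ g ∈ Submodule.span A {h : X → Qbar |
        FFG.IsEquivariant (fun (σ : GalQ) (x : X) => σ • x) h ∧ h ∈ O},
      ∀ x, A.valuation (g x - φ x) ≤ A.valuation (p : Qbar) ^ N := by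
  classical
  obtain ⟨L₀, hL₀, hL₀fix⟩ := hfin
  obtain ⟨N₀, hN₀⟩ := hsmall
  have halg : Algebra.IsAlgebraic ℚ Qbar := AlgebraicClosure.isAlgebraic ℚ
  have hgal : IsGalois ℚ Qbar := FFG.isGalois_ratAlgClosure
  have hnormal : Normal ℚ Qbar := hgal.to_normal
  -- the level
  obtain ⟨L, hLn, hLf, hL₀L, hφL⟩ : ∃ L : IntermediateField ℚ Qbar, Normal ℚ L ∧
      FiniteDimensional ℚ L ∧ L₀ ≤ L ∧ ∀ x, φ x ∈ L := by
    have : FiniteDimensional ℚ (IntermediateField.adjoin ℚ (Set.range φ)) :=
      IntermediateField.finiteDimensional_adjoin fun x _ => Algebra.IsIntegral.isIntegral x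
    have : FiniteDimensional ℚ (L₀ ⊔ IntermediateField.adjoin ℚ (Set.range φ) :
        IntermediateField ℚ Qbar) := IntermediateField.finiteDimensional_sup L₀ _
    refine ⟨IntermediateField.normalClosure ℚ
      (L₀ ⊔ IntermediateField.adjoin ℚ (Set.range φ) : IntermediateField ℚ Qbar) Qbar,
      @normalClosure.normal ℚ _ Qbar _ _ _ _ _ hnormal, inferInstance, ?_, fun x => ?_⟩
    · exact le_sup_left.trans (IntermediateField.le_normalClosure _)
    · exact IntermediateField.le_normalClosure _
        ((le_sup_right : IntermediateField.adjoin ℚ (Set.range φ) ≤ _)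
          (IntermediateField.subset_adjoin ℚ _ ⟨x, rfl⟩))
  have hUX : ∀ σ ∈ L.fixingSubgroup, ∀ x : X, σ • x = x := fun σ hσ =>
    hL₀fix σ (IntermediateField.fixingSubgroup_antitone hL₀L hσ)
  -- `φ` is invariant under the local inertia
  have hφJ : ∀ τ ∈ localInertia L A, twist τ φ = φ := by
    intro τ hτ
    have := fixingSubgroup_normal (L := L)
    rw [localInertia, Subgroup.mem_sup_of_normal_right] at hτ
    obtain ⟨i, hi, u, hu, rfl⟩ := hτ
    have h1 : twist u φ = φ := by
      funext x
      rw [twist_apply, hUX _ (inv_mem hu), apply_eq_self_of_fixing hu (hφL x)]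
    have h2 : twist i φ = φ := by
      funext x
      rw [twist_apply, ← hφI i hi, smul_inv_smul]
    rw [twist_mul, h1, h2]
  obtain ⟨ι, hι, d, hd, hne, hcov⟩ := exists_local_representatives (L := L) A
  obtain ⟨i₀, hi₀⟩ := hcov 1 (one_mem _)
  rw [mul_one] at hi₀
  obtain ⟨n, a, Λ, haL, hav, hafix, hΛv, hdual⟩ := exists_dual_family hA hp d hd hne
  -- bounds
  have := finite_quotient (L := L) (fixing_le_localInertia L A)
  have := Fintype.ofFinite (GalQ ⧸ localInertia L A)
  have := Fintype.ofFinite X
  choose B hB using fun z : (GalQ ⧸ localInertia L A) × Fin n × X =>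
    exists_natPow_mul_mem hA hp (z.1.out (a z.2.1 * φ (z.1.out⁻¹ • z.2.2)))
  set b := Finset.univ.sup B with hb
  obtain ⟨e, heL, hei, he1, hefix, heout⟩ := exists_approx_one (L := L) hA hp (b + max N N₀)
  have h0 := valuation_natPrime_ne_zero hp A
  have hp1 := (valuation_natPrime_lt_one hA).le
  have hanti : ∀ {i j : ℕ}, i ≤ j →
      A.valuation (p : Qbar) ^ j ≤ A.valuation (p : Qbar) ^ i := fun h =>
    pow_le_pow_right_of_le_one' hp1 h
  -- the averaged functions
  let F : Fin n → X → Qbar := fun j x => (a j * e) * φ x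
  let h : Fin n → X → Qbar := fun j => ∑ c : GalQ ⧸ localInertia L A, twist c.out (F j)
  have hFJ : ∀ j, ∀ σ τ : GalQ, τ ∈ localInertia L A → twist (σ * τ) (F j) = twist σ (F j) := by
    intro j σ τ hτ
    have hF : twist τ (F j) = F j := by
      rw [twist_const_mul, hφJ τ hτ, map_mul, hafix j τ hτ,
        hefix τ (localInertia_le_localGroup L A hτ)]
    rw [twist_mul, hF]
  have hterm : ∀ j (c : GalQ ⧸ localInertia L A) (x : X), twist c.out (F j) x =
      c.out e * c.out (a j * φ (c.out⁻¹ • x)) := by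
    intro j c x
    simp only [F, twist_apply, map_mul]
    ring
  have hout : ∀ j (c : GalQ ⧸ localInertia L A), c.out ∉ localGroup L A → ∀ x,
      A.valuation (twist c.out (F j) x) ≤ A.valuation (p : Qbar) ^ max N N₀ := by
    intro j c hc x
    have h1 := (A.valuation_le_one_iff _).mpr (hB (c, j, x) b (Finset.le_sup (Finset.mem_univ _)))
    rw [hterm, map_mul]
    calc A.valuation (c.out e) * A.valuation (c.out (a j * φ (c.out⁻¹ • x)))
        ≤ A.valuation (p : Qbar) ^ (b + max N N₀) *
            A.valuation (c.out (a j * φ (c.out⁻¹ • x))) := by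
          gcongr
          exact heout _ hc
      _ = A.valuation (p : Qbar) ^ max N N₀ *
            (A.valuation ((p : Qbar) ^ b * c.out (a j * φ (c.out⁻¹ • x)))) := by
          rw [pow_add, mul_comm (A.valuation (p : Qbar) ^ b), mul_assoc, ← map_pow A.valuation _ b,
            ← map_mul A.valuation ((p : Qbar) ^ b)]
      _ ≤ A.valuation (p : Qbar) ^ max N N₀ := mul_le_of_le_one_right' h1
  -- rewriting a class in `D`
  have hclass : ∀ j i, twist (QuotientGroup.mk (d i) : GalQ ⧸ localInertia L A).out (F j) =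
      fun x => d i (a j) * e * twist (d i) φ x := by
    intro j i
    obtain ⟨u, hu⟩ := QuotientGroup.mk_out_eq_mul (localInertia L A) (d i)
    rw [hu, hFJ j _ _ u.2, twist_const_mul, map_mul,
      hefix (d i) (decomposition_le_localGroup L A (hd i))]
  have hin : ∀ c : GalQ ⧸ localInertia L A, c.out ∈ localGroup L A →
      ∃ i, (QuotientGroup.mk (d i) : GalQ ⧸ localInertia L A) = c := by
    intro c hc
    obtain ⟨i, hi⟩ := hcov _ hc
    exact ⟨i, (QuotientGroup.eq.mpr hi).trans (QuotientGroup.out_eq' c)⟩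
  have hhH : ∀ j, h j ∈ {g : X → Qbar |
      FFG.IsEquivariant (fun (σ : GalQ) (x : X) => σ • x) g ∧ g ∈ O} := by
    intro j
    refine ⟨(isEquivariant_iff_twist _).mpr fun σ => ?_, Subalgebra.sum_mem _ fun c _ => ?_⟩
    · rw [twist_sum]
      refine Fintype.sum_equiv (MulAction.toPerm σ) _ _ fun c => ?_
      obtain ⟨u, hu⟩ := QuotientGroup.mk_out_eq_mul (localInertia L A) (σ * c.out)
      have hc : MulAction.toPerm σ c =
          (QuotientGroup.mk (σ * c.out) : GalQ ⧸ localInertia L A) := by
        conv_lhs => rw [← QuotientGroup.out_eq' c]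
        rfl
      rw [hc, hu, hFJ j _ _ u.2, twist_mul]
    · by_cases hc : c.out ∈ localGroup L A
      · obtain ⟨i, rfl⟩ := hin c hc
        rw [hclass]
        have hdA : d i (a j) * e ∈ A := by
          refine A.mul_mem _ _ (Galois.decomposition_apply_mem (hd i)
            ((A.valuation_le_one_iff _).mp (hav j))) ?_
          exact Galois.place_mem_of_isIntegral A hei
        exact O.smul_mem (hO φ hφO (d i) (hd i)) (⟨_, hdA⟩ : A)
      · exact hN₀ _ fun x => (hout j c hc x).trans (hanti (le_max_right _ _))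
  refine ⟨∑ j, (⟨Λ i₀ j, (A.valuation_le_one_iff _).mp (hΛv i₀ j)⟩ : A) • h j,
    Submodule.sum_mem _ fun j _ => Submodule.smul_mem _ _ (Submodule.subset_span (hhH j)),
    fun x => ?_⟩
  -- the main terms give `e φ`
  set S := Finset.univ.image fun i => (QuotientGroup.mk (d i) : GalQ ⧸ localInertia L A) with hS
  have hinjd : Function.Injective fun i => (QuotientGroup.mk (d i) : GalQ ⧸ localInertia L A) :=
    fun i i' hii => by_contra fun hne' => hne i i' hne' (QuotientGroup.eq.mp hii)
  have hmain : ∑ c ∈ S, ∑ j, Λ i₀ j * twist c.out (F j) x = e * φ x := by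
    rw [hS, Finset.sum_image fun i _ i' _ hii => hinjd hii]
    simp only [hclass]
    have : ∀ i, ∑ j, Λ i₀ j * (d i (a j) * e * twist (d i) φ x) =
        (if i₀ = i then 1 else 0) * (e * twist (d i) φ x) := by
      intro i
      rw [← hdual i₀ i, Finset.sum_mul]
      exact Finset.sum_congr rfl fun j _ => by ring
    simp only [this, ite_mul, one_mul, zero_mul, Finset.sum_ite_eq, Finset.mem_univ, if_true]
    rw [hφJ (d i₀) (inv_mem_iff.mp hi₀)]
  have hsplit : (∑ j, (⟨Λ i₀ j, (A.valuation_le_one_iff _).mp (hΛv i₀ j)⟩ : A) • h j) x =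
      e * φ x + ∑ c ∈ Sᶜ, ∑ j, Λ i₀ j * twist c.out (F j) x := by
    rw [← hmain, Finset.sum_add_sum_compl, Finset.sum_comm, Finset.sum_apply]
    refine Finset.sum_congr rfl fun j _ => ?_
    rw [Pi.smul_apply, Algebra.smul_def]
    simp only [h, Finset.sum_apply, Finset.mul_sum]
    rfl
  rw [hsplit, add_sub_right_comm, ← sub_one_mul]
  refine (Valuation.map_add _ _ _).trans (max_le ?_ ?_)
  · rw [map_mul]
    exact (mul_le_of_le_one_right' ((A.valuation_le_one_iff _).mpr (hφA x))).trans
      (he1.trans (hanti ((le_max_left _ _).trans (Nat.le_add_left _ _))))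
  · refine A.valuation.map_sum_le fun c hc => A.valuation.map_sum_le fun j _ => ?_
    rw [map_mul]
    refine (mul_le_of_le_one_left' (hΛv i₀ j)).trans ((hout j c (fun hmem => ?_) x).trans
      (hanti (le_max_left _ _)))
    obtain ⟨i, hi⟩ := hin c hmem
    exact Finset.mem_compl.mp hc (Finset.mem_image.mpr ⟨i, Finset.mem_univ _, hi⟩)

end Fermat.Agent.ECFormal
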