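import Fermat.Agent.ECFormal.FlatAverage

/-!
# A criterion for a finite Galois module to be finite flat at `p`

`genAlg A Φ` is the `A`-algebra of functions generated by `Φ`. If `Φ` is a set of `A`-valued,
inertia-equivariant functions separating the points of `M`, closed under comultiplication up to
`genAlg`, then `M` has a finite flat model over `ℤ_(p)`.
-/

set_option autoImplicit false

noncomputable section

namespace Fermat.Agent.ECFormal

open Fermat.Agent.Galois (Qbar GalQ)

/-- The `A`-algebra generated by a set of functions. -/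
def genAlg (A : ValuationSubring Qbar) {X : Type} (Φ : Set (X → Qbar)) :
    Subalgebra A (X → Qbar) := Algebra.adjoin A Φ

/-- The generators of the functions on `M × M` coming from the two projections. -/
def prodGen {M : Type} (Φ : Set (M → Qbar)) : Set (M × M → Qbar) :=
  ((fun f => f ∘ Prod.fst) '' Φ) ∪ ((fun f => f ∘ Prod.snd) '' Φ)

theorem subset_genAlg (A : ValuationSubring Qbar) {X : Type} (Φ : Set (X → Qbar)) :
    Φ ⊆ genAlg A Φ := Algebra.subset_adjoin

theorem genAlg_value_mem {A : ValuationSubring Qbar} {X : Type} {Φ : Set (X → Qbar)}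
    (h : ∀ φ ∈ Φ, ∀ x, φ x ∈ A) {f : X → Qbar} (hf : f ∈ genAlg A Φ) : ∀ x, f x ∈ A := by
  induction hf using Algebra.adjoin_induction with
  | mem g hg => exact h g hg
  | algebraMap a => exact fun x => a.2
  | add f g _ _ hf hg => exact fun x => A.add_mem _ _ (hf x) (hg x)
  | mul f g _ _ hf hg => exact fun x => A.mul_mem _ _ (hf x) (hg x)

theorem genAlg_twist {A : ValuationSubring Qbar} {X : Type} [MulAction GalQ X]
    {Φ Ψ : Set (X → Qbar)} {σ : GalQ} (hσ : σ ∈ A.decompositionSubgroup ℚ)
    (h : ∀ φ ∈ Φ, twist σ φ ∈ genAlg A Ψ) {f : X → Qbar} (hf : f ∈ genAlg A Φ) :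
    twist σ f ∈ genAlg A Ψ := by
  induction hf using Algebra.adjoin_induction with
  | mem g hg => exact h g hg
  | algebraMap a =>
    have : twist σ (algebraMap A (X → Qbar) a) =
        algebraMap A (X → Qbar) ⟨σ a, Galois.decomposition_apply_mem hσ a.2⟩ := by
      funext x; rfl
    rw [this]; exact Subalgebra.algebraMap_mem _ _
  | add f g _ _ hf hg => rw [twist_add]; exact add_mem hf hg
  | mul f g _ _ hf hg =>
    have : twist σ (f * g) = twist σ f * twist σ g := by funext x; simp [twist_apply]
    rw [this]; exact mul_mem hf hg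

/-- An algebra separating the points of a finite set contains all small functions. -/
theorem exists_small_bound {A : ValuationSubring Qbar} {p : ℕ} {X : Type} [Finite X]
    (hA : A.LiesOverPrime p) (hp : p.Prime) (O : Subalgebra A (X → Qbar))
    (hsep : ∀ x y : X, x ≠ y → ∃ f ∈ O, f x ≠ f y) :
    ∃ N, ∀ f : X → Qbar, (∀ x, A.valuation (f x) ≤ A.valuation (p : Qbar) ^ N) → f ∈ O := by
  classical
  have := Fintype.ofFinite X
  have hpA : ∀ n : ℕ, (p : Qbar) ^ n ∈ A := fun n =>
    A.pow_mem (Galois.place_natCast_mem A p) n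
  let B : Subalgebra Qbar (X → Qbar) :=
    { carrier := {f | ∃ N : ℕ, ∀ n, N ≤ n → (fun x => (p : Qbar) ^ n * f x) ∈ O}
      mul_mem' := by
        rintro f g ⟨N, hN⟩ ⟨K, hK⟩
        refine ⟨N + K, fun n hn => ?_⟩
        convert mul_mem (hN N le_rfl) (hK (n - N) (by omega)) using 1
        funext x
        simp only [Pi.mul_apply]
        rw [show n = N + (n - N) by omega, pow_add, Nat.add_sub_cancel_left]
        ring
      add_mem' := by
        rintro f g ⟨N, hN⟩ ⟨K, hK⟩
        refine ⟨max N K, fun n hn => ?_⟩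
        convert add_mem (hN n (le_trans (le_max_left _ _) hn))
          (hK n (le_trans (le_max_right _ _) hn)) using 1
        funext x
        simp [mul_add]
      algebraMap_mem' := by
        intro c
        obtain ⟨N, hN⟩ := exists_natPow_mul_mem hA hp c
        exact ⟨N, fun n hn => O.algebraMap_mem ⟨_, hN n hn⟩⟩ }
  have hB : B = ⊤ := FFG.subalgebra_eq_top_of_separates B fun x y hxy => by
    obtain ⟨f, hf, hne⟩ := hsep x y hxy
    exact ⟨f, ⟨0, fun n _ => by
      simpa [Algebra.smul_def] using! O.smul_mem hf (⟨_, hpA n⟩ : A)⟩, hne⟩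
  choose N hN using fun x : X => (show (Pi.single x 1 : X → Qbar) ∈ B from hB ▸ trivial)
  refine ⟨Finset.univ.sup N, fun f hf => ?_⟩
  have h0 : (p : Qbar) ^ Finset.univ.sup N ≠ 0 := pow_ne_zero _ (Nat.cast_ne_zero.mpr hp.ne_zero)
  have hc : ∀ x, f x / (p : Qbar) ^ Finset.univ.sup N ∈ A := fun x => by
    rw [← A.valuation_le_one_iff, map_div₀, map_pow,
      div_le_one₀ (pow_pos (zero_lt_iff.mpr (valuation_natPrime_ne_zero hp A)) _)]
    exact hf x
  have key : f = ∑ x, (⟨_, hc x⟩ : A) •
      (fun y => (p : Qbar) ^ Finset.univ.sup N * (Pi.single x 1 : X → Qbar) y) := by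
    funext y
    rw [Finset.sum_apply, Finset.sum_eq_single y]
    · rw [Pi.smul_apply, Pi.single_eq_same, mul_one, Algebra.smul_def]
      exact (div_mul_cancel₀ (f y) h0).symm
    · intro x _ hx
      rw [Pi.smul_apply, Pi.single_eq_of_ne (Ne.symm hx), mul_zero, smul_zero]
    · simp
  rw [key]
  exact Subalgebra.sum_mem _ fun x _ =>
    O.smul_mem (hN x _ (Finset.le_sup (Finset.mem_univ x))) _

variable {M : Type} [AddCommGroup M] [Finite M] [DistribMulAction GalQ M]

/-- The criterion when the generators are stable under the decomposition group. -/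
theorem hasFlatModelAt_of_stable
    (hfin : ∃ L : IntermediateField ℚ Qbar, FiniteDimensional ℚ L ∧
      ∀ σ ∈ L.fixingSubgroup, ∀ m : M, σ • m = m)
    {A : ValuationSubring Qbar} {p : ℕ} (hA : A.LiesOverPrime p) (hp : p.Prime)
    (Φ : Set (M → Qbar)) (hval : ∀ φ ∈ Φ, ∀ m, φ m ∈ A)
    (heq : ∀ φ ∈ Φ, ∀ σ ∈ A.inertiaSubgroupIn ℚ, ∀ m, φ (σ • m) = σ (φ m))
    (hstab : ∀ φ ∈ Φ, ∀ σ ∈ A.decompositionSubgroup ℚ, twist σ φ ∈ Φ)
    (hsep : ∀ m m' : M, (∀ φ ∈ Φ, φ m = φ m') → m = m')
    (hadd : ∀ φ ∈ Φ, (fun z : M × M => φ (z.1 + z.2)) ∈ genAlg A (prodGen Φ)) :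
    FFG.HasFlatModelAt p (fun (σ : GalQ) (m : M) => σ • m) := by
  classical
  set act : GalQ → M → M := fun σ m => σ • m with hact
  set O := genAlg A Φ with hOdef
  have hOstab : ∀ f ∈ O, ∀ σ ∈ A.decompositionSubgroup ℚ, twist σ f ∈ O := fun f hf σ hσ =>
    genAlg_twist hσ (fun φ hφ => subset_genAlg A Φ (hstab φ hφ σ hσ)) hf
  -- the model
  let B : Subalgebra (Zat p) (M → Qbar) :=
    { carrier := {h | FFG.IsEquivariant act h ∧ h ∈ O}
      mul_mem' := fun {f g} hf hg => ⟨fun σ x => by
        simp only [Pi.mul_apply, map_mul, hf.1 σ x, hg.1 σ x], mul_mem hf.2 hg.2⟩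
      add_mem' := fun {f g} hf hg => ⟨fun σ x => by
        simp only [Pi.add_apply, map_add, hf.1 σ x, hg.1 σ x], add_mem hf.2 hg.2⟩
      algebraMap_mem' := fun r => ⟨fun σ x => by
        simp [Pi.algebraMap_apply, algebraMap_zat],
        O.algebraMap_mem ⟨_, algebraMap_zat_mem hA hp r⟩⟩ }
  set S := Submodule.span A (B : Set (M → Qbar)) with hS
  have hsepO : ∀ x y : M, x ≠ y → ∃ f ∈ O, f x ≠ f y := fun x y hxy => by
    by_contra hcon
    push Not at hcon
    exact hxy (hsep x y fun φ hφ => hcon φ (subset_genAlg A Φ hφ))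
  have hsmall := exists_small_bound hA hp O hsepO
  have happrox : ∀ φ ∈ Φ, ∀ N, ∃ g ∈ S, ∀ x,
      A.valuation (g x - φ x) ≤ A.valuation (p : Qbar) ^ N := fun φ hφ N =>
    exists_average hA hp hfin O hOstab hsmall (subset_genAlg A Φ hφ) (hval φ hφ) (heq φ hφ) N
  -- `S` as an algebra
  have hSO : ∀ g ∈ S, g ∈ O := by
    intro g hg
    induction hg using Submodule.span_induction with
    | mem z hz => exact hz.2
    | zero => exact zero_mem _
    | add u v _ _ hu hv => exact add_mem hu hv
    | smul c u _ hu => exact O.smul_mem hu c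
  let S' : Subalgebra A (M → Qbar) := Submodule.toSubalgebra S
    (Submodule.subset_span B.one_mem) (fun a b ha hb => by
      induction ha using Submodule.span_induction with
      | mem z hz =>
        induction hb using Submodule.span_induction with
        | mem w hw => exact Submodule.subset_span (B.mul_mem hz hw)
        | zero => rw [mul_zero]; exact zero_mem _
        | add u v _ _ hu hv => rw [mul_add]; exact add_mem hu hv
        | smul c u _ hu => rw [mul_smul_comm]; exact Submodule.smul_mem _ _ hu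
      | zero => rw [zero_mul]; exact zero_mem _
      | add u v _ _ hu hv => rw [add_mul]; exact add_mem hu hv
      | smul c u _ hu => rw [smul_mul_assoc]; exact Submodule.smul_mem _ _ hu)
  have hsepB : ∀ x y : M, (∀ f ∈ B, f x = f y) → x = y := by
    intro x y hxy
    refine hsep x y fun φ hφ => by_contra fun hne => ?_
    have hd : φ x - φ y ≠ 0 := sub_ne_zero.mpr hne
    obtain ⟨N, hN⟩ := exists_natPow_mul_mem hA hp (φ x - φ y)⁻¹
    obtain ⟨g, hg, hgb⟩ := happrox φ hφ (N + 1)
    have hgxy : g x = g y := by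
      clear hgb
      induction hg using Submodule.span_induction with
      | mem z hz => exact hxy z hz
      | zero => rfl
      | add u v _ _ hu hv => simp [hu, hv]
      | smul c u _ hu => simp [hu]
    have hlow : A.valuation (p : Qbar) ^ N ≤ A.valuation (φ x - φ y) := by
      have h2 := (A.valuation_le_one_iff _).mpr (hN N le_rfl)
      rw [map_mul, map_pow, map_inv₀,
        mul_inv_le_iff₀ (zero_lt_iff.mpr ((_root_.map_ne_zero _).mpr hd)), one_mul] at h2
      exact h2
    have hhigh : A.valuation (φ x - φ y) ≤ A.valuation (p : Qbar) ^ (N + 1) := by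
      rw [show φ x - φ y = (g y - φ y) - (g x - φ x) by rw [hgxy]; ring]
      exact (Valuation.map_sub _ _ _).trans (max_le (hgb y) (hgb x))
    have hlt : A.valuation (p : Qbar) ^ (N + 1) < A.valuation (p : Qbar) ^ N :=
      pow_lt_pow_right_of_lt_one₀ (zero_lt_iff.mpr (valuation_natPrime_ne_zero hp A))
        (valuation_natPrime_lt_one hA) (Nat.lt_succ_self N)
    exact lt_irrefl _ ((hlow.trans hhigh).trans_lt hlt)
  have hgenS : ∀ φ ∈ Φ, φ ∈ S := by
    obtain ⟨N, hN⟩ := exists_small_bound hA hp S' fun x y hxy => by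
      by_contra hcon
      push Not at hcon
      exact hxy (hsepB x y fun f hf => hcon f (Submodule.subset_span hf))
    intro φ hφ
    obtain ⟨g, hg, hgb⟩ := happrox φ hφ N
    have hd : g - φ ∈ S := hN (g - φ) hgb
    simpa using Submodule.sub_mem S hg hd
  have hOS : ∀ f ∈ O, f ∈ S := fun f hf =>
    (Algebra.adjoin_le (fun φ hφ => hgenS φ hφ) : O ≤ S') hf
  have hbij : ∀ σ, Function.Bijective (act σ) := fun σ => MulAction.bijective σ
  refine (FFG.hasFlatModel_iff (act := act)).mpr ⟨B, ?_, fun f hf => hf.1, hsepB, ?_⟩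
  · refine finite_of_equivariant (A := A) hA hp hbij B.toSubmodule
      (fun g hg => ⟨hg.1, genAlg_value_mem hval hg.2⟩) ?_
    have htop := FFG.subalgebra_eq_top_of_separates (Algebra.adjoin Qbar (B : Set (M → Qbar)))
      fun x y hxy => by
        by_contra hcon
        push Not at hcon
        exact hxy (hsepB x y fun f hf => hcon f (Algebra.subset_adjoin hf))
    have h2 : Subalgebra.toSubmodule (Algebra.adjoin Qbar (B : Set (M → Qbar))) =
        Submodule.span Qbar (B : Set (M → Qbar)) := by
      rw [Algebra.adjoin_eq_span]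
      congr 1
      exact congrArg SetLike.coe (Submonoid.closure_eq B.toSubmonoid)
    rw [Subalgebra.coe_toSubmodule, ← h2, htop, Algebra.top_toSubmodule]
  · intro f hf
    set f₂ : M × M → Qbar := FFG.pull (Zat p) Qbar (fun z : M × M => z.1 + z.2) f with hf₂
    have hf₂O : f₂ ∈ genAlg A (prodGen Φ) := by
      have : ∀ g ∈ O, (fun z : M × M => g (z.1 + z.2)) ∈ genAlg A (prodGen Φ) := by
        intro g hg
        induction hg using Algebra.adjoin_induction with
        | mem φ hφ => exact hadd φ hφ
        | algebraMap a => exact Subalgebra.algebraMap_mem _ a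
        | add u v _ _ hu hv => exact add_mem hu hv
        | mul u v _ _ hu hv => exact mul_mem hu hv
      exact this f hf.2
    have hspan : f₂ ∈ Submodule.span A (FFG.prodAlg B B : Set (M × M → Qbar)) := by
      let T : Subalgebra A (M × M → Qbar) := Submodule.toSubalgebra
        (Submodule.span A (FFG.prodAlg B B : Set (M × M → Qbar)))
        (Submodule.subset_span (FFG.prodAlg B B).one_mem) (fun a b ha hb => by
          induction ha using Submodule.span_induction with
          | mem z hz =>
            induction hb using Submodule.span_induction with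
            | mem w hw => exact Submodule.subset_span ((FFG.prodAlg B B).mul_mem hz hw)
            | zero => rw [mul_zero]; exact zero_mem _
            | add u v _ _ hu hv => rw [mul_add]; exact add_mem hu hv
            | smul c u _ hu => rw [mul_smul_comm]; exact Submodule.smul_mem _ _ hu
          | zero => rw [zero_mul]; exact zero_mem _
          | add u v _ _ hu hv => rw [add_mul]; exact add_mem hu hv
          | smul c u _ hu => rw [smul_mul_assoc]; exact Submodule.smul_mem _ _ hu)
      have hle : genAlg A (prodGen Φ) ≤ T := by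
        refine Algebra.adjoin_le ?_
        rintro _ (⟨φ, hφ, rfl⟩ | ⟨φ, hφ, rfl⟩)
        · change φ ∘ Prod.fst ∈ T
          have h := hgenS φ hφ
          clear hφ
          induction h using Submodule.span_induction with
          | mem z hz =>
            exact Submodule.subset_span
              ((le_sup_left : B.map (FFG.pull (Zat p) Qbar Prod.fst) ≤ FFG.prodAlg B B)
                ⟨z, hz, rfl⟩)
          | zero => exact zero_mem T
          | add u v _ _ hu hv => exact add_mem (S := Subalgebra A (M × M → Qbar)) hu hv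
          | smul c u _ hu => exact T.smul_mem hu c
        · change φ ∘ Prod.snd ∈ T
          have h := hgenS φ hφ
          clear hφ
          induction h using Submodule.span_induction with
          | mem z hz =>
            exact Submodule.subset_span
              ((le_sup_right : B.map (FFG.pull (Zat p) Qbar Prod.snd) ≤ FFG.prodAlg B B)
                ⟨z, hz, rfl⟩)
          | zero => exact zero_mem T
          | add u v _ _ hu hv => exact add_mem (S := Subalgebra A (M × M → Qbar)) hu hv
          | smul c u _ hu => exact T.smul_mem hu c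
      exact hle hf₂O
    let act₂ : GalQ → M × M → M × M := fun σ z => (σ • z.1, σ • z.2)
    have heq₂ : ∀ g ∈ FFG.prodAlg B B, FFG.IsEquivariant act₂ g := by
      intro g hg
      rw [← FFG.range_tmap_val] at hg
      obtain ⟨t, rfl⟩ := hg
      rintro σ ⟨a, b⟩
      change FFG.tmap B.val B.val t (σ • a, σ • b) = σ (FFG.tmap B.val B.val t (a, b))
      induction t using TensorProduct.induction_on with
      | zero => simp
      | tmul u v =>
        simp only [FFG.tmap_tmul, map_mul]
        exact congrArg₂ (· * ·) (u.2.1 σ a) (v.2.1 σ b)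
      | add s t hs ht => simp only [map_add, Pi.add_apply, hs, ht]
    refine mem_of_mem_span_place hA hp (act := act₂) (fun σ z => ⟨(σ⁻¹ • z.1, σ⁻¹ • z.2), by
      simp [act₂]⟩) (FFG.prodAlg B B).toSubmodule heq₂ ?_ hspan
    rintro σ ⟨a, b⟩
    change f (σ • a + σ • b) = σ (f (a + b))
    rw [← smul_add]
    exact hf.1 σ (a + b)

/-- A criterion for a finite Galois module to be finite flat at `p`. -/
theorem hasFlatModelAt_of_generators
    (hfin : ∃ L : IntermediateField ℚ Qbar, FiniteDimensional ℚ L ∧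
      ∀ σ ∈ L.fixingSubgroup, ∀ m : M, σ • m = m)
    {A : ValuationSubring Qbar} {p : ℕ} (hA : A.LiesOverPrime p) (hp : p.Prime)
    (Φ : Set (M → Qbar)) (hval : ∀ φ ∈ Φ, ∀ m, φ m ∈ A)
    (heq : ∀ φ ∈ Φ, ∀ σ ∈ A.inertiaSubgroupIn ℚ, ∀ m, φ (σ • m) = σ (φ m))
    (hsep : ∀ m m' : M, (∀ φ ∈ Φ, φ m = φ m') → m = m')
    (hadd : ∀ φ ∈ Φ, (fun z : M × M => φ (z.1 + z.2)) ∈ genAlg A (prodGen Φ)) :
    FFG.HasFlatModelAt p (fun (σ : GalQ) (m : M) => σ • m) := by
  refine hasFlatModelAt_of_stable hfin hA hp
    {ψ | ∃ σ ∈ A.decompositionSubgroup ℚ, ∃ φ ∈ Φ, twist σ φ = ψ} ?_ ?_ ?_ ?_ ?_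
  · rintro _ ⟨σ, hσ, φ, hφ, rfl⟩ m
    exact Galois.decomposition_apply_mem hσ (hval φ hφ _)
  · rintro _ ⟨σ, hσ, φ, hφ, rfl⟩ τ hτ m
    have h := heq φ hφ _ (Galois.inertia_normal_in_decomposition hτ (inv_mem hσ)) (σ⁻¹ • m)
    rw [← mul_smul, inv_inv, mul_assoc (σ⁻¹ * τ) σ, mul_inv_cancel, mul_one, mul_smul] at h
    simp only [twist_apply]
    rw [h, ← AlgEquiv.mul_apply, ← AlgEquiv.mul_apply]
    group
  · rintro _ ⟨σ, hσ, φ, hφ, rfl⟩ τ hτ
    exact ⟨τ * σ, mul_mem hτ hσ, φ, hφ, twist_mul τ σ φ⟩
  · intro m m' h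
    exact hsep m m' fun φ hφ => by
      simpa [twist_one] using h φ ⟨1, one_mem _, φ, hφ, twist_one φ⟩
  · rintro _ ⟨σ, hσ, φ, hφ, rfl⟩
    have h2 := genAlg_twist (X := M × M) hσ
      (Ψ := prodGen {ψ | ∃ σ ∈ A.decompositionSubgroup ℚ, ∃ φ ∈ Φ, twist σ φ = ψ}) ?_ (hadd φ hφ)
    · convert h2 using 1
      funext z
      simp only [twist_apply, Prod.smul_fst, Prod.smul_snd, smul_add]
    · rintro _ (⟨φ', hφ', rfl⟩ | ⟨φ', hφ', rfl⟩)
      · exact subset_genAlg _ _ (Or.inl ⟨twist σ φ', ⟨σ, hσ, φ', hφ', rfl⟩, rfl⟩)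
      · exact subset_genAlg _ _ (Or.inr ⟨twist σ φ', ⟨σ, hσ, φ', hφ', rfl⟩, rfl⟩)

end Fermat.Agent.ECFormal
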