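import Fermat.Agent.ECFormal.FlatCriterion

/-!
# Tools for membership in `genAlg`

* elements of `genAlg` are integral, so one with unit values has its inverse in `genAlg`;
* gluing along indicator functions lying in `genAlg`.
-/

set_option autoImplicit false

noncomputable section

namespace Fermat.Agent.ECFormal

open Fermat.Agent.Galois (Qbar GalQ)
open Polynomial

variable {A : ValuationSubring Qbar} {X : Type}

/-- An element with values units at `A` is invertible in any `A`-algebra of functions on a finite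
set. -/
theorem inv_mem_of_valuation_eq_one [Finite X] (O : Subalgebra A (X → Qbar)) {f : X → Qbar}
    (hf : f ∈ O) (hu : ∀ x, A.valuation (f x) = 1) : (fun x => (f x)⁻¹) ∈ O := by
  classical
  have := Fintype.ofFinite X
  have hA : ∀ x, f x ∈ A := fun x => (A.valuation_le_one_iff _).mp (hu x).le
  set g : A[X] := ∏ x : X, (Polynomial.X - C ⟨f x, hA x⟩) with hg
  have hroot : ∀ x, (g.map A.subtype).eval (f x) = 0 := by
    intro x
    rw [hg, Polynomial.map_prod, eval_prod]
    exact Finset.prod_eq_zero (Finset.mem_univ x) (by simp)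
  have h0 : A.valuation (A.subtype (g.coeff 0)) = 1 := by
    rw [coeff_zero_eq_eval_zero, hg, eval_prod, map_prod, map_prod]
    refine Finset.prod_eq_one fun x _ => ?_
    simpa using hu x
  have hc0 : A.subtype (g.coeff 0) ≠ 0 := fun h => by rw [h, map_zero] at h0; exact zero_ne_one h0
  have hcA : -(A.subtype (g.coeff 0))⁻¹ ∈ A := by
    refine A.neg_mem _ ((A.valuation_le_one_iff _).mp ?_)
    rw [map_inv₀, h0, inv_one]
  -- `f * h = - g(0)` for `h = ∑ g_(i+1) f^i`
  set h : X → Qbar := ∑ i ∈ Finset.range g.natDegree, g.coeff (i + 1) • f ^ i with hh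
  have hhO : h ∈ O := Subalgebra.sum_mem _ fun i _ => O.smul_mem (pow_mem hf i) _
  have hmul : ∀ x, f x * h x = -A.subtype (g.coeff 0) := by
    intro x
    have he := hroot x
    rw [eval_map, eval₂_eq_sum_range, Finset.sum_range_succ'] at he
    rw [eq_neg_iff_add_eq_zero, ← he, hh, Finset.sum_apply, Finset.mul_sum]
    congr 1
    · refine Finset.sum_congr rfl fun i _ => ?_
      rw [Pi.smul_apply, Pi.pow_apply, Algebra.smul_def, pow_succ]
      change f x * (A.subtype (g.coeff (i + 1)) * f x ^ i) = _
      ring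
    · rw [pow_zero, mul_one]
  have key : (fun x => (f x)⁻¹) = (⟨_, hcA⟩ : A) • h := by
    funext x
    rw [Pi.smul_apply, Algebra.smul_def]
    refine inv_eq_of_mul_eq_one_right ?_
    change f x * (-(A.subtype (g.coeff 0))⁻¹ * h x) = 1
    rw [mul_left_comm, hmul, neg_mul_neg, inv_mul_cancel₀ hc0]
  rw [key]
  exact O.smul_mem hhO _

/-- Division by an element with values units on the support of an indicator in the algebra. -/
theorem indicator_div_mem [Finite X] (O : Subalgebra A (X → Qbar)) {e f d : X → Qbar}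
    (he : e ∈ O) (he01 : ∀ x, e x = 0 ∨ e x = 1) (hf : f ∈ O) (hd : d ∈ O)
    (hu : ∀ x, e x = 1 → A.valuation (d x) = 1) : (fun x => e x * (f x / d x)) ∈ O := by
  have hd' : e * d + (1 - e) ∈ O := add_mem (mul_mem he hd) (sub_mem (one_mem O) he)
  have hu' : ∀ x, A.valuation ((e * d + (1 - e)) x) = 1 := fun x => by
    rcases he01 x with h | h <;> simp [h, hu]
  convert mul_mem (mul_mem he hf) (inv_mem_of_valuation_eq_one O hd' hu') using 1
  funext x
  simp only [Pi.mul_apply, Pi.add_apply, Pi.sub_apply, Pi.one_apply]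
  rcases he01 x with h | h
  · simp [h]
  · simp [h, div_eq_mul_inv]

/-- Gluing: a function agreeing on each piece with an element of the algebra belongs to it. -/
theorem mem_of_piecewise {ι : Type*} [Fintype ι] (O : Subalgebra A (X → Qbar)) (e : ι → X → Qbar)
    (he : ∀ i, e i ∈ O) (hsum : ∀ x, ∑ i, e i x = 1) {f : X → Qbar}
    (h : ∀ i, ∃ g ∈ O, ∀ x, e i x ≠ 0 → f x = g x) : f ∈ O := by
  choose g hg hfg using h
  have key : f = ∑ i, e i * g i := by
    funext x
    rw [Finset.sum_apply]
    conv_lhs => rw [← one_mul (f x), ← hsum x, Finset.sum_mul]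
    refine Finset.sum_congr rfl fun i _ => ?_
    rcases eq_or_ne (e i x) 0 with h | h
    · simp [h]
    · rw [Pi.mul_apply, hfg i x h]
  rw [key]
  exact Subalgebra.sum_mem _ fun i _ => mul_mem (he i) (hg i)

theorem comp_fst_mem {M : Type} {Φ : Set (M → Qbar)} {f : M → Qbar} (hf : f ∈ genAlg A Φ) :
    f ∘ Prod.fst ∈ genAlg A (prodGen Φ) := by
  induction hf using Algebra.adjoin_induction with
  | mem g hg => exact subset_genAlg _ _ (Or.inl ⟨g, hg, rfl⟩)
  | algebraMap a => exact Subalgebra.algebraMap_mem _ a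
  | add u v _ _ hu hv => exact add_mem (S := Subalgebra A (M × M → Qbar)) hu hv
  | mul u v _ _ hu hv => exact mul_mem (S := Subalgebra A (M × M → Qbar)) hu hv

theorem comp_snd_mem {M : Type} {Φ : Set (M → Qbar)} {f : M → Qbar} (hf : f ∈ genAlg A Φ) :
    f ∘ Prod.snd ∈ genAlg A (prodGen Φ) := by
  induction hf using Algebra.adjoin_induction with
  | mem g hg => exact subset_genAlg _ _ (Or.inr ⟨g, hg, rfl⟩)
  | algebraMap a => exact Subalgebra.algebraMap_mem _ a
  | add u v _ _ hu hv => exact add_mem (S := Subalgebra A (M × M → Qbar)) hu hv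
  | mul u v _ _ hu hv => exact mul_mem (S := Subalgebra A (M × M → Qbar)) hu hv

end Fermat.Agent.ECFormal
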