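import Fermat.Agent.ECFormal.Kernel
import Fermat.Agent.ECLocal.MultSign
import Fermat.Agent.WeilPairing.Det

/-!
# Galois action on the line and on the quotient

* inertia acts trivially modulo the kernel of reduction;
* multiplicative case: the decomposition group acts by a sign `z` on the quotient and by `z` times
  the cyclotomic character on the line.
-/

set_option autoImplicit false

noncomputable section

namespace Fermat.Agent.ECFormal

open WeierstrassCurve
open Fermat.Agent.Galois (Qbar GalQ)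
open Fermat.Agent.ECLocal (InKernel NonsingRed)
open scoped WeierstrassCurve.Affine

variable (W : WeierstrassCurve ℤ) {p : ℕ} {A : ValuationSubring Qbar}

theorem inKernel_smul_tors {σ : GalQ} (hσ : σ ∈ A.decompositionSubgroup ℚ) {n : ℕ}
    {P : Tors W n} (hP : InKernel A (P : PointQbar W)) :
    InKernel A ((σ • P : Tors W n) : PointQbar W) :=
  hP.smul hσ

/-- Inertia moves every point of `p`-power order by an element of the kernel of reduction. -/
theorem inKernel_smul_sub_tors (hΔ : W.Δ ≠ 0) (hA : A.LiesOverPrime p) (hp : p.Prime)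
    (hp2 : p ≠ 2) (hss : SemistableAt W p) {σ : GalQ} (hσ : σ ∈ A.inertiaSubgroupIn ℚ) {n : ℕ}
    (P : Tors W (p ^ n)) :
    InKernel A ((σ • P - P : Tors W (p ^ n)) : PointQbar W) := by
  have halg : Algebra.IsAlgebraic ℚ Qbar := AlgebraicClosure.isAlgebraic ℚ
  by_cases hd : (p : ℤ) ∣ W.Δ
  · exact inKernel_of_nonsingRed W hΔ hA hp hp2 hd (hss hd) n _ (nsmul_tors_eq_zero W _)
      (ECLocal.nonsingRed_smul_sub (ECLocal.multAt_intModel W hΔ hp hd (hss hd) A hA) hσ P.1)
  · exact ECLocal.inKernel_smul_sub (ECLocal.integralAt_intModel W A) hσ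
      (ECLocal.nonsingRed_of_good (ECLocal.goodAt_intModel W hp hd A hA) P.1)

/-- Multiplicative reduction: the sign of a decomposition element. -/
theorem exists_sign_tors (hΔ : W.Δ ≠ 0) (hA : A.LiesOverPrime p) (hp : p.Prime)
    (hp2 : p ≠ 2) (hd : (p : ℤ) ∣ W.Δ) (hc : ¬ (p : ℤ) ∣ W.c₄)
    {σ : GalQ} (hσ : σ ∈ A.decompositionSubgroup ℚ) :
    ∃ z : ℤ, (z = 1 ∨ z = -1) ∧ (σ ∈ A.inertiaSubgroupIn ℚ → z = 1) ∧
      ∀ (n : ℕ) (P : Tors W (p ^ n)),
        InKernel A ((σ • P - z • P : Tors W (p ^ n)) : PointQbar W) := by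
  have halg : Algebra.IsAlgebraic ℚ Qbar := AlgebraicClosure.isAlgebraic ℚ
  obtain ⟨z, hz, hz1, h⟩ :=
    ECLocal.exists_sign_nonsingRed_sub (ECLocal.multAt_intModel W hΔ hp hd hc A hA) hσ
  exact ⟨z, hz, hz1, fun n P =>
    inKernel_of_nonsingRed W hΔ hA hp hp2 hd hc n _ (nsmul_tors_eq_zero W _) (h P.1)⟩

/-- On the line a decomposition element acts by the cyclotomic character times its action on the
quotient, when the latter is a sign. -/
theorem smul_eq_cyclotomic_mul_sign (hΔ : W.Δ ≠ 0) (hA : A.LiesOverPrime p) (hp : p.Prime)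
    (hp2 : p ≠ 2) (hss : SemistableAt W p) (hord : OrdinaryAtPlace W p A)
    {σ : GalQ} (hσ : σ ∈ A.decompositionSubgroup ℚ) {z : ℤ} (hz : z = 1 ∨ z = -1)
    (hzq : ∀ (n : ℕ) (P : Tors W (p ^ n)),
      InKernel A ((σ • P - z • P : Tors W (p ^ n)) : PointQbar W))
    {n a : ℕ} (ha : ∀ μ : Qbar, μ ^ p ^ n = 1 → σ μ = μ ^ a)
    (P : Tors W (p ^ n)) (hP : InKernel A (P : PointQbar W)) :
    σ • P = ((a : ℤ) * z) • P := by
  obtain ⟨G, hG, hGn⟩ := exists_inKernel_tors W hΔ hA hp hp2 hss n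
  obtain ⟨Q, -, hind, -⟩ := exists_complement_tors W hΔ hp hord hG hGn
  have hmem := fun {R : Tors W (p ^ n)} =>
    (inKernel_iff_mem_zmultiples_tors W hΔ hp hord hG hGn R).mp
  obtain ⟨x, hx⟩ := AddSubgroup.mem_zmultiples_iff.mp (hmem (inKernel_smul_tors W hσ hG))
  obtain ⟨y, hy⟩ := AddSubgroup.mem_zmultiples_iff.mp (hmem (hzq n Q))
  have hxz : ((p ^ n : ℕ) : ℤ) ∣ x * z - y * 0 - a := by
    refine WeilPairing.dvd_det_sub_of_odd (W := (W.map (Int.castRingHom ℚ)).toAffine)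
      (ECTorsion.algebraMap_qbar_Δ_ne_zero _ (ECTorsion.map_castRingHom_Δ_ne_zero W hΔ))
      (Nat.cast_ne_zero.mpr (pow_ne_zero n hp.ne_zero)) ((hp.odd_of_ne_two hp2).pow)
      (P := (G : PointQbar W)) (Q := (Q : PointQbar W)) ?_ σ ?_ ?_ ha
    · exact ⟨nsmul_tors_eq_zero W G, nsmul_tors_eq_zero W Q, fun u v huv =>
        hind u v (Subtype.ext huv)⟩
    · have h : σ • G = x • G + (0 : ℤ) • Q := by rw [zero_zsmul, add_zero, hx]
      exact congrArg Subtype.val h
    · have h : σ • Q = y • G + z • Q := by rw [hy]; abel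
      exact congrArg Subtype.val h
  have hx' : ((p ^ n : ℕ) : ℤ) ∣ x - a * z := by
    have h2 := Dvd.dvd.mul_right hxz z
    rcases hz with rfl | rfl <;> (ring_nf at h2 ⊢; exact h2)
  obtain ⟨k, hk⟩ := AddSubgroup.mem_zmultiples_iff.mp (hmem hP)
  have hzero : ((x : ℤ) - a * z) • P = 0 := by
    obtain ⟨c, hc⟩ := hx'
    rw [hc, mul_comm, mul_zsmul, natCast_zsmul,
      show (p ^ n) • P = 0 from Subtype.ext (nsmul_tors_eq_zero W P), zsmul_zero]
  rw [sub_zsmul, ← sub_eq_add_neg, sub_eq_zero] at hzero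
  rw [← hzero, ← hk, ← mul_zsmul, mul_comm, mul_zsmul, hx]
  exact map_zsmul (DistribMulAction.toAddMonoidHom (Tors W (p ^ n)) σ) k G

end Fermat.Agent.ECFormal
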