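import Fermat.Agent.ECFormal.DivPolyLocal
import Fermat.Agent.ECTorsion.Galois

/-!
# Torsion points in the kernel of reduction: existence

* a nonzero `p`-torsion point in the kernel, division by `p` inside the kernel;
* in the multiplicative case a `p`-torsion point reducing to the node.
-/

set_option autoImplicit false

noncomputable section

namespace Fermat.Agent.ECFormal

open WeierstrassCurve Polynomial
open Fermat.Agent.Galois (Qbar GalQ)
open Fermat.Agent.ECLocal (InKernel NonsingRed)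
open scoped WeierstrassCurve.Affine

variable (W : WeierstrassCurve ℤ) {p : ℕ} {A : ValuationSubring Qbar}

/-- The kernel of reduction as a subgroup. -/
def kerRed (A : ValuationSubring Qbar) : AddSubgroup (PointQbar W) where
  carrier := {P | InKernel A P}
  add_mem' := fun ha hb => ECLocal.InKernel.add (ECLocal.integralAt_intModel W A) ha hb
  zero_mem' := trivial
  neg_mem' := fun ha => ECLocal.InKernel.neg (ECLocal.integralAt_intModel W A) ha

theorem mem_kerRed {P : PointQbar W} : P ∈ kerRed W A ↔ InKernel A P := Iff.rfl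

theorem exists_point_over (hΔ : W.Δ ≠ 0) (x : Qbar) :
    ∃ y, (curveQbar W).toAffine.Nonsingular x y := by
  obtain ⟨y, hy⟩ := ECTorsion.exists_equation (curveQbar W).toAffine x
  exact ⟨y, (Affine.equation_iff_nonsingular_of_Δ_ne_zero (curveQbar_Δ_ne_zero W hΔ)).mp hy⟩

theorem natSmul_some_eq_zero_iff (hp : p.Prime) (hp2 : p ≠ 2) {x y : Qbar}
    (h : (curveQbar W).toAffine.Nonsingular x y) :
    p • (Affine.Point.some x y h : PointQbar W) = 0 ↔ (divPoly W p).IsRoot x := by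
  rw [← natCast_zsmul, ECTorsion.zsmul_some_eq_zero_iff_ΨSq, ΨSq_ofNat,
    if_neg (Nat.not_even_iff_odd.mpr (hp.odd_of_ne_two hp2)), mul_one, eval_pow,
    pow_eq_zero_iff two_ne_zero, divPoly_eq]
  rfl

/-- A nonzero `p`-torsion point in the kernel of reduction. -/
theorem exists_kernel_prime_point (hΔ : W.Δ ≠ 0) (hA : A.LiesOverPrime p) (hp : p.Prime)
    (hp2 : p ≠ 2) (hss : SemistableAt W p) :
    ∃ P : PointQbar W, InKernel A P ∧ P ≠ 0 ∧ p • P = 0 := by
  obtain ⟨r, hr, hrA⟩ := exists_root_not_mem W hA hp hp2 hss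
  obtain ⟨y, hy⟩ := exists_point_over W hΔ r
  exact ⟨Affine.Point.some r y hy, hrA, Affine.Point.some_ne_zero hy,
    (natSmul_some_eq_zero_iff W hp hp2 hy).mpr hr⟩

/-- Division by `p` inside the kernel of reduction. -/
theorem exists_kernel_div (hΔ : W.Δ ≠ 0) (hA : A.LiesOverPrime p) (hp : p.Prime)
    (hp2 : p ≠ 2) (hss : SemistableAt W p) {R : PointQbar W} (hR : InKernel A R) :
    ∃ Q : PointQbar W, InKernel A Q ∧ p • Q = R := by
  rcases R with _ | ⟨xR, yR, hxy⟩
  · exact ⟨0, trivial, nsmul_zero p⟩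
  have hεlt : A.valuation xR⁻¹ < 1 := by
    rw [map_inv₀]
    refine inv_lt_one_of_one_lt₀ (not_le.mp fun h => hR ((A.valuation_le_one_iff _).mp h))
  have hε0 : xR⁻¹ ≠ 0 := inv_ne_zero fun h => hR (h ▸ A.zero_mem)
  set Vq := curveQbar W with hVq
  have hcop := ECTorsion.isCoprime_Φ_ΨSq (W := Vq.toAffine) (curveQbar_Δ_ne_zero W hΔ) (p : ℤ)
  have hΨ : Vq.ΨSq p = divPoly W p ^ 2 := by
    rw [ΨSq_ofNat, if_neg (Nat.not_even_iff_odd.mpr (hp.odd_of_ne_two hp2)), mul_one, divPoly_eq]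
  set g : Polynomial Qbar := C xR⁻¹ * Vq.Φ p - Vq.ΨSq p with hg
  have hp0 : ((p : ℤ) : Qbar) ≠ 0 := Int.cast_ne_zero.mpr (Int.natCast_ne_zero.mpr hp.ne_zero)
  have hlead : g.leadingCoeff = xR⁻¹ := by
    rw [hg, leadingCoeff_sub_of_degree_lt, leadingCoeff_mul, leadingCoeff_C, leadingCoeff_Φ,
      mul_one]
    rw [degree_mul, degree_C hε0, zero_add,
      degree_eq_natDegree (Vq.Φ_ne_zero _), natDegree_Φ]
    refine lt_of_le_of_lt degree_le_natDegree (Nat.cast_lt.mpr ?_)
    rw [Vq.natDegree_ΨSq hp0]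
    have : 0 < ((p : ℤ).natAbs) ^ 2 := by simp [hp.pos]
    omega
  have hk : ∃ k, A.valuation (g.coeff k) = 1 := by
    obtain ⟨k₀, hk₀⟩ := exists_coeff_unit W hA hp hp2 hss
    have := Galois.place_charP_residueField hA hp
    have hne : (W.preΨ' p ^ 2).map (Int.castRingHom (IsLocalRing.ResidueField A)) ≠ 0 := by
      rw [Polynomial.map_pow]
      refine pow_ne_zero 2 fun h => ?_
      have h' := congrArg (fun q => coeff q k₀) h
      simp only [coeff_map, eq_intCast, coeff_zero, CharP.intCast_eq_zero_iff _ p] at h'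
      rw [divPoly, coeff_map, eq_intCast] at hk₀
      exact (valuation_intCast_lt_one hA h').ne hk₀
    obtain ⟨k, hk⟩ := Polynomial.support_nonempty.mpr hne
    rw [mem_support_iff, coeff_map, eq_intCast, Ne, CharP.intCast_eq_zero_iff _ p] at hk
    refine ⟨k, ?_⟩
    rw [hg, coeff_sub, hΨ, divPoly, ← Polynomial.map_pow, coeff_map, eq_intCast, coeff_C_mul]
    have h1 : A.valuation (((W.preΨ' p ^ 2).coeff k : Qbar)) = 1 :=
      valuation_intCast_eq_one hA hp hk
    rw [A.valuation.map_sub_eq_of_lt_right, h1]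
    rw [h1, map_mul]
    refine lt_of_le_of_lt (mul_le_of_le_one_right' ?_) hεlt
    rw [hVq, curveQbar_eq_map, map_Φ, coeff_map]
    exact valuation_intCast_le_one A _
  obtain ⟨k, hk⟩ := hk
  obtain ⟨x, hx, hv⟩ := exists_root_one_lt A.valuation hk (by rw [hlead]; exact hεlt)
  have hxA : x ∉ A := fun h => not_lt.mpr ((A.valuation_le_one_iff x).mpr h) hv
  obtain ⟨y, hy⟩ := exists_point_over W hΔ x
  have hroot : xR⁻¹ * (Vq.Φ p).eval x = (Vq.ΨSq p).eval x := by
    have h := (mem_roots'.mp hx).2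
    rwa [IsRoot, hg, eval_sub, eval_mul, eval_C, sub_eq_zero] at h
  have hne : (Vq.ΨSq p).eval x ≠ 0 := by
    intro h0
    rw [h0, mul_eq_zero, or_iff_right hε0] at hroot
    obtain ⟨u, w, huw⟩ := hcop
    have h := congrArg (eval x) huw
    rw [eval_add, eval_mul, eval_mul, eval_one] at h
    rw [hroot] at h
    rw [show (WeierstrassCurve.toAffine Vq).ΨSq (p : ℤ) = Vq.ΨSq p from rfl, h0] at h
    simp at h
  set Q : PointQbar W := Affine.Point.some x y hy with hQ
  rcases hpQ : (p : ℤ) • Q with _ | ⟨x', y', h'⟩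
  · exact absurd ((ECTorsion.zsmul_some_eq_zero_iff_ΨSq hy (p : ℤ)).mp hpQ) hne
  have hx' : x' = xR := by
    have h := ECTorsion.X_zsmul_some hy (p : ℤ) hpQ
    have h2 : xR⁻¹ * x' = 1 := mul_right_cancel₀ hne (by rw [one_mul, mul_assoc]; exact (congrArg _ h).trans hroot)
    rwa [inv_mul_eq_one₀ (fun h => hR (show xR ∈ A by rw [h]; exact A.zero_mem)), eq_comm] at h2
  rw [natCast_zsmul] at hpQ
  subst hx'
  rcases Affine.Y_eq_of_X_eq h'.left hxy.left rfl with hy' | hy'
  · subst hy'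
    exact ⟨Q, hxA, hpQ⟩
  · refine ⟨-Q, ECLocal.InKernel.neg (ECLocal.integralAt_intModel W A) hxA, ?_⟩
    rw [neg_nsmul, hpQ, Affine.Point.neg_some]
    subst hy'
    simp only [Affine.negY_negY]

/-- Multiplicative reduction: a `p`-torsion point reducing to the node. -/
theorem exists_singular_prime_point (hΔ : W.Δ ≠ 0) (hA : A.LiesOverPrime p) (hp : p.Prime)
    (hp2 : p ≠ 2) (hd : (p : ℤ) ∣ W.Δ) (hc : ¬ (p : ℤ) ∣ W.c₄) :
    ∃ T : PointQbar W, p • T = 0 ∧ ¬ NonsingRed A T := by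
  obtain ⟨r, hrA, hr, he, he'⟩ := exists_root_node W hA hp hp2 hd hc
  obtain ⟨y, hy⟩ := exists_point_over W hΔ r
  refine ⟨Affine.Point.some r y hy, (natSmul_some_eq_zero_iff W hp hp2 hy).mpr hr, ?_⟩
  rintro (h | ⟨-, hyA, h⟩)
  · exact h hrA
  set V₀ := W.map (Int.castRingHom A) with hV₀
  have hV : curveQbar W = V₀.map A.subtype := by
    rw [curveQbar_eq_map, hV₀, WeierstrassCurve.map_map]
    congr 1
  have hVk : W.map (Int.castRingHom (IsLocalRing.ResidueField A)) =
      V₀.map (IsLocalRing.residue A) := by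
    rw [hV₀, WeierstrassCurve.map_map]
    congr 1
  set Vk := W.map (Int.castRingHom (IsLocalRing.ResidueField A))
  set x₀ := IsLocalRing.residue A ⟨r, hrA⟩
  set y₀ := IsLocalRing.residue A ⟨y, hyA⟩
  have heq : Vk.toAffine.Equation x₀ y₀ := by
    have h0 : V₀.toAffine.Equation ⟨r, hrA⟩ ⟨y, hyA⟩ := by
      refine (Affine.map_equation (f := A.subtype) V₀ Subtype.val_injective _ _).mp ?_
      change (V₀.map A.subtype).toAffine.Equation r y
      rw [← hV]
      exact hy.left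
    rw [hVk]
    exact Affine.Equation.map (IsLocalRing.residue A) h0
  rw [eval_Ψ₂Sq, WeierstrassCurve.b₂, WeierstrassCurve.b₄, WeierstrassCurve.b₆] at he
  rw [eval_derivative_Ψ₂Sq, WeierstrassCurve.b₂, WeierstrassCurve.b₄] at he'
  rw [Affine.equation_iff] at heq
  have hY : (2 * y₀ + Vk.a₁ * x₀ + Vk.a₃) ^ 2 = 0 := by linear_combination he + 4 * heq
  rw [pow_eq_zero_iff two_ne_zero] at hY
  have hX : Vk.a₁ * y₀ - (3 * x₀ ^ 2 + 2 * Vk.a₂ * x₀ + Vk.a₄) = 0 := by
    refine mul_left_cancel₀ (mul_ne_zero (two_ne_zero_residueField hA hp hp2)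
      (two_ne_zero_residueField hA hp hp2)) ?_
    linear_combination -he' + 2 * Vk.a₁ * hY
  have hpX : ∀ a : A, A.valuation (a : Qbar) = 1 → IsLocalRing.residue A a ≠ 0 := fun a ha h => by
    rw [IsLocalRing.residue_eq_zero_iff, A.valuation_lt_one_iff, ha] at h
    exact lt_irrefl _ h
  change A.valuation ((curveQbar W).toAffine.polynomialX.evalEval r y) = 1 ∨
    A.valuation ((curveQbar W).toAffine.polynomialY.evalEval r y) = 1 at h
  rw [hV, Affine.evalEval_polynomialX, Affine.evalEval_polynomialY] at h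
  rcases h with h | h
  · refine hpX (V₀.a₁ * ⟨y, hyA⟩ - (3 * ⟨r, hrA⟩ ^ 2 + 2 * V₀.a₂ * ⟨r, hrA⟩ + V₀.a₄)) ?_ ?_
    · convert h using 2
      push_cast
      rfl
    · rw [← hX, hVk]
      simp only [x₀, y₀, map_sub, map_add, map_mul, map_pow, map_ofNat]
      rfl
  · refine hpX (2 * ⟨y, hyA⟩ + V₀.a₁ * ⟨r, hrA⟩ + V₀.a₃) ?_ ?_
    · convert h using 2
      push_cast
      rfl
    · rw [← hY, hVk]
      simp only [x₀, y₀, map_add, map_mul, map_ofNat]
      rfl

end Fermat.Agent.ECFormal
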