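import Fermat.Agent.ECFormal.KerPoints

/-!
# The kernel of reduction on `E[p ^ n]`

* points of every order `p ^ n` in the kernel;
* ordinary case: the kernel on `E[p ^ n]` is cyclic and has a complement;
* multiplicative case: it is ordinary, and torsion of `p`-power order on the identity component
  lies in the kernel.
-/

set_option autoImplicit false

noncomputable section

namespace Fermat.Agent.ECFormal

open WeierstrassCurve
open Fermat.Agent.Galois (Qbar GalQ)
open Fermat.Agent.ECLocal (InKernel NonsingRed)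
open scoped WeierstrassCurve.Affine

variable (W : WeierstrassCurve ℤ) {p : ℕ} {A : ValuationSubring Qbar}

theorem addOrderOf_tors {n : ℕ} (P : Tors W n) :
    addOrderOf (P : PointQbar W) = addOrderOf P :=
  addOrderOf_injective (Submodule.toAddSubgroup (Submodule.torsionBy ℤ (PointQbar W) (n : ℤ))).subtype
    Subtype.val_injective P

theorem mem_tors_iff {n : ℕ} (P : PointQbar W) :
    P ∈ Submodule.torsionBy ℤ ((W.map (Int.castRingHom ℚ))⁄Qbar).Point n ↔ n • P = 0 := by
  rw [Submodule.mem_torsionBy_iff, natCast_zsmul]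

theorem nsmul_tors_eq_zero {n : ℕ} (P : Tors W n) : n • (P : PointQbar W) = 0 :=
  (mem_tors_iff W P.1).mp P.2

theorem natCard_tors (hΔ : W.Δ ≠ 0) {n : ℕ} (hn : n ≠ 0) : Nat.card (Tors W n) = n ^ 2 :=
  ECTorsion.natCard_torsionBy_qbar_of_int W hΔ hn

theorem finite_tors (hΔ : W.Δ ≠ 0) {n : ℕ} (hn : n ≠ 0) : Finite (Tors W n) :=
  Nat.finite_of_card_ne_zero (natCard_tors W hΔ hn ▸ pow_ne_zero 2 hn)

/-- The kernel of reduction contains points of every order `p ^ n`. -/
theorem exists_kernel_point (hΔ : W.Δ ≠ 0) (hA : A.LiesOverPrime p) (hp : p.Prime)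
    (hp2 : p ≠ 2) (hss : SemistableAt W p) (n : ℕ) :
    ∃ P : PointQbar W, InKernel A P ∧ addOrderOf P = p ^ n := by
  have := Fact.mk hp
  rcases n with _ | n
  · exact ⟨0, trivial, by simp⟩
  induction n with
  | zero =>
    obtain ⟨P, hP, h0, hpP⟩ := exists_kernel_prime_point W hΔ hA hp hp2 hss
    exact ⟨P, hP, by rw [zero_add, pow_one]; exact addOrderOf_eq_prime hpP h0⟩
  | succ n ih =>
    obtain ⟨P, hP, hord⟩ := ih
    obtain ⟨Q, hQ, hQP⟩ := exists_kernel_div W hΔ hA hp hp2 hss hP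
    refine ⟨Q, hQ, addOrderOf_eq_prime_pow ?_ ?_⟩
    · rw [pow_succ, mul_nsmul', hQP]
      intro h
      have h' := addOrderOf_dvd_of_nsmul_eq_zero h
      rw [hord, Nat.pow_dvd_pow_iff_le_right hp.one_lt] at h'
      omega
    · rw [pow_succ, mul_nsmul', hQP, ← hord, addOrderOf_nsmul_eq_zero]

theorem exists_inKernel_tors (hΔ : W.Δ ≠ 0) (hA : A.LiesOverPrime p) (hp : p.Prime)
    (hp2 : p ≠ 2) (hss : SemistableAt W p) (n : ℕ) :
    ∃ P : Tors W (p ^ n), InKernel A (P : PointQbar W) ∧ addOrderOf P = p ^ n := by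
  obtain ⟨P, hP, hord⟩ := exists_kernel_point W hΔ hA hp hp2 hss n
  exact ⟨⟨P, (mem_tors_iff W P).mpr (hord ▸ addOrderOf_nsmul_eq_zero P)⟩, hP,
    (addOrderOf_tors W _).symm.trans hord⟩

/-- The kernel of reduction inside `E[n]`. -/
def kerTors (n : ℕ) (A : ValuationSubring Qbar) : AddSubgroup (Tors W n) :=
  (kerRed W A).comap (Submodule.subtype _).toAddMonoidHom

theorem mem_kerTors {n : ℕ} {P : Tors W n} :
    P ∈ kerTors W n A ↔ InKernel A (P : PointQbar W) := Iff.rfl

/-- Ordinary case: the kernel on `E[p]` is the line of any nonzero kernel point. -/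
theorem mem_zmultiples_of_kernel_prime (hΔ : W.Δ ≠ 0) (hp : p.Prime)
    (hord : OrdinaryAtPlace W p A) {P Q : PointQbar W} (hP : InKernel A P)
    (hP0 : addOrderOf P = p) (hQ : InKernel A Q) (hpQ : p • Q = 0) :
    Q ∈ AddSubgroup.zmultiples P := by
  have := finite_tors W hΔ hp.ne_zero
  let P' : Tors W p := ⟨P, (mem_tors_iff W P).mpr (hP0 ▸ addOrderOf_nsmul_eq_zero P)⟩
  let Q' : Tors W p := ⟨Q, (mem_tors_iff W Q).mpr hpQ⟩
  have hle : AddSubgroup.zmultiples P' ≤ kerTors W p A :=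
    AddSubgroup.zmultiples_le_of_mem hP
  have hne : kerTors W p A ≠ ⊤ := fun h => by
    obtain ⟨x, hx⟩ := hord
    exact hx ((mem_kerTors W).mp (h ▸ AddSubgroup.mem_top x))
  have hdvd := AddSubgroup.card_addSubgroup_dvd_card (kerTors W p A)
  rw [natCard_tors W hΔ hp.ne_zero] at hdvd
  obtain ⟨i, hi, hcard⟩ := (Nat.dvd_prime_pow hp).mp hdvd
  have hi1 : i ≤ 1 := by
    by_contra hcon
    refine hne (AddSubgroup.eq_top_of_card_eq _ ?_)
    rw [hcard, natCard_tors W hΔ hp.ne_zero, show i = 2 by omega]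
  have heq := AddSubgroup.eq_of_le_of_card_ge hle (by
    rw [Nat.card_zmultiples, ← addOrderOf_tors W P', hP0, hcard]
    exact (Nat.pow_le_pow_right hp.pos hi1).trans (pow_one p).le)
  have hQ' : Q' ∈ AddSubgroup.zmultiples P' := heq ▸ (show Q' ∈ kerTors W p A from hQ)
  obtain ⟨a, ha⟩ := AddSubgroup.mem_zmultiples_iff.mp hQ'
  exact AddSubgroup.mem_zmultiples_iff.mpr ⟨a, congrArg Subtype.val ha⟩

/-- Ordinary case: kernel points killed by `p ^ n` are multiples of one of order `p ^ n`. -/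
theorem mem_zmultiples_of_kernel (hΔ : W.Δ ≠ 0) (hp : p.Prime)
    (hord : OrdinaryAtPlace W p A) {n : ℕ} {P Q : PointQbar W} (hP : InKernel A P)
    (hPn : addOrderOf P = p ^ n) (hQ : InKernel A Q) (hQn : (p ^ n) • Q = 0) :
    Q ∈ AddSubgroup.zmultiples P := by
  suffices h : ∀ k, k ≤ n → ∀ Q : PointQbar W, InKernel A Q → (p ^ k) • Q = 0 →
      Q ∈ AddSubgroup.zmultiples P from h n le_rfl Q hQ hQn
  intro k
  induction k with
  | zero =>
    intro _ Q _ h
    rw [pow_zero, one_nsmul] at h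
    exact h ▸ zero_mem _
  | succ k ih =>
    intro hk Q hQ hQk
    obtain ⟨a, ha⟩ := AddSubgroup.mem_zmultiples_iff.mp (ih (by omega) (p • Q)
      ((kerRed W A).nsmul_mem hQ p) (by rw [← mul_nsmul', ← pow_succ, hQk]))
    have hdvd : (p : ℤ) ∣ a := by
      have h1 : ((p ^ k : ℕ) : ℤ) • a • P = 0 := by
        rw [ha, natCast_zsmul, ← mul_nsmul', ← pow_succ, hQk]
      rw [← mul_zsmul, ← addOrderOf_dvd_iff_zsmul_eq_zero, hPn] at h1
      have h2 : ((p ^ k : ℕ) : ℤ) * p ∣ ((p ^ k : ℕ) : ℤ) * a :=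
        (by push_cast; rw [← pow_succ]; exact pow_dvd_pow _ hk :
          ((p ^ k : ℕ) : ℤ) * p ∣ ((p ^ n : ℕ) : ℤ)).trans h1
      exact (mul_dvd_mul_iff_left (Int.natCast_ne_zero.mpr (pow_ne_zero k hp.ne_zero))).mp h2
    obtain ⟨a', rfl⟩ := hdvd
    rw [mul_zsmul, natCast_zsmul] at ha
    have hP₁ : addOrderOf (p ^ (n - 1) • P) = p := by
      rw [addOrderOf_nsmul' P (pow_ne_zero _ hp.ne_zero), hPn,
        Nat.gcd_eq_right (pow_dvd_pow p (Nat.sub_le n 1)), Nat.pow_div (Nat.sub_le n 1) hp.pos]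
      rw [show n - (n - 1) = 1 by omega, pow_one]
    have hrest := mem_zmultiples_of_kernel_prime W hΔ hp hord ((kerRed W A).nsmul_mem hP _) hP₁
      ((kerRed W A).sub_mem hQ ((kerRed W A).zsmul_mem hP a'))
      (by rw [nsmul_sub, ha, sub_self])
    have hmem : Q - a' • P ∈ AddSubgroup.zmultiples P :=
      AddSubgroup.zmultiples_le_of_mem
        ((AddSubgroup.zmultiples P).nsmul_mem (AddSubgroup.mem_zmultiples P) _) hrest
    simpa using add_mem hmem (zsmul_mem (AddSubgroup.mem_zmultiples P) a')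

theorem inKernel_iff_mem_zmultiples_tors (hΔ : W.Δ ≠ 0) (hp : p.Prime)
    (hord : OrdinaryAtPlace W p A) {n : ℕ} {P : Tors W (p ^ n)}
    (hP : InKernel A (P : PointQbar W)) (hPn : addOrderOf P = p ^ n) (Q : Tors W (p ^ n)) :
    InKernel A (Q : PointQbar W) ↔ Q ∈ AddSubgroup.zmultiples P := by
  refine ⟨fun hQ => ?_, fun h => ?_⟩
  · obtain ⟨a, ha⟩ := AddSubgroup.mem_zmultiples_iff.mp (mem_zmultiples_of_kernel W hΔ hp hord hP
      ((addOrderOf_tors W P).trans hPn) hQ (nsmul_tors_eq_zero W Q))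
    exact AddSubgroup.mem_zmultiples_iff.mpr ⟨a, Subtype.ext ha⟩
  · exact AddSubgroup.zmultiples_le_of_mem (show P ∈ kerTors W (p ^ n) A from hP) h

/-- Ordinary case: a kernel point of full order is part of a basis. -/
theorem exists_complement_tors (hΔ : W.Δ ≠ 0) (hp : p.Prime)
    (hord : OrdinaryAtPlace W p A) {n : ℕ} {P : Tors W (p ^ n)}
    (hP : InKernel A (P : PointQbar W)) (hPn : addOrderOf P = p ^ n) :
    ∃ Q : Tors W (p ^ n), addOrderOf Q = p ^ n ∧
      (∀ a b : ℤ, a • P + b • Q = 0 → ((p ^ n : ℕ) : ℤ) ∣ a ∧ ((p ^ n : ℕ) : ℤ) ∣ b) ∧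
      ∀ R : Tors W (p ^ n), ∃ a b : ℤ, R = a • P + b • Q := by
  classical
  have := Fact.mk hp
  have hn0 : p ^ n ≠ 0 := pow_ne_zero n hp.ne_zero
  have := finite_tors W hΔ hn0
  rcases Nat.eq_zero_or_pos n with rfl | hn
  · have hsub : Subsingleton (Tors W (p ^ 0)) :=
      (Nat.card_eq_one_iff_unique.mp (by rw [natCard_tors W hΔ hn0]; simp)).1
    refine ⟨P, hPn, fun a b _ => ?_, fun R => ⟨0, 0, Subsingleton.elim _ _⟩⟩
    simp
  obtain ⟨S, hS⟩ := hord
  have hnec : (((p : ℕ) : Qbar)) ≠ 0 := Nat.cast_ne_zero.mpr hp.ne_zero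
  -- lift `S` to `E[p ^ n]`
  obtain ⟨Q, hQS⟩ : ∃ Q : Tors W (p ^ n), (p ^ (n - 1)) • (Q : PointQbar W) = S.1 := by
    let f : Tors W (p ^ n) →+ Tors W p :=
      { toFun := fun Q => ⟨(p ^ (n - 1)) • (Q : PointQbar W), (mem_tors_iff W _).mpr (by
          rw [← mul_nsmul', ← pow_succ', Nat.sub_add_cancel hn, nsmul_tors_eq_zero])⟩
        map_zero' := Subtype.ext (nsmul_zero _)
        map_add' := fun a b => Subtype.ext (nsmul_add _ _ _) }
    have := finite_tors W hΔ hp.ne_zero
    have hker : Nat.card f.ker ≤ (p ^ (n - 1)) ^ 2 := by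
      have := finite_tors W hΔ (pow_ne_zero (n - 1) hp.ne_zero)
      rw [← natCard_tors W hΔ (pow_ne_zero (n - 1) hp.ne_zero)]
      refine Nat.card_le_card_of_injective
        (fun Q : f.ker => (⟨(Q.1 : PointQbar W), (mem_tors_iff W _).mpr
          (congrArg Subtype.val Q.2)⟩ : Tors W (p ^ (n - 1)))) ?_
      intro a b h
      exact Subtype.ext (Subtype.ext (congrArg (fun z : Tors W (p ^ (n - 1)) => (z : PointQbar W)) h))
    have htot : Nat.card f.range * Nat.card f.ker = (p ^ n) ^ 2 := by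
      rw [← natCard_tors W hΔ hn0, AddSubgroup.card_eq_card_quotient_mul_card_addSubgroup f.ker,
        Nat.card_congr (QuotientAddGroup.quotientKerEquivRange f).toEquiv]
    have hsurj : f.range = ⊤ := by
      refine AddSubgroup.eq_top_of_card_eq _ (le_antisymm (Nat.card_le_card_of_injective _ Subtype.val_injective) ?_)
      rw [natCard_tors W hΔ hp.ne_zero]
      refine Nat.le_of_mul_le_mul_right ?_ (Nat.pos_of_ne_zero (pow_ne_zero 2
        (pow_ne_zero (n - 1) hp.ne_zero)))
      rw [← mul_pow, ← pow_succ', Nat.sub_add_cancel hn, ← htot]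
      exact Nat.mul_le_mul_left _ hker
    obtain ⟨Q, hQ⟩ := (hsurj ▸ AddSubgroup.mem_top S : S ∈ f.range)
    exact ⟨Q, congrArg Subtype.val hQ⟩
  have hind : ∀ a b : ℤ, a • P + b • Q = 0 →
      ((p ^ n : ℕ) : ℤ) ∣ a ∧ ((p ^ n : ℕ) : ℤ) ∣ b := by
    intro a b hab
    have hb : ∀ k, k ≤ n → ((p ^ k : ℕ) : ℤ) ∣ b := by
      intro k
      induction k with
      | zero => intro _; simp
      | succ k ih =>
        intro hk
        obtain ⟨c, rfl⟩ := ih (by omega)
        by_contra hcon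
        have hc : ¬ (p : ℤ) ∣ c := fun ⟨d, hd⟩ => hcon ⟨d, by rw [hd]; push_cast; ring⟩
        have hmem : InKernel A ((((p ^ k : ℕ) : ℤ) * c) • (Q : PointQbar W)) := by
          have h := congrArg (fun z : Tors W (p ^ n) => (z : PointQbar W)) hab
          simp only [Submodule.coe_add, Submodule.coe_smul_of_tower, ZeroMemClass.coe_zero] at h
          rw [← eq_neg_iff_add_eq_zero] at h
          have h' : InKernel A (-((((p ^ k : ℕ) : ℤ) * c) • (Q : PointQbar W))) :=
            h ▸ (kerRed W A).zsmul_mem hP a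
          simpa [mem_kerRed] using (kerRed W A).neg_mem h'
        have hmem2 : InKernel A (c • (S : PointQbar W)) := by
          have h := (kerRed W A).nsmul_mem hmem (p ^ (n - 1 - k))
          rw [← natCast_zsmul, ← mul_zsmul, ← mul_assoc, ← Nat.cast_mul, ← pow_add,
            Nat.sub_add_cancel (by omega : k ≤ n - 1), mul_comm, mul_zsmul, natCast_zsmul,
            hQS] at h
          exact h
        obtain ⟨u, v, huv⟩ := (Prime.coprime_iff_not_dvd (Nat.prime_iff_prime_int.mp hp)).mpr hc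
        apply hS
        have : (S : PointQbar W) = v • c • (S : PointQbar W) := by
          conv_lhs => rw [← one_zsmul (S : PointQbar W), ← huv, add_zsmul, mul_zsmul, natCast_zsmul,
            nsmul_tors_eq_zero, zsmul_zero, zero_add, mul_zsmul]
        rw [this]
        exact (kerRed W A).zsmul_mem hmem2 v
    obtain ⟨c, rfl⟩ := hb n le_rfl
    refine ⟨?_, dvd_mul_right _ _⟩
    rw [mul_comm, mul_zsmul, natCast_zsmul] at hab
    rw [show (p ^ n) • Q = 0 from Subtype.ext (nsmul_tors_eq_zero W Q), zsmul_zero, add_zero] at hab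
    rw [← hPn]
    exact addOrderOf_dvd_iff_zsmul_eq_zero.mpr hab
  refine ⟨Q, ?_, hind, fun R => ?_⟩
  · refine Nat.dvd_antisymm (addOrderOf_dvd_of_nsmul_eq_zero
      (Subtype.ext (nsmul_tors_eq_zero W Q))) (Int.natCast_dvd_natCast.mp
      (hind 0 (addOrderOf Q) ?_).2)
    rw [zero_zsmul, zero_add, natCast_zsmul, addOrderOf_nsmul_eq_zero]
  · let g : Fin (p ^ n) × Fin (p ^ n) → Tors W (p ^ n) := fun ab =>
      (ab.1 : ℤ) • P + (ab.2 : ℤ) • Q
    have hg : Function.Injective g := by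
      intro x y h
      have h0 : ((x.1 : ℤ) - y.1) • P + ((x.2 : ℤ) - y.2) • Q = 0 := by
        rw [sub_zsmul, sub_zsmul]
        simp only [g] at h
        rw [← sub_eq_zero] at h
        rw [← h]; abel
      obtain ⟨h1, h2⟩ := hind _ _ h0
      have e : ∀ u v : Fin (p ^ n), ((p ^ n : ℕ) : ℤ) ∣ (u : ℤ) - v → u = v := fun u v h => by
        have := u.2; have := v.2
        have h3 := Int.eq_zero_of_abs_lt_dvd h (by rw [abs_lt]; omega)
        exact Fin.ext (by omega)
      exact Prod.ext (e _ _ h1) (e _ _ h2)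
    have hbij := (Nat.bijective_iff_injective_and_card g).mpr ⟨hg, by
      rw [Nat.card_prod, Nat.card_fin, natCard_tors W hΔ hn0, sq]⟩
    obtain ⟨ab, hab⟩ := hbij.2 R
    exact ⟨_, _, hab.symm⟩

/-- Multiplicative reduction is ordinary. -/
theorem ordinary_of_mult (hΔ : W.Δ ≠ 0) (hA : A.LiesOverPrime p) (hp : p.Prime) (hp2 : p ≠ 2)
    (hd : (p : ℤ) ∣ W.Δ) (hc : ¬ (p : ℤ) ∣ W.c₄) : OrdinaryAtPlace W p A := by
  obtain ⟨T, hT, hns⟩ := exists_singular_prime_point W hΔ hA hp hp2 hd hc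
  exact ⟨⟨T, (mem_tors_iff W T).mpr hT⟩, fun h => hns h.nonsingRed⟩

/-- Multiplicative reduction: `p`-power torsion of `E₀` lies in `E₁`. -/
theorem inKernel_of_nonsingRed (hΔ : W.Δ ≠ 0) (hA : A.LiesOverPrime p) (hp : p.Prime)
    (hp2 : p ≠ 2) (hd : (p : ℤ) ∣ W.Δ) (hc : ¬ (p : ℤ) ∣ W.c₄) :
    ∀ (n : ℕ) (P : PointQbar W), (p ^ n) • P = 0 → NonsingRed A P → InKernel A P := by
  have := Fact.mk hp
  have hss : SemistableAt W p := fun _ => hc
  have hint := ECLocal.integralAt_intModel W A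
  let E₀ : AddSubgroup (PointQbar W) :=
    { carrier := {P | NonsingRed A P}
      add_mem' := fun ha hb => ECLocal.NonsingRed.add hint ha hb
      zero_mem' := trivial
      neg_mem' := fun ha => ECLocal.NonsingRed.neg hint ha }
  have hbase : ∀ P : PointQbar W, p • P = 0 → NonsingRed A P → InKernel A P := by
    intro P hP hns
    by_contra hker
    obtain ⟨T, hT, hTns⟩ := exists_singular_prime_point W hΔ hA hp hp2 hd hc
    obtain ⟨K, hK, hKord⟩ := exists_inKernel_tors W hΔ hA hp hp2 hss 1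
    -- `K` and `P` span `E[p]`, inside `E₀`
    have hord : OrdinaryAtPlace W p A := ⟨⟨P, (mem_tors_iff W P).mpr hP⟩, hker⟩
    have := finite_tors W hΔ hp.ne_zero
    let K' : Tors W p := ⟨K.1, (mem_tors_iff W _).mpr (by simpa using nsmul_tors_eq_zero W K)⟩
    let H : AddSubgroup (Tors W p) := E₀.comap (Submodule.subtype _).toAddMonoidHom
    have hK'ord : addOrderOf K' = p := by
      rw [← addOrderOf_tors W K', show (K' : PointQbar W) = K.1 from rfl, addOrderOf_tors W K,
        hKord, pow_one]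
    have hlt : AddSubgroup.zmultiples K' < H := by
      refine lt_of_le_of_ne (AddSubgroup.zmultiples_le_of_mem (show NonsingRed A K.1 from
        hK.nonsingRed)) fun h => ?_
      have hmem : (⟨P, (mem_tors_iff W P).mpr hP⟩ : Tors W p) ∈ AddSubgroup.zmultiples K' :=
        h ▸ (show (⟨P, (mem_tors_iff W P).mpr hP⟩ : Tors W p) ∈ H from hns)
      exact hker (AddSubgroup.zmultiples_le_of_mem (show K' ∈ kerTors W p A from hK) hmem)
    have hH : H = ⊤ := by
      have hdvd := AddSubgroup.card_addSubgroup_dvd_card H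
      rw [natCard_tors W hΔ hp.ne_zero] at hdvd
      obtain ⟨i, hi, hcard⟩ := (Nat.dvd_prime_pow hp).mp hdvd
      refine AddSubgroup.eq_top_of_card_eq _ ?_
      have hgt : p < Nat.card H := by
        have hle := AddSubgroup.card_le_of_le hlt.le
        rw [Nat.card_zmultiples, hK'ord] at hle
        refine lt_of_le_of_ne hle fun h => hlt.ne (AddSubgroup.eq_of_le_of_card_ge hlt.le ?_)
        rw [Nat.card_zmultiples, hK'ord]; exact h.ge
      have : i = 2 := by
        rcases Nat.lt_or_ge i 2 with h | h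
        · rw [hcard] at hgt
          have := Nat.pow_le_pow_right hp.pos (Nat.le_of_lt_succ h)
          rw [pow_one] at this
          omega
        · omega
      rw [hcard, natCard_tors W hΔ hp.ne_zero, this]
    exact hTns (show (⟨T, (mem_tors_iff W T).mpr hT⟩ : Tors W p) ∈ H from hH ▸ AddSubgroup.mem_top _)
  intro n
  induction n with
  | zero =>
    intro P h _
    rw [pow_zero, one_nsmul] at h
    exact h ▸ trivial
  | succ n ih =>
    intro P hP hns
    have hpP : InKernel A (p • P) :=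
      ih (p • P) (by rw [← mul_nsmul', ← pow_succ, hP]) (E₀.nsmul_mem hns p)
    obtain ⟨Q, hQ, hQP⟩ := exists_kernel_div W hΔ hA hp hp2 hss hpP
    have h := hbase (P - Q) (by rw [nsmul_sub, hQP, sub_self])
      (E₀.sub_mem hns hQ.nonsingRed)
    simpa [mem_kerRed] using (kerRed W A).add_mem h hQ

end Fermat.Agent.ECFormal
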