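import Fermat.Agent.ECFormal.PlaceVal
import Fermat.Agent.Galois.Decomposition
import Fermat.Agent.FFG.RatLocal

/-!
# A finite normal level seen from one place

For a finite normal `L ⊆ ℚ̄` and a place `A` over `p`: the local group, the local inertia, and
approximation of idempotents by elements fixed by the decomposition group.
-/

set_option autoImplicit false

noncomputable section

namespace Fermat.Agent.ECFormal

open Fermat.Agent.Galois (Qbar GalQ)
open scoped Pointwise

variable {A : ValuationSubring Qbar} {p : ℕ}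

theorem valuation_apply_of_mem_decomposition {σ : GalQ} (hσ : σ ∈ A.decompositionSubgroup ℚ)
    (hA : A.LiesOverPrime p) (hp : p.Prime) (x : Qbar) :
    A.valuation (σ x) = A.valuation x := by
  rcases eq_or_ne x 0 with rfl | hx
  · simp
  obtain ⟨k, hk, m, hm⟩ := exists_pow_valuation_eq hA hp hx
  have h1 : ∀ y : Qbar, A.valuation y = 1 → A.valuation (σ y) = 1 := by
    intro y hy
    refine le_antisymm ?_ ?_
    · exact (A.valuation_le_one_iff _).mpr
        (Galois.decomposition_apply_mem hσ ((A.valuation_le_one_iff _).mp hy.le))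
    · refine not_lt.mp fun h => ?_
      have h' := (Galois.decomposition_apply_mem_nonunits_iff hσ).mp (A.mem_nonunits_iff.mpr h)
      exact absurd hy (A.mem_nonunits_iff.mp h').ne
  have h0 := valuation_natPrime_ne_zero hp A
  have hy : A.valuation (x ^ k / (p : Qbar) ^ m) = 1 := by
    rw [map_div₀, map_pow, map_zpow₀, hm, div_self (zpow_ne_zero _ h0)]
  have h2 := h1 _ hy
  rw [map_div₀, map_pow, map_zpow₀, map_natCast, map_div₀, map_pow, map_zpow₀,
    div_eq_one_iff_eq (zpow_ne_zero _ h0), ← hm] at h2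
  exact (pow_left_inj₀ zero_le zero_le hk.ne').mp h2

variable (L : IntermediateField ℚ Qbar)

/-- The decomposition group at `A` saturated by the automorphisms fixing `L`. -/
def localGroup (A : ValuationSubring Qbar) : Subgroup GalQ :=
  A.decompositionSubgroup ℚ ⊔ L.fixingSubgroup

/-- The inertia group at `A` saturated by the automorphisms fixing `L`. -/
def localInertia (A : ValuationSubring Qbar) : Subgroup GalQ :=
  A.inertiaSubgroupIn ℚ ⊔ L.fixingSubgroup

theorem decomposition_le_localGroup (A : ValuationSubring Qbar) :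
    A.decompositionSubgroup ℚ ≤ localGroup L A := le_sup_left

theorem inertia_le_localInertia (A : ValuationSubring Qbar) :
    A.inertiaSubgroupIn ℚ ≤ localInertia L A := le_sup_left

theorem fixing_le_localGroup (A : ValuationSubring Qbar) :
    L.fixingSubgroup ≤ localGroup L A := le_sup_right

theorem fixing_le_localInertia (A : ValuationSubring Qbar) :
    L.fixingSubgroup ≤ localInertia L A := le_sup_right

theorem localInertia_le_localGroup (A : ValuationSubring Qbar) :
    localInertia L A ≤ localGroup L A :=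
  sup_le_sup_right (Galois.inertia_le_decomposition A) _

variable {L}

theorem apply_eq_self_of_fixing {σ : GalQ} (hσ : σ ∈ L.fixingSubgroup) {x : Qbar} (hx : x ∈ L) :
    σ x = x := (IntermediateField.mem_fixingSubgroup_iff L σ).mp hσ x hx

variable [Normal ℚ L]

theorem apply_mem_level (σ : GalQ) {x : Qbar} (hx : x ∈ L) : σ x ∈ L := by
  have h := AlgEquiv.restrictNormal_commutes σ L ⟨x, hx⟩
  rw [show σ x = σ (algebraMap L Qbar ⟨x, hx⟩) from rfl, ← h]
  exact SetLike.coe_mem _

theorem fixingSubgroup_normal : L.fixingSubgroup.Normal := by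
  refine ⟨fun n hn g => (IntermediateField.mem_fixingSubgroup_iff _ _).mpr fun x hx => ?_⟩
  rw [AlgEquiv.mul_apply, AlgEquiv.mul_apply,
    apply_eq_self_of_fixing hn (apply_mem_level g⁻¹ hx), ← AlgEquiv.mul_apply, mul_inv_cancel,
    AlgEquiv.one_apply]

theorem mem_localGroup_iff {σ : GalQ} :
    σ ∈ localGroup L A ↔ ∃ d ∈ A.decompositionSubgroup ℚ, ∀ x ∈ L, σ x = d x := by
  have := fixingSubgroup_normal (L := L)
  rw [localGroup, Subgroup.mem_sup_of_normal_right]
  constructor
  · rintro ⟨d, hd, u, hu, rfl⟩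
    exact ⟨d, hd, fun x hx => by rw [AlgEquiv.mul_apply, apply_eq_self_of_fixing hu hx]⟩
  · rintro ⟨d, hd, h⟩
    refine ⟨d, hd, d⁻¹ * σ, (IntermediateField.mem_fixingSubgroup_iff _ _).mpr fun x hx => ?_,
      mul_inv_cancel_left d σ⟩
    rw [AlgEquiv.mul_apply, h x hx, ← AlgEquiv.mul_apply, inv_mul_cancel, AlgEquiv.one_apply]

theorem mem_localInertia_iff {σ : GalQ} :
    σ ∈ localInertia L A ↔ ∃ d ∈ A.inertiaSubgroupIn ℚ, ∀ x ∈ L, σ x = d x := by
  have := fixingSubgroup_normal (L := L)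
  rw [localInertia, Subgroup.mem_sup_of_normal_right]
  constructor
  · rintro ⟨d, hd, u, hu, rfl⟩
    exact ⟨d, hd, fun x hx => by rw [AlgEquiv.mul_apply, apply_eq_self_of_fixing hu hx]⟩
  · rintro ⟨d, hd, h⟩
    refine ⟨d, hd, d⁻¹ * σ, (IntermediateField.mem_fixingSubgroup_iff _ _).mpr fun x hx => ?_,
      mul_inv_cancel_left d σ⟩
    rw [AlgEquiv.mul_apply, h x hx, ← AlgEquiv.mul_apply, inv_mul_cancel, AlgEquiv.one_apply]

theorem valuation_apply_of_mem_localGroup {σ : GalQ} (hσ : σ ∈ localGroup L A)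
    (hA : A.LiesOverPrime p) (hp : p.Prime) {x : Qbar} (hx : x ∈ L) :
    A.valuation (σ x) = A.valuation x := by
  obtain ⟨d, hd, h⟩ := mem_localGroup_iff.mp hσ
  rw [h x hx, valuation_apply_of_mem_decomposition hd hA hp]

theorem valuation_sub_lt_one_of_mem_localInertia {σ : GalQ} (hσ : σ ∈ localInertia L A)
    {x : Qbar} (hx : x ∈ L) (hv : A.valuation x ≤ 1) : A.valuation (σ x - x) < 1 := by
  obtain ⟨d, hd, h⟩ := mem_localInertia_iff.mp hσ
  rw [h x hx]
  exact A.mem_nonunits_iff.mp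
    (Galois.inertia_sub_mem_nonunits hd ((A.valuation_le_one_iff x).mp hv))

theorem apply_eq_self_of_mem_localInertia {σ : GalQ} (hσ : σ ∈ localInertia L A)
    {x : Qbar} (hx : x ∈ L) (hfix : ∀ τ ∈ A.inertiaSubgroupIn ℚ, τ x = x) : σ x = x := by
  obtain ⟨d, hd, h⟩ := mem_localInertia_iff.mp hσ
  rw [h x hx, hfix d hd]

/-- The representative of the class of `σ` acts as `σ` on `L`. -/
theorem out_apply (σ : GalQ) {x : Qbar} (hx : x ∈ L) :
    (QuotientGroup.mk σ : GalQ ⧸ L.fixingSubgroup).out x = σ x := by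
  obtain ⟨u, hu⟩ := QuotientGroup.mk_out_eq_mul L.fixingSubgroup σ
  rw [hu, AlgEquiv.mul_apply, apply_eq_self_of_fixing u.2 hx]

omit [Normal ℚ L] in
theorem out_mem_iff {H : Subgroup GalQ} (hH : L.fixingSubgroup ≤ H) (σ : GalQ) :
    (QuotientGroup.mk σ : GalQ ⧸ L.fixingSubgroup).out ∈ H ↔ σ ∈ H := by
  obtain ⟨u, hu⟩ := QuotientGroup.mk_out_eq_mul L.fixingSubgroup σ
  rw [hu]
  exact Subgroup.mul_mem_cancel_right _ (hH u.2)

/-- Reindexing a product over the classes inside a subgroup `H` by left translation. -/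
theorem prod_out_translate {β : Type*} [CommMonoid β] [Fintype (GalQ ⧸ L.fixingSubgroup)]
    {H : Subgroup GalQ} [DecidablePred fun c : GalQ ⧸ L.fixingSubgroup => c.out ∈ H]
    (hH : L.fixingSubgroup ≤ H) {σ : GalQ} (hσ : σ ∈ H) {x : Qbar} (hx : x ∈ L) (f : Qbar → β) :
    ∏ c ∈ Finset.univ.filter (fun c : GalQ ⧸ L.fixingSubgroup => c.out ∈ H), f (σ (c.out x)) =
      ∏ c ∈ Finset.univ.filter (fun c : GalQ ⧸ L.fixingSubgroup => c.out ∈ H), f (c.out x) := by
  have := fixingSubgroup_normal (L := L)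
  have hmem : ∀ τ ∈ H, ∀ c ∈ Finset.univ.filter (fun c : GalQ ⧸ L.fixingSubgroup => c.out ∈ H),
      (QuotientGroup.mk (τ * c.out) : GalQ ⧸ L.fixingSubgroup) ∈
        Finset.univ.filter (fun c : GalQ ⧸ L.fixingSubgroup => c.out ∈ H) := by
    intro τ hτ c hc
    refine Finset.mem_filter.mpr ⟨Finset.mem_univ _, (out_mem_iff hH _).mpr ?_⟩
    exact mul_mem hτ (Finset.mem_filter.mp hc).2
  have hcancel : ∀ (τ τ' : GalQ) (c : GalQ ⧸ L.fixingSubgroup), τ * τ' = 1 →
      (QuotientGroup.mk (τ * (QuotientGroup.mk (τ' * c.out) : GalQ ⧸ L.fixingSubgroup).out) :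
        GalQ ⧸ L.fixingSubgroup) = c := by
    intro τ τ' c h
    obtain ⟨u, hu⟩ := QuotientGroup.mk_out_eq_mul L.fixingSubgroup (τ' * c.out)
    rw [hu, ← mul_assoc, ← mul_assoc, h, one_mul, QuotientGroup.mk_mul_of_mem _ u.2,
      QuotientGroup.out_eq']
  refine Finset.prod_nbij' (fun c => QuotientGroup.mk (σ * c.out))
    (fun c => QuotientGroup.mk (σ⁻¹ * c.out)) (hmem σ hσ) (hmem σ⁻¹ (inv_mem hσ))
    (fun c _ => hcancel _ _ c (inv_mul_cancel σ)) (fun c _ => hcancel _ _ c (mul_inv_cancel σ))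
    fun c _ => ?_
  rw [out_apply _ hx, AlgEquiv.mul_apply]

variable [FiniteDimensional ℚ L]

theorem finite_quotient {H : Subgroup GalQ} (h : L.fixingSubgroup ≤ H) : Finite (GalQ ⧸ H) := by
  have hfin : Finite (GalQ ⧸ L.fixingSubgroup) := by
    refine Finite.of_injective
      (fun c : GalQ ⧸ L.fixingSubgroup => AlgEquiv.restrictNormal c.out L) fun a b hab => ?_
    rw [← QuotientGroup.out_eq' a, ← QuotientGroup.out_eq' b]
    refine QuotientGroup.eq.mpr ((IntermediateField.mem_fixingSubgroup_iff _ _).mpr fun x hx => ?_)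
    have e : a.out.restrictNormal L ⟨x, hx⟩ = b.out.restrictNormal L ⟨x, hx⟩ :=
      AlgEquiv.congr_fun hab _
    have e1 : ((a.out.restrictNormal L ⟨x, hx⟩ : L) : Qbar) = a.out x :=
      AlgEquiv.restrictNormal_commutes a.out L ⟨x, hx⟩
    have e2 : ((b.out.restrictNormal L ⟨x, hx⟩ : L) : Qbar) = b.out x :=
      AlgEquiv.restrictNormal_commutes b.out L ⟨x, hx⟩
    rw [e, e2] at e1
    rw [AlgEquiv.mul_apply, e1, ← AlgEquiv.mul_apply, inv_mul_cancel, AlgEquiv.one_apply]
  exact Finite.of_surjective (Subgroup.quotientMapOfLE h)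
    (fun c => QuotientGroup.induction_on c fun σ => ⟨QuotientGroup.mk σ, rfl⟩)

theorem exists_valuation_lt_one_of_not_mem (hA : A.LiesOverPrime p) (hp : p.Prime) {σ : GalQ}
    (hσ : σ ∉ localGroup L A) :
    ∃ x ∈ L, IsIntegral ℤ x ∧ A.valuation x = 1 ∧ A.valuation (σ x) < 1 := by
  by_contra hcon
  push Not at hcon
  have hdown : ∀ x ∈ L, IsIntegral ℤ x → A.valuation (σ x) < 1 → A.valuation x < 1 := by
    intro x hx hxi h
    refine lt_of_le_of_ne ((A.valuation_le_one_iff _).mpr (Galois.place_mem_of_isIntegral A hxi)) ?_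
    exact fun h1 => not_lt.mpr (hcon x hx hxi h1) h
  obtain ⟨N, hN, hσN⟩ : ∃ N : ℕ, 0 < N ∧ σ ^ N ∈ L.fixingSubgroup := by
    have := finite_quotient (L := L) le_rfl
    have := fixingSubgroup_normal (L := L)
    refine ⟨orderOf (QuotientGroup.mk' L.fixingSubgroup σ), orderOf_pos _, ?_⟩
    exact (QuotientGroup.eq_one_iff _).mp
      (pow_orderOf_eq_one (QuotientGroup.mk' L.fixingSubgroup σ))
  have hiter : ∀ (i : ℕ) (x : Qbar), x ∈ L → IsIntegral ℤ x →
      A.valuation ((σ ^ i) x) < 1 → A.valuation x < 1 := by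
    intro i
    induction i with
    | zero => intro x _ _ h; simpa using h
    | succ i ih =>
      intro x hx hxi h
      rw [pow_succ, AlgEquiv.mul_apply] at h
      exact hdown x hx hxi
        (ih (σ x) (apply_mem_level σ hx) (hxi.map σ.toAlgHom) h)
  have hup : ∀ x ∈ L, IsIntegral ℤ x → A.valuation x < 1 → A.valuation (σ x) < 1 := by
    intro x hx hxi h
    obtain ⟨i, rfl⟩ : ∃ i, N = i + 1 := ⟨N - 1, by omega⟩
    refine hiter i (σ x) (apply_mem_level σ hx) (hxi.map σ.toAlgHom) ?_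
    rw [← AlgEquiv.mul_apply, ← pow_succ, apply_eq_self_of_fixing hσN hx]
    exact h
  have hB : (σ⁻¹ • A).LiesOverPrime p := Galois.liesOverPrime_smul hA _
  obtain ⟨τ, hτ, hτA⟩ := Galois.exists_fixing_smul_eq L hA hB hp fun x hx hxi => by
    have hmem : ∀ y, (y ∈ σ⁻¹ • A ↔ σ y ∈ A) := fun y => by
      rw [ValuationSubring.mem_pointwise_smul_iff_inv_smul_mem, inv_inv, AlgEquiv.smul_def]
    rw [A.mem_nonunits_iff, (σ⁻¹ • A).mem_nonunits_iff_or, hmem, map_inv₀]
    rw [← σ.injective.eq_iff (a := x), map_zero, ← A.mem_nonunits_iff_or, A.mem_nonunits_iff]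
    exact ⟨hup x hx hxi, hdown x hx hxi⟩
  refine hσ ?_
  have hd : σ * τ ∈ A.decompositionSubgroup ℚ := by
    rw [MulAction.mem_stabilizer_iff, mul_smul, hτA, ← mul_smul, mul_inv_cancel, one_smul]
  have := (localGroup L A).mul_mem (decomposition_le_localGroup L A hd)
    ((localGroup L A).inv_mem (fixing_le_localGroup L A hτ))
  rwa [mul_inv_cancel_right] at this

omit [Normal ℚ L] [FiniteDimensional ℚ L] in
theorem valuation_le_one_of_isIntegral (A : ValuationSubring Qbar) {y : Qbar}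
    (hy : IsIntegral ℤ y) : A.valuation y ≤ 1 :=
  (A.valuation_le_one_iff y).mpr (Galois.place_mem_of_isIntegral A hy)

theorem exists_approx_unit (hA : A.LiesOverPrime p) (hp : p.Prime) :
    ∃ e ∈ L, IsIntegral ℤ e ∧ A.valuation e = 1 ∧ (∀ σ ∈ localGroup L A, σ e = e) ∧
      ∀ σ ∉ localGroup L A, A.valuation (σ e) < 1 := by
  classical
  have := finite_quotient (L := L) le_rfl
  have := Fintype.ofFinite (GalQ ⧸ L.fixingSubgroup)
  have hx : ∀ c : GalQ ⧸ L.fixingSubgroup, ∃ x ∈ L, IsIntegral ℤ x ∧ A.valuation x = 1 ∧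
      (c.out ∈ localGroup L A ∨ A.valuation (c.out x) < 1) := by
    intro c
    by_cases h : c.out ∈ localGroup L A
    · exact ⟨1, L.one_mem, isIntegral_one, by simp, Or.inl h⟩
    · obtain ⟨x, hx, hxi, hv, hlt⟩ := exists_valuation_lt_one_of_not_mem hA hp h
      exact ⟨x, hx, hxi, hv, Or.inr hlt⟩
  choose x hxL hxi hxv hxo using hx
  set e₀ := ∏ c, x c with he₀
  have he₀L : e₀ ∈ L := prod_mem fun c _ => hxL c
  have he₀i : IsIntegral ℤ e₀ := IsIntegral.prod _ fun c _ => hxi c
  have he₀out : ∀ σ ∉ localGroup L A, A.valuation (σ e₀) < 1 := by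
    intro σ hσ
    set c₀ : GalQ ⧸ L.fixingSubgroup := QuotientGroup.mk σ
    have h : A.valuation (c₀.out (x c₀)) < 1 := (hxo c₀).resolve_left
      (fun h => hσ ((out_mem_iff (fixing_le_localGroup L A) σ).mp h))
    rw [out_apply σ (hxL c₀)] at h
    rw [he₀, ← Finset.mul_prod_erase _ _ (Finset.mem_univ c₀), map_mul, map_mul]
    refine lt_of_le_of_lt (mul_le_of_le_one_right' ?_) h
    exact valuation_le_one_of_isIntegral A ((IsIntegral.prod _ fun c _ => hxi c).map σ.toAlgHom)
  set S := Finset.univ.filter fun c : GalQ ⧸ L.fixingSubgroup => c.out ∈ localGroup L A with hS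
  refine ⟨∏ c ∈ S, c.out e₀, prod_mem fun c _ => apply_mem_level _ he₀L,
    IsIntegral.prod _ fun c _ => he₀i.map c.out.toAlgHom, ?_, ?_, ?_⟩
  · rw [map_prod]
    refine Finset.prod_eq_one fun c hc => ?_
    rw [valuation_apply_of_mem_localGroup (Finset.mem_filter.mp hc).2 hA hp he₀L, he₀, map_prod]
    exact Finset.prod_eq_one fun c _ => hxv c
  · intro σ hσ
    rw [map_prod]
    exact prod_out_translate (fixing_le_localGroup L A) hσ he₀L id
  · intro σ hσ
    have h1 : (QuotientGroup.mk 1 : GalQ ⧸ L.fixingSubgroup) ∈ S :=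
      Finset.mem_filter.mpr
        ⟨Finset.mem_univ _, (out_mem_iff (fixing_le_localGroup L A) 1).mpr (one_mem _)⟩
    rw [← Finset.mul_prod_erase _ _ h1, map_mul, map_mul, out_apply 1 he₀L, AlgEquiv.one_apply]
    refine lt_of_le_of_lt (mul_le_of_le_one_right' ?_) (he₀out σ hσ)
    exact valuation_le_one_of_isIntegral A
      ((IsIntegral.prod _ fun c _ => he₀i.map c.out.toAlgHom).map σ.toAlgHom)

omit [Normal ℚ L] [FiniteDimensional ℚ L] in
theorem exists_residue_pow_eq_one (hA : A.LiesOverPrime p) (hp : p.Prime) {e : Qbar}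
    (he : A.valuation e = 1) : ∃ k : ℕ, 0 < k ∧ A.valuation (e ^ k - 1) < 1 := by
  have heA : e ∈ A := (A.valuation_le_one_iff e).mp he.le
  obtain ⟨k, hk, h⟩ := Galois.place_exists_pow_eq hA hp (IsLocalRing.residue A ⟨e, heA⟩)
  have hq : 1 < p ^ k := Nat.one_lt_pow hk.ne' hp.one_lt
  have h1 : A.valuation (e ^ p ^ k - e) < 1 := by
    rw [← map_pow, ← sub_eq_zero, ← map_sub, IsLocalRing.residue_eq_zero_iff] at h
    exact (A.valuation_lt_one_iff _).mp h
  refine ⟨p ^ k - 1, by omega, ?_⟩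
  have hprod : e * (e ^ (p ^ k - 1) - 1) = e ^ p ^ k - e := by
    rw [mul_sub, mul_one, ← pow_succ', Nat.sub_add_cancel hq.le]
  rw [← hprod, map_mul, he, one_mul] at h1
  exact h1

/-- An element of `L` fixed by the decomposition group, close to `1` at `A` and to `0` at the
other places. -/
theorem exists_approx_one (hA : A.LiesOverPrime p) (hp : p.Prime) (N : ℕ) :
    ∃ e ∈ L, IsIntegral ℤ e ∧ A.valuation (e - 1) ≤ A.valuation (p : Qbar) ^ N ∧
      (∀ σ ∈ localGroup L A, σ e = e) ∧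
      ∀ σ ∉ localGroup L A, A.valuation (σ e) ≤ A.valuation (p : Qbar) ^ N := by
  obtain ⟨e, heL, hei, hev, hefix, heout⟩ := exists_approx_unit (L := L) hA hp
  obtain ⟨k, hk, hek⟩ := exists_residue_pow_eq_one hA hp hev
  have := finite_quotient (fixing_le_localGroup L A)
  have := Fintype.ofFinite (GalQ ⧸ localGroup L A)
  have hrep : ∀ σ : GalQ, σ ∉ localGroup L A →
      (QuotientGroup.mk σ : GalQ ⧸ localGroup L A).out ∉ localGroup L A ∧
        (QuotientGroup.mk σ : GalQ ⧸ localGroup L A).out e = σ e := by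
    intro σ hσ
    obtain ⟨u, hu⟩ := QuotientGroup.mk_out_eq_mul (localGroup L A) σ
    rw [hu]
    exact ⟨fun h => hσ ((Subgroup.mul_mem_cancel_right _ u.2).mp h),
      by rw [AlgEquiv.mul_apply, hefix u u.2]⟩
  have hn : ∀ c : GalQ ⧸ localGroup L A, c.out ∉ localGroup L A →
      ∃ n₀, ∀ n, n₀ ≤ n → A.valuation (c.out e) ^ n ≤ A.valuation (p : Qbar) ^ N := fun c hc =>
    exists_pow_valuation_le hA hp (heout _ hc) N
  choose! n hn using hn
  set a := k * (Finset.univ.sup n + 1) with ha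
  set e₁ := e ^ a with he₁
  have hout : ∀ σ ∉ localGroup L A, A.valuation (σ e₁) ≤ A.valuation (p : Qbar) ^ N := by
    intro σ hσ
    obtain ⟨h1, h2⟩ := hrep σ hσ
    rw [he₁, map_pow, map_pow, ← h2]
    refine hn _ h1 a ?_
    exact (Finset.le_sup (Finset.mem_univ _)).trans
      ((Nat.le_succ _).trans (Nat.le_mul_of_pos_left _ hk))
  have hin : A.valuation (e₁ - 1) < 1 := by
    rw [he₁, ha, pow_mul, ← geom_sum_mul, map_mul]
    refine lt_of_le_of_lt (mul_le_of_le_one_left' ?_) hek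
    exact A.valuation.map_sum_le fun i _ => by rw [map_pow, map_pow, hev, one_pow, one_pow]
  obtain ⟨b, hb⟩ := exists_pow_valuation_le hA hp hin N
  have hle1 : ∀ σ : GalQ, A.valuation (σ e₁) ≤ 1 := fun σ =>
    valuation_le_one_of_isIntegral A ((hei.pow a).map σ.toAlgHom)
  refine ⟨1 - (1 - e₁) ^ b, L.sub_mem L.one_mem (pow_mem (L.sub_mem L.one_mem (pow_mem heL a)) b),
    isIntegral_one.sub ((isIntegral_one.sub (hei.pow a)).pow b), ?_, ?_, ?_⟩
  · rw [show 1 - (1 - e₁) ^ b - 1 = -(1 - e₁) ^ b from by ring, Valuation.map_neg, map_pow,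
      Valuation.map_sub_swap]
    exact hb b le_rfl
  · intro σ hσ
    rw [map_sub, map_pow, map_sub, map_one, he₁, map_pow, hefix σ hσ]
  · intro σ hσ
    rw [show σ (1 - (1 - e₁) ^ b) = 1 - (1 - σ e₁) ^ b by simp]
    have h1 : (1 : Qbar) - (1 - σ e₁) ^ b = σ e₁ * ∑ i ∈ Finset.range b, (1 - σ e₁) ^ i := by
      have h2 := geom_sum_mul (1 - σ e₁) b
      linear_combination h2
    rw [h1, map_mul]
    refine le_trans (mul_le_of_le_one_right' ?_) (hout σ hσ)
    refine A.valuation.map_sum_le fun i _ => ?_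
    rw [map_pow]
    refine pow_le_one' ((Valuation.map_sub _ _ _).trans (max_le ?_ (hle1 σ))) i
    rw [map_one]

end Fermat.Agent.ECFormal
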