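import Fermat.Agent.ECFormal.Supersingular
import Fermat.Agent.ECFormal.Ordinary
import Fermat.Agent.ECFormal.Good.Flat
import Fermat.Agent.ECFormal.Mult.Flat
import Fermat.Agent.FFG.RatLocal

/-!
# An elliptic curve at the residue characteristic (public statements)

`W` an integral Weierstrass curve, `A` a place of `ℚ̄` over the odd prime `p`.
The kernel of reduction on `E[p ^ n]` is `ECLocal.InKernel A`.
* ordinary (in particular multiplicative): it is cyclic of order `p ^ n`, stable under the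
  decomposition group, and inertia acts trivially on the quotient;
* supersingular: inertia acts irreducibly on `E[p]`;
* multiplicative: the decomposition group acts on the quotient by a sign `z`, and on the line by
  `z` times the cyclotomic character;
* good reduction, or multiplicative with `p ∣ v(Δ)`: flat models.
-/

set_option autoImplicit false

noncomputable section

namespace Fermat.Agent.ECFormal

open WeierstrassCurve
open Fermat.Agent.Galois (Qbar GalQ)
open Fermat.Agent.ECLocal (InKernel NonsingRed)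
open scoped WeierstrassCurve.Affine

variable (W : WeierstrassCurve ℤ) {p : ℕ} {A : ValuationSubring Qbar}

/-- Multiplicative reduction is ordinary. -/
theorem ordinaryAtPlace_of_mult (hΔ : W.Δ ≠ 0) (hp : p.Prime) (hp2 : p ≠ 2)
    (hA : A.LiesOverPrime p) (hd : (p : ℤ) ∣ W.Δ) (hc : ¬ (p : ℤ) ∣ W.c₄) :
    OrdinaryAtPlace W p A := by
  exact ordinary_of_mult W hΔ hA hp hp2 hd hc

/-- The kernel of reduction contains points of every order `p ^ n`. -/
theorem exists_inKernel_addOrderOf (hΔ : W.Δ ≠ 0) (hp : p.Prime) (hp2 : p ≠ 2)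
    (hA : A.LiesOverPrime p) (hss : SemistableAt W p) (n : ℕ) :
    ∃ P : Tors W (p ^ n), InKernel A (P : PointQbar W) ∧ addOrderOf P = p ^ n := by
  exact exists_inKernel_tors W hΔ hA hp hp2 hss n

/-- Ordinary case: the kernel of reduction on `E[p ^ n]` is cyclic of order `p ^ n`. -/
theorem inKernel_iff_mem_zmultiples (hΔ : W.Δ ≠ 0) (hp : p.Prime) (hp2 : p ≠ 2)
    (hA : A.LiesOverPrime p) (hss : SemistableAt W p) (hord : OrdinaryAtPlace W p A) {n : ℕ}
    {P : Tors W (p ^ n)} (hP : InKernel A (P : PointQbar W)) (hPn : addOrderOf P = p ^ n)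
    (Q : Tors W (p ^ n)) :
    InKernel A (Q : PointQbar W) ↔ Q ∈ AddSubgroup.zmultiples P := by
  exact inKernel_iff_mem_zmultiples_tors W hΔ hp hord hP hPn Q

/-- Ordinary case: a kernel point of full order is part of a basis. -/
theorem exists_complement (hΔ : W.Δ ≠ 0) (hp : p.Prime) (hp2 : p ≠ 2)
    (hA : A.LiesOverPrime p) (hss : SemistableAt W p) (hord : OrdinaryAtPlace W p A) {n : ℕ}
    {P : Tors W (p ^ n)} (hP : InKernel A (P : PointQbar W)) (hPn : addOrderOf P = p ^ n) :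
    ∃ Q : Tors W (p ^ n), addOrderOf Q = p ^ n ∧
      ∀ R : Tors W (p ^ n), ∃ a b : ℤ, R = a • P + b • Q := by
  obtain ⟨Q, h1, -, h2⟩ := exists_complement_tors W hΔ hp hord hP hPn
  exact ⟨Q, h1, h2⟩

/-- The decomposition group preserves the kernel of reduction. -/
theorem inKernel_smul {σ : GalQ} (hσ : σ ∈ A.decompositionSubgroup ℚ) {n : ℕ}
    {P : Tors W n} (hP : InKernel A (P : PointQbar W)) :
    InKernel A ((σ • P : Tors W n) : PointQbar W) := by
  exact inKernel_smul_tors W hσ hP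

/-- Ordinary case: inertia acts trivially modulo the kernel of reduction. -/
theorem inKernel_smul_sub_of_ordinary (hΔ : W.Δ ≠ 0) (hp : p.Prime) (hp2 : p ≠ 2)
    (hA : A.LiesOverPrime p) (hss : SemistableAt W p) (hord : OrdinaryAtPlace W p A)
    {σ : GalQ} (hσ : σ ∈ A.inertiaSubgroupIn ℚ) {n : ℕ} (P : Tors W (p ^ n)) :
    InKernel A ((σ • P - P : Tors W (p ^ n)) : PointQbar W) := by
  exact inKernel_smul_sub_tors W hΔ hA hp hp2 hss hσ P

/-- Supersingular case: inertia acts irreducibly on `E[p]`. -/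
theorem eq_bot_or_eq_top_of_not_ordinary (hΔ : W.Δ ≠ 0) (hp : p.Prime) (hp2 : p ≠ 2)
    (hA : A.LiesOverPrime p) (hgood : ¬ (p : ℤ) ∣ W.Δ) (hord : ¬ OrdinaryAtPlace W p A)
    (N : Submodule (ZMod p) (Tors W p))
    (hN : ∀ σ ∈ A.inertiaSubgroupIn ℚ, ∀ x ∈ N, σ • x ∈ N) : N = ⊥ ∨ N = ⊤ := by
  exact eq_bot_or_eq_top W hΔ hA hp hp2 hgood hord N hN

/-- A Galois-stable proper nonzero submodule of `E[p]` forces ordinary reduction at `p`. -/
theorem ordinaryAtPlace_of_reducible (hΔ : W.Δ ≠ 0) (hp : p.Prime) (hp2 : p ≠ 2)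
    (hA : A.LiesOverPrime p) (hss : SemistableAt W p) (N : Submodule (ZMod p) (Tors W p))
    (hN : WeierstrassCurve.Affine.Point.IsGaloisStable ℚ N) (h0 : N ≠ ⊥) (h1 : N ≠ ⊤) :
    OrdinaryAtPlace W p A := by
  by_contra hord
  by_cases hd : (p : ℤ) ∣ W.Δ
  · exact hord (ordinaryAtPlace_of_mult W hΔ hp hp2 hA hd (hss hd))
  · exact (eq_bot_or_eq_top_of_not_ordinary W hΔ hp hp2 hA hd hord N
      fun σ _ x hx => hN σ x hx).elim h0 h1

/-- Multiplicative reduction: torsion of `p`-power order on the identity component lies in the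
kernel of reduction. -/
theorem inKernel_of_nonsingRed_of_mult (hΔ : W.Δ ≠ 0) (hp : p.Prime) (hp2 : p ≠ 2)
    (hA : A.LiesOverPrime p) (hd : (p : ℤ) ∣ W.Δ) (hc : ¬ (p : ℤ) ∣ W.c₄) {n : ℕ}
    (P : Tors W (p ^ n)) (hP : NonsingRed A (P : PointQbar W)) :
    InKernel A (P : PointQbar W) := by
  exact inKernel_of_nonsingRed W hΔ hA hp hp2 hd hc n _ (nsmul_tors_eq_zero W P) hP

/-- Multiplicative reduction: a decomposition element acts on every quotient by the same sign. -/
theorem exists_sign_of_mult (hΔ : W.Δ ≠ 0) (hp : p.Prime) (hp2 : p ≠ 2)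
    (hA : A.LiesOverPrime p) (hd : (p : ℤ) ∣ W.Δ) (hc : ¬ (p : ℤ) ∣ W.c₄)
    {σ : GalQ} (hσ : σ ∈ A.decompositionSubgroup ℚ) :
    ∃ z : ℤ, (z = 1 ∨ z = -1) ∧ (σ ∈ A.inertiaSubgroupIn ℚ → z = 1) ∧
      ∀ (n : ℕ) (P : Tors W (p ^ n)),
        InKernel A ((σ • P - z • P : Tors W (p ^ n)) : PointQbar W) := by
  exact exists_sign_tors W hΔ hA hp hp2 hd hc hσ

/-- Multiplicative reduction: on the line, a decomposition element acts by `z` times the
cyclotomic character. -/
theorem smul_eq_cyclotomic_mul_sign_of_mult (hΔ : W.Δ ≠ 0) (hp : p.Prime) (hp2 : p ≠ 2)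
    (hA : A.LiesOverPrime p) (hd : (p : ℤ) ∣ W.Δ) (hc : ¬ (p : ℤ) ∣ W.c₄)
    {σ : GalQ} (hσ : σ ∈ A.decompositionSubgroup ℚ) {z : ℤ} (hz : z = 1 ∨ z = -1)
    (hzq : ∀ (n : ℕ) (P : Tors W (p ^ n)),
      InKernel A ((σ • P - z • P : Tors W (p ^ n)) : PointQbar W))
    {n a : ℕ} (ha : ∀ μ : Qbar, μ ^ p ^ n = 1 → σ μ = μ ^ a)
    (P : Tors W (p ^ n)) (hP : InKernel A (P : PointQbar W)) :
    σ • P = ((a : ℤ) * z) • P := by
  exact smul_eq_cyclotomic_mul_sign W hΔ hA hp hp2 (fun _ => hc)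
    (ordinary_of_mult W hΔ hA hp hp2 hd hc) hσ hz hzq ha P hP

/-- Good reduction: `E[p ^ n]` is finite flat over `ℤ_(p)`. -/
theorem hasFlatModel_of_good (hp : p.Prime) (hgood : ¬ (p : ℤ) ∣ W.Δ) (n : ℕ) :
    FFG.HasFlatModel (GaloisRep.ratLocalizedAt p) ℚ Qbar
      (M := Tors W (p ^ n)) (fun σ P => σ • P) :=
  hasFlatModelAt_tors_of_good W hp hgood n

/-- Multiplicative reduction with `p ∣ v(Δ)` (peu ramifiée): `E[p]` is finite flat over `ℤ_(p)`. -/
theorem hasFlatModel_of_mult (hΔ : W.Δ ≠ 0) (hp : p.Prime) (hp2 : p ≠ 2) (hd : (p : ℤ) ∣ W.Δ)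
    (hc : ¬ (p : ℤ) ∣ W.c₄) (hv : p ∣ padicValInt p W.Δ) :
    FFG.HasFlatModel (GaloisRep.ratLocalizedAt p) ℚ Qbar
      (M := Tors W p) (fun σ P => σ • P) := by
  exact hasFlatModelAt_tors_of_mult W hΔ hp hp2 hd hc hv

end Fermat.Agent.ECFormal
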