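import Fermat.Agent.ECFormal.Kernel
import Fermat.Agent.ECFormal.InertiaFixed

/-!
# Supersingular reduction: inertia acts irreducibly on `E[p]`

All `p`-torsion abscissas have valuation `> 1` and their product has valuation `v(p)⁻¹`; those of
a stable line would have a product fixed by inertia, hence an integral power of `v(p)`.
-/

set_option autoImplicit false

noncomputable section

namespace Fermat.Agent.ECFormal

open WeierstrassCurve Polynomial
open Fermat.Agent.Galois (Qbar GalQ)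
open Fermat.Agent.ECLocal (InKernel NonsingRed)
open scoped WeierstrassCurve.Affine

variable (W : WeierstrassCurve ℤ) {p : ℕ} {A : ValuationSubring Qbar}

theorem not_mem_of_isRoot_of_not_ordinary (hΔ : W.Δ ≠ 0) (hp : p.Prime) (hp2 : p ≠ 2)
    (hord : ¬ OrdinaryAtPlace W p A) {r : Qbar} (hr : (divPoly W p).IsRoot r) : r ∉ A := by
  intro hrA
  obtain ⟨y, hy⟩ := exists_point_over W hΔ r
  exact hord ⟨⟨Affine.Point.some r y hy,
    (mem_tors_iff W _).mpr ((natSmul_some_eq_zero_iff W hp hp2 hy).mpr hr)⟩, fun h => h hrA⟩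

theorem prod_valuation_roots (hΔ : W.Δ ≠ 0) (hA : A.LiesOverPrime p) (hp : p.Prime)
    (hp2 : p ≠ 2) (hss : SemistableAt W p) (hord : ¬ OrdinaryAtPlace W p A) :
    ((divPoly W p).roots.map fun r => A.valuation r).prod = (A.valuation (p : Qbar))⁻¹ := by
  obtain ⟨k, hk⟩ := exists_coeff_unit W hA hp hp2 hss
  have h1 : ∀ r ∈ (divPoly W p).roots, 1 ≤ A.valuation r := fun r hr =>
    le_of_lt (not_le.mp fun h => not_mem_of_isRoot_of_not_ordinary W hΔ hp hp2 hord
      (mem_roots'.mp hr).2 ((A.valuation_le_one_iff r).mp h))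
  have h0 := valuation_coeff_le_coeff_zero A.valuation h1 k
  rw [hk] at h0
  have h2 := valuation_coeff_zero_eq A.valuation (divPoly W p)
  rw [le_antisymm (valuation_coeff_divPoly_le W A p 0) h0, leadingCoeff_divPoly W hp hp2] at h2
  exact (eq_inv_of_mul_eq_one_right h2.symm)

/-- Supersingular reduction: no line of `E[p]` is stable under inertia. -/
theorem eq_bot_or_eq_top (hΔ : W.Δ ≠ 0) (hA : A.LiesOverPrime p) (hp : p.Prime) (hp2 : p ≠ 2)
    (hgood : ¬ (p : ℤ) ∣ W.Δ) (hord : ¬ OrdinaryAtPlace W p A)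
    (N : Submodule (ZMod p) (Tors W p))
    (hN : ∀ σ ∈ A.inertiaSubgroupIn ℚ, ∀ x ∈ N, σ • x ∈ N) : N = ⊥ ∨ N = ⊤ := by
  classical
  by_contra hcon
  push Not at hcon
  obtain ⟨hbot, htop⟩ := hcon
  obtain ⟨x₀, hx₀N, hx₀⟩ := N.ne_bot_iff.mp hbot
  obtain ⟨x₁, hx₁⟩ : ∃ x, x ∉ N := by
    by_contra h
    push Not at h
    exact htop (eq_top_iff.mpr fun x _ => h x)
  have := finite_tors W hΔ hp.ne_zero
  have := Fintype.ofFinite (Tors W p)
  -- the abscissa of a point
  let xc : PointQbar W → Qbar := fun P => match P with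
    | .zero => 0
    | .some x _ _ => x
  set s := (Finset.univ.filter fun x : Tors W p => x ∈ N ∧ x ≠ 0).image fun x => xc x.1 with hs
  have hroot : ∀ x : Tors W p, x ≠ 0 → (divPoly W p).IsRoot (xc x.1) := by
    intro x hx
    rcases hP : (x : PointQbar W) with _ | ⟨a, b, hab⟩
    · exact absurd (Subtype.ext hP) hx
    · exact (natSmul_some_eq_zero_iff W hp hp2 hab).mp (hP ▸ nsmul_tors_eq_zero W x)
  have hσ : ∀ (σ : GalQ) (x : Tors W p), xc (σ • x).1 = σ (xc x.1) := by
    intro σ x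
    have h : ((σ • x : Tors W p) : PointQbar W) = Affine.Point.map σ.toAlgHom x.1 := rfl
    rcases hP : (x : PointQbar W) with _ | ⟨a, b, hab⟩
    · rw [h, hP]
      change (0 : Qbar) = σ 0
      rw [map_zero]
    · rw [h, hP, Affine.Point.map_some]
      rfl
  have hsfix : ∀ σ ∈ A.inertiaSubgroupIn ℚ, σ (∏ r ∈ s, r) = ∏ r ∈ s, r := by
    intro σ hσI
    rw [map_prod]
    have hmaps : ∀ τ ∈ A.inertiaSubgroupIn ℚ, ∀ r ∈ s, τ r ∈ s := by
      intro τ hτ r hr
      obtain ⟨x, hx, rfl⟩ := Finset.mem_image.mp hr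
      obtain ⟨-, hxN, hx0⟩ := Finset.mem_filter.mp hx
      exact Finset.mem_image.mpr ⟨τ • x, Finset.mem_filter.mpr ⟨Finset.mem_univ _, hN τ hτ x hxN,
        fun h => hx0 ((smul_eq_zero_iff_eq τ).mp h)⟩, hσ τ x⟩
    refine Finset.prod_nbij' (fun r => σ r) (fun r => σ⁻¹ r) (hmaps σ hσI)
      (hmaps σ⁻¹ (inv_mem hσI)) (fun r _ => ?_) (fun r _ => ?_) fun r _ => rfl
    · rw [← AlgEquiv.mul_apply, inv_mul_cancel, AlgEquiv.one_apply]
    · rw [← AlgEquiv.mul_apply, mul_inv_cancel, AlgEquiv.one_apply]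
  set R := (divPoly W p).roots with hR
  have hsR : s ⊆ R.toFinset := by
    intro r hr
    obtain ⟨x, hx, rfl⟩ := Finset.mem_image.mp hr
    exact Multiset.mem_toFinset.mpr
      ((mem_roots (divPoly_ne_zero W hp hp2)).mpr (hroot x (Finset.mem_filter.mp hx).2.2))
  have hgt : ∀ r ∈ R.toFinset, 1 < A.valuation r := fun r hr =>
    not_le.mp fun h => not_mem_of_isRoot_of_not_ordinary W hΔ hp hp2 hord
      (mem_roots'.mp (Multiset.mem_toFinset.mp hr)).2 ((A.valuation_le_one_iff r).mp h)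
  have hne : s.Nonempty :=
    ⟨_, Finset.mem_image.mpr ⟨x₀, Finset.mem_filter.mpr ⟨Finset.mem_univ _, hx₀N, hx₀⟩, rfl⟩⟩
  have hx₁0 : x₁ ≠ 0 := fun h => hx₁ (h ▸ N.zero_mem)
  have hr₁ : xc x₁.1 ∈ R.toFinset ∧ xc x₁.1 ∉ s := by
    refine ⟨Multiset.mem_toFinset.mpr
      ((mem_roots (divPoly_ne_zero W hp hp2)).mpr (hroot x₁ hx₁0)), fun hmem => ?_⟩
    obtain ⟨x, hx, hxeq⟩ := Finset.mem_image.mp hmem
    obtain ⟨-, hxN, hx0⟩ := Finset.mem_filter.mp hx
    rcases hP : (x : PointQbar W) with _ | ⟨a, b, hab⟩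
    · exact hx0 (Subtype.ext hP)
    rcases hP₁ : (x₁ : PointQbar W) with _ | ⟨a₁, b₁, hab₁⟩
    · exact hx₁0 (Subtype.ext hP₁)
    rw [hP, hP₁] at hxeq
    change a = a₁ at hxeq
    subst hxeq
    rcases Affine.Y_eq_of_X_eq hab₁.left hab.left rfl with hy | hy
    · refine hx₁ ?_
      subst hy
      rwa [show x₁ = x from Subtype.ext (hP₁.trans hP.symm)]
    · refine hx₁ ?_
      subst hy
      rw [show x₁ = -x from Subtype.ext (by
        change (x₁ : PointQbar W) = -(x : PointQbar W)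
        rw [hP₁, hP, Affine.Point.neg_some])]
      exact N.neg_mem hxN
  have hprod := prod_valuation_roots W hΔ hA hp hp2 (semistableAt_of_good hgood) hord
  obtain ⟨m, hm⟩ := valuation_eq_zpow_of_fixed hA hp
    (Finset.prod_ne_zero_iff.mpr fun r hr h => by
      have := hgt r (hsR hr)
      rw [h, map_zero] at this
      exact not_lt.mpr zero_le this) hsfix
  have h0 := valuation_natPrime_ne_zero hp A
  have h1 := valuation_natPrime_lt_one hA
  have hlow : 1 < A.valuation (∏ r ∈ s, r) := by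
    rw [map_prod]
    obtain ⟨r, hr⟩ := hne
    exact (hgt r (hsR hr)).trans_le (Finset.single_le_prod' (fun r hr => (hgt r (hsR hr)).le) hr)
  have hhigh : A.valuation (∏ r ∈ s, r) < (A.valuation (p : Qbar))⁻¹ := by
    rw [← hprod, map_prod]
    calc ∏ r ∈ s, A.valuation r < ∏ r ∈ R.toFinset, A.valuation r := by
          rw [← Finset.prod_sdiff hsR, mul_comm]
          refine lt_mul_of_one_lt_right ?_ ((hgt _ hr₁.1).trans_le
            (Finset.single_le_prod' (fun r hr => (hgt r (Finset.mem_sdiff.mp hr).1).le)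
              (Finset.mem_sdiff.mpr hr₁)))
          exact zero_lt_iff.mpr (Finset.prod_ne_zero_iff.mpr fun r hr h => by
            have := hgt r (hsR hr)
            rw [h] at this
            exact not_lt.mpr zero_le this)
      _ ≤ (R.map fun r => A.valuation r).prod := by
          rw [Finset.prod_multiset_map_count]
          refine Finset.prod_le_prod' fun r hr => ?_
          exact le_self_pow (hgt r hr).le
            (Multiset.count_pos.mpr (Multiset.mem_toFinset.mp hr)).ne'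
  rw [hm] at hlow hhigh
  rw [← zpow_neg_one] at hhigh
  rw [← zpow_zero (A.valuation (p : Qbar))] at hlow
  have e1 := (zpow_lt_zpow_iff_right_of_lt_one₀ (zero_lt_iff.mpr h0) h1).mp hlow
  have e2 := (zpow_lt_zpow_iff_right_of_lt_one₀ (zero_lt_iff.mpr h0) h1).mp hhigh
  omega

end Fermat.Agent.ECFormal
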